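import Fermat.Agent.ClassField.Devissage

/-!
# Quotients by cohomologically trivial submodules

If the kernel of a surjection `π : A → A'` is cohomologically trivial in every step of index `p`,
the hypotheses of the devissage pass from `A` to `A'`, and a class of `A` which dies in `A'` is
already trivial.
-/

set_option autoImplicit false
set_option linter.unusedSectionVars false

namespace Fermat.Agent.ClassField.Devissage

open CochainH2 Finset

variable {G : Type*} [Group G] {A A' W : Type*} [AddCommGroup A] [DistribMulAction G A]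
  [AddCommGroup A'] [DistribMulAction G A'] [AddCommGroup W] [DistribMulAction G W]

variable (W) in
/-- In every step of index `p` the norm is surjective on invariants and its kernel consists of
differences. -/
def StepAcyclic (G : Type*) [Group G] [DistribMulAction G W] (p : ℕ) : Prop :=
  ∀ V U : Subgroup G, U ≤ V → (U.subgroupOf V).Normal → U.relIndex V = p → ∀ σ ∈ V, σ ∉ U →
    (∀ x ∈ fixedPts W U, powSum σ p x = 0 → ∃ y ∈ fixedPts W U, σ • y - y = x) ∧
      (∀ x ∈ fixedPts W V, ∃ y ∈ fixedPts W U, powSum σ p y = x)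

theorem map_powSum (f : W →+ A) (hf : ∀ (g : G) (w : W), f (g • w) = g • f w) (σ : G) (p : ℕ)
    (w : W) : f (powSum σ p w) = powSum σ p (f w) := by
  simp [powSum_apply, map_sum, hf]

theorem StepAcyclic.stepHyp {p : ℕ} [Fact p.Prime] (h : StepAcyclic W G p) : StepHyp W G p := by
  intro V U hUV hn hidx σ hσV hσU
  obtain ⟨h1, h2⟩ := h V U hUV hn hidx σ hσV hσU
  have hle : fixedPts W V ≤ (fixedPts W U).map (powSum (A := W) σ p) := fun x hx => by
    obtain ⟨y, hy, e⟩ := h2 x hx
    exact ⟨y, hy, e⟩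
  refine ⟨h1, ?_⟩
  rw [AddSubgroup.relIndex_eq_one.mpr hle]
  exact ⟨one_ne_zero, (Fact.out : p.Prime).one_lt.le⟩

theorem StepAcyclic.pi {p : ℕ} (h : StepAcyclic W G p) (m : ℕ) :
    StepAcyclic (Fin m → W) G p := by
  intro V U hUV hn hidx σ hσV hσU
  obtain ⟨h1, h2⟩ := h V U hUV hn hidx σ hσV hσU
  have hsum : ∀ (x : Fin m → W) (i : Fin m), powSum σ p x i = powSum σ p (x i) := fun x i => by
    simp [powSum_apply]
  refine ⟨fun x hx h0 => ?_, fun x hx => ?_⟩
  · choose y hy hyx using fun i => h1 (x i) (fun g hg => congrFun (hx g hg) i)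
      (by rw [← hsum, h0]; rfl)
    exact ⟨y, fun g hg => funext fun i => hy i g hg, funext hyx⟩
  · choose y hy hyx using fun i => h2 (x i) (fun g hg => congrFun (hx g hg) i)
    exact ⟨y, fun g hg => funext fun i => hy i g hg, funext fun i => by rw [hsum, hyx]⟩

/-- A cohomologically trivial module has no `H¹`, `H²`. -/
theorem StepAcyclic.h1_h2 [Finite G] {p : ℕ} [Fact p.Prime] (hG : IsPGroup p G)
    (h : StepAcyclic W G p) (V : Subgroup G) :
    H1Vanishes V W ∧ ∀ f ∈ Z2 V W, ∃ x : V → W, d1 V W x = f := by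
  refine ⟨(h1_h2_le hG h.stepHyp V).1, fun f hf => (mk_eq_zero (f := ⟨f, hf⟩)).1 ?_⟩
  by_contra hne
  set z := mk V W ⟨f, hf⟩
  -- multiples of `z` in many coordinates give too many classes
  let m : ℕ := Nat.card V + 1
  obtain ⟨-, hfin, hle⟩ := h1_h2_le hG (h.pi m).stepHyp V
  let ι : Fin m → (W →+ (Fin m → W)) := fun i => AddMonoidHom.single (fun _ : Fin m => W) i
  have hι : ∀ (i : Fin m) (g : V) (w : W), ι i ((MonoidHom.id V) g • w) = g • ι i w :=
    fun i g w => by
      funext j
      by_cases hj : j = i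
      · subst hj; simp [ι]
      · simp [ι, hj]
  let F : Fin m → H2 V (Fin m → W) := fun i => CochainH2.map (MonoidHom.id V) (ι i) (hι i) z
  let P : Fin m → (Fin m → W) →+ W := fun i => Pi.evalAddMonoidHom _ i
  have hP : ∀ (i : Fin m) (g : V) (x : Fin m → W),
      P i ((MonoidHom.id V) g • x) = g • P i x := fun i g x => rfl
  have hinj : Function.Injective F := by
    intro i j hij
    by_contra hne'
    refine hne ?_
    have e := congrArg (CochainH2.map (MonoidHom.id V) (P i) (hP i)) hij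
    simp only [F] at e
    rw [CochainH2.map_map, CochainH2.map_map] at e
    have e1 : (P i).comp (ι i) = AddMonoidHom.id W := AddMonoidHom.ext fun w => by simp [P, ι]
    have e2 : (P i).comp (ι j) = 0 := AddMonoidHom.ext fun w => by
      simp [P, ι, hne']
    have l : CochainH2.map (G := V) (A := W) ((MonoidHom.id V).comp (MonoidHom.id V))
        ((P i).comp (ι i)) (fun g a => (congrArg (P i) (hι i g a)).trans (hP i g _)) z = z := by
      refine congrArg (CochainH2.mk V W) (Subtype.ext (funext fun x => ?_))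
      show (P i) (ι i (f (x.1, x.2))) = f x
      exact DFunLike.congr_fun e1 _
    have r : CochainH2.map (G := V) (A := W) ((MonoidHom.id V).comp (MonoidHom.id V))
        ((P i).comp (ι j)) (fun g a => (congrArg (P i) (hι j g a)).trans (hP i g _)) z = 0 := by
      refine mk_eq_zero.2 ⟨0, funext fun x => ?_⟩
      rw [map_zero]
      exact (DFunLike.congr_fun e2 _).symm
    rwa [l, r] at e
  have := Nat.card_le_card_of_injective F hinj
  rw [Nat.card_fin] at this
  omega

theorem powSum_mem_fixedPts {p : ℕ} [Fact p.Prime] {V U : Subgroup G} (hUV : U ≤ V)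
    [hn : (U.subgroupOf V).Normal] (hidx : U.relIndex V = p) {σ : G} (hσV : σ ∈ V) (hσU : σ ∉ U)
    {a : A} (ha : a ∈ fixedPts A U) : powSum σ p a ∈ fixedPts A V := by
  have hcard : Nat.card (V ⧸ U.subgroupOf V) = p := hidx
  have hne : ((⟨σ, hσV⟩ : V) : V ⧸ U.subgroupOf V) ≠ 1 := fun h =>
    hσU (Subgroup.mem_subgroupOf.1 ((QuotientGroup.eq_one_iff _).1 h))
  have hσp : σ ^ p ∈ U := by
    have h : ((⟨σ, hσV⟩ : V) : V ⧸ U.subgroupOf V) ^ p = 1 := by rw [← hcard, pow_card_eq_one']
    rw [← QuotientGroup.mk_pow, QuotientGroup.eq_one_iff, Subgroup.mem_subgroupOf] at h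
    exact h
  have hsig : ∀ i : ℕ, σ ^ i • powSum σ p a = powSum σ p a := by
    intro i
    induction i with
    | zero => rw [pow_zero, one_smul]
    | succ i ih =>
      rw [pow_succ, mul_smul]
      have h : σ • powSum σ p a = powSum σ p a := by
        have e := Finset.sum_range_succ' (fun i => σ ^ i • a) p
        rw [Finset.sum_range_succ, ha _ hσp, pow_zero, one_smul] at e
        rw [powSum_apply, Finset.smul_sum]
        simpa [← mul_smul, ← pow_succ'] using (add_right_cancel e).symm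
      rw [h, ih]
  have hU : ∀ u ∈ U, u • powSum σ p a = powSum σ p a := fun u hu => by
    rw [powSum_apply, Finset.smul_sum]
    refine Finset.sum_congr rfl fun i _ => ?_
    rw [← mul_smul, show u * σ ^ i = σ ^ i * ((σ ^ i)⁻¹ * u * σ ^ i) by group, mul_smul]
    congr 1
    have h := hn.conj_mem (⟨u, hUV hu⟩ : V) (Subgroup.mem_subgroupOf.2 hu)
      (⟨σ, hσV⟩ ^ i)⁻¹
    rw [Subgroup.mem_subgroupOf, inv_inv] at h
    exact ha _ (by simpa using h)
  intro g hg
  obtain ⟨i, hi⟩ := Submonoid.mem_powers_iff _ _ |>.1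
    (mem_powers_of_prime_card hcard hne (g' := ((⟨g, hg⟩ : V) : V ⧸ U.subgroupOf V)))
  rw [← QuotientGroup.mk_pow, QuotientGroup.eq, Subgroup.mem_subgroupOf] at hi
  have hi' : (σ ^ i)⁻¹ * g ∈ U := by simpa using hi
  rw [← mul_inv_cancel_left (σ ^ i) g, mul_smul, hU _ hi', hsig]

variable (π : A →+ A') (hπ : ∀ (g : G) (a : A), π (g • a) = g • π a)
  (ι : W →+ A) (hι : ∀ (g : G) (w : W), ι (g • w) = g • ι w)
  (hexact : ∀ a, π a = 0 ↔ ∃ w, ι w = a) (hinj : Function.Injective ι)
  (hsurj : Function.Surjective π)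

include hπ hι hexact hinj hsurj in
theorem exists_fixed_lift {H : Subgroup G} (h1 : H1Vanishes H W) {x : A'}
    (hx : x ∈ fixedPts A' H) : ∃ a ∈ fixedPts A H, π a = x := by
  obtain ⟨a, rfl⟩ := hsurj x
  choose w hw using fun g : H => (hexact ((g : G) • a - a)).1 (by
    rw [map_sub, hπ, hx g g.2, sub_self])
  obtain ⟨y, hy⟩ := h1 w fun g g' => hinj (by
    show ι (w (g * g')) = ι ((g : G) • w g' + w g)
    rw [map_add, hι, hw, hw, hw, Subgroup.coe_mul, mul_smul, smul_sub]; abel)
  refine ⟨a - ι y, fun g hg => ?_, ?_⟩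
  · have e : (g : G) • ι y - ι y = g • a - a := by
      have e := congrArg ι (hy ⟨g, hg⟩)
      rw [hw] at e
      rw [e, map_sub]
      exact congrArg (· - ι y) (hι g y).symm
    rw [smul_sub, ← sub_eq_zero]
    calc g • a - g • ι y - (a - ι y) = (g • a - a) - (g • ι y - ι y) := by abel
      _ = 0 := by rw [e, sub_self]
  · rw [map_sub, (hexact _).2 ⟨y, rfl⟩, sub_zero]

include hπ hι hexact hinj hsurj in
/-- The hypotheses of the devissage pass to the quotient. -/
theorem StepHyp.quotient [Finite G] {p : ℕ} [Fact p.Prime] (hG : IsPGroup p G)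
    (hW : StepAcyclic W G p) (hA : StepHyp A G p) : StepHyp A' G p := by
  intro V U hUV hn hidx σ hσV hσU
  obtain ⟨hnorm, hne, hle⟩ := hA V U hUV hn hidx σ hσV hσU
  obtain ⟨hW1, hW2⟩ := hW V U hUV hn hidx σ hσV hσU
  have lift : ∀ (H : Subgroup G), ∀ x ∈ fixedPts A' H, ∃ a ∈ fixedPts A H, π a = x :=
    fun H x hx => exists_fixed_lift π hπ ι hι hexact hinj hsurj
      (hW.h1_h2 hG H).1 hx
  refine ⟨fun x hx h0 => ?_, ?_⟩
  · obtain ⟨a, ha, rfl⟩ := lift U x hx
    obtain ⟨w, hw⟩ := (hexact (powSum σ p a)).1 (by rw [map_powSum π hπ, h0])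
    have hfix : powSum σ p a ∈ fixedPts A V := by
      have : (fixedPts A U).map (powSum (A := A) σ p) ≤ fixedPts A V := by
        rintro _ ⟨b, hb, rfl⟩
        exact powSum_mem_fixedPts hUV hidx hσV hσU hb
      exact this ⟨a, ha, rfl⟩
    obtain ⟨w', hw', hww⟩ := hW2 w (fun g hg => hinj (by rw [hι, hw, hfix g hg]))
    obtain ⟨y, hy, hyx⟩ := hnorm (a - ι w')
      (sub_mem ha fun g hg => by rw [← hι, hw' g hg])
      (by rw [map_sub, ← map_powSum ι hι, hww, hw, sub_self])
    refine ⟨π y, fun g hg => by rw [← hπ, hy g hg], ?_⟩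
    rw [← hπ, ← map_sub, hyx, map_sub, (hexact _).2 ⟨w', rfl⟩, sub_zero]
  · have e1 : (fixedPts A' U).map (powSum (A := A') σ p) =
        ((fixedPts A U).map (powSum (A := A) σ p)).map π := by
      ext x
      constructor
      · rintro ⟨b, hb, rfl⟩
        obtain ⟨a, ha, rfl⟩ := lift U b hb
        exact ⟨_, ⟨a, ha, rfl⟩, map_powSum π hπ σ p a⟩
      · rintro ⟨_, ⟨a, ha, rfl⟩, rfl⟩
        exact ⟨π a, fun g hg => by rw [← hπ, ha g hg], (map_powSum π hπ σ p a).symm⟩
    have e2 : fixedPts A' V = (fixedPts A V).map π := by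
      ext x
      constructor
      · intro hx
        exact lift V x hx
      · rintro ⟨a, ha, rfl⟩ g hg
        rw [← hπ, ha g hg]
    set H₀ := (fixedPts A U).map (powSum (A := A) σ p)
    set K₀ := fixedPts A V
    have hle' : H₀ ≤ K₀ := by
      rintro _ ⟨b, hb, rfl⟩
      exact powSum_mem_fixedPts hUV hidx hσV hσU hb
    have hdvd : (H₀.map π).relIndex (K₀.map π) ∣ H₀.relIndex K₀ := by
      have e3 : (H₀.addSubgroupOf K₀).map (π.addSubgroupMap K₀) =
          (H₀.map π).addSubgroupOf (K₀.map π) := by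
        ext ⟨x, hx⟩
        constructor
        · rintro ⟨⟨y, hy⟩, hy', he⟩
          exact ⟨y, hy', congrArg Subtype.val he⟩
        · rintro ⟨y, hy, he⟩
          exact ⟨⟨y, hle' hy⟩, hy, Subtype.ext he⟩
      rw [AddSubgroup.relIndex, AddSubgroup.relIndex, ← e3]
      exact AddSubgroup.index_map_dvd _ (π.addSubgroupMap_surjective K₀)
    rw [e1, e2]
    exact ⟨fun h => hne (Nat.eq_zero_of_zero_dvd (h ▸ hdvd)),
      (Nat.le_of_dvd (Nat.pos_of_ne_zero hne) hdvd).trans hle⟩

include hπ hι hexact hinj hsurj in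
/-- A cocycle of `A` whose class dies in the quotient is a coboundary. -/
theorem exists_d1_eq_of_quotient [Finite G] {p : ℕ} [Fact p.Prime] (hG : IsPGroup p G)
    (hW : StepAcyclic W G p) (V : Subgroup G) {f : V × V → A} (hf : f ∈ Z2 V A) (b : V → A')
    (hb : d1 V A' b = fun x => π (f x)) : ∃ x : V → A, d1 V A x = f := by
  choose c hc using fun v => hsurj (b v)
  have hk : ∀ x : V × V, ∃ w, ι w = f x - d1 V A c x := fun x => (hexact _).1 (by
    have e := congrFun hb x
    obtain ⟨g, g'⟩ := x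
    rw [d1_apply] at e
    rw [map_sub, ← e, d1_apply, map_add, map_sub, hc, hc]
    rw [show π (g • c g') = g • b g' from (hπ _ _).trans (congrArg _ (hc g')), sub_self])
  choose w hw using hk
  have hwZ : w ∈ Z2 V W := fun g g' j => hinj (by
    have h := (sub_mem hf (d1_mem_Z2 c)) g g' j
    simp only [Pi.sub_apply] at h
    rw [map_add, map_add, hw, hw, hw, show ι (g • w (g', j)) = g • ι (w (g', j)) from hι _ _]
    rw [hw]
    exact h)
  obtain ⟨y, hy⟩ := (hW.h1_h2 hG V).2 w hwZ
  refine ⟨c + fun v => ι (y v), ?_⟩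
  ext ⟨g, g'⟩
  have e := congrArg ι (congrFun hy (g, g'))
  rw [hw, d1_apply, map_add, map_sub, show ι (g • y g') = g • ι (y g') from hι _ _] at e
  rw [map_add, Pi.add_apply, d1_apply (fun v => ι (y v)), e, add_sub_cancel]

end Fermat.Agent.ClassField.Devissage
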