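import Mathlib.RepresentationTheory.Homological.GroupCohomology.LowDegree
import Mathlib.GroupTheory.Index
import Mathlib.Tactic.Abel

/-!
# `H²` on inhomogeneous cochains and inflation-restriction

An elementary model of `H²(G, A)` for a `DistribMulAction`, functorial in compatible pairs, with
the exact sequence `0 → H²(Q, B) → H²(G, A) → H²(N, A)` for `H¹(N, A) = 0`.
-/

set_option autoImplicit false
set_option linter.unusedSectionVars false

namespace Fermat.Agent.ClassField.CochainH2

open groupCohomology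

variable (G A : Type*) [Group G] [AddCommGroup A] [DistribMulAction G A]

/-- The 2-cocycles. -/
def Z2 : AddSubgroup (G × G → A) where
  carrier := {f | IsCocycle₂ f}
  zero_mem' := fun g h j => by simp
  add_mem' := fun {f f'} hf hf' g h j => by
    have h1 := hf g h j; have h2 := hf' g h j
    simp only [Pi.add_apply, smul_add]
    calc f (g * h, j) + f' (g * h, j) + (f (g, h) + f' (g, h))
        = (f (g * h, j) + f (g, h)) + (f' (g * h, j) + f' (g, h)) := by abel
      _ = _ := by rw [h1, h2]; abel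
  neg_mem' := fun {f} hf g h j => by
    simp only [Pi.neg_apply, smul_neg, ← neg_add, hf g h j]

/-- The coboundary of a 1-cochain. -/
def d1 : (G → A) →+ (G × G → A) where
  toFun x p := p.1 • x p.2 - x (p.1 * p.2) + x p.1
  map_zero' := by ext; simp
  map_add' x y := by ext; simp only [Pi.add_apply, smul_add]; abel

variable {G A}

theorem d1_apply (x : G → A) (g h : G) : d1 G A x (g, h) = g • x h - x (g * h) + x g := rfl

theorem d1_mem_Z2 (x : G → A) : d1 G A x ∈ Z2 G A := fun g h j => by
  simp only [d1_apply, smul_add, smul_sub, mul_smul, mul_assoc]; abel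

variable (G A)

/-- `H²(G, A)`. -/
abbrev H2 : Type _ := ↥(Z2 G A) ⧸ ((d1 G A).range.addSubgroupOf (Z2 G A))

/-- The class of a cocycle. -/
abbrev mk : ↥(Z2 G A) →+ H2 G A := QuotientAddGroup.mk' _

variable {G A}

theorem mk_eq_zero {f : Z2 G A} :
    mk G A f = 0 ↔ ∃ x : G → A, d1 G A x = (f : G × G → A) := by
  rw [QuotientAddGroup.mk'_apply, QuotientAddGroup.eq_zero_iff, AddSubgroup.mem_addSubgroupOf,
    AddMonoidHom.mem_range]

theorem mk_eq_mk {f f' : Z2 G A} :
    mk G A f = mk G A f' ↔ ∃ x : G → A, d1 G A x = (f : G × G → A) - f' := by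
  rw [← sub_eq_zero, ← map_sub, mk_eq_zero]; rfl

theorem mk_surjective : Function.Surjective (mk G A) := QuotientAddGroup.mk'_surjective _

section map

variable {H B : Type*} [Group H] [AddCommGroup B] [DistribMulAction H B]
  (φ : H →* G) (ι : A →+ B) (hι : ∀ h a, ι (φ h • a) = h • ι a)

/-- Pull-push of 2-cochains. -/
def cochainMap : (G × G → A) →+ (H × H → B) where
  toFun f p := ι (f (φ p.1, φ p.2))
  map_zero' := by ext; simp
  map_add' f f' := by ext; simp

theorem cochainMap_apply (f : G × G → A) (g h : H) :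
    cochainMap φ ι f (g, h) = ι (f (φ g, φ h)) := rfl

include hι in
theorem cochainMap_mem_Z2 {f : G × G → A} (hf : f ∈ Z2 G A) :
    cochainMap φ ι f ∈ Z2 H B := fun g h j => by
  simp only [cochainMap_apply, map_mul, ← hι, ← map_add, hf (φ g) (φ h) (φ j)]

include hι in
theorem cochainMap_d1 (x : G → A) :
    cochainMap φ ι (d1 G A x) = d1 H B (fun h => ι (x (φ h))) := by
  ext ⟨g, h⟩; simp [cochainMap_apply, d1_apply, hι]

/-- Functoriality of `H²` in compatible pairs. -/
def map : H2 G A →+ H2 H B :=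
  QuotientAddGroup.map _ _
    (((cochainMap φ ι).comp (Z2 G A).subtype).codRestrict (Z2 H B)
      fun f => cochainMap_mem_Z2 φ ι hι f.2)
    (fun f ⟨x, hx⟩ => ⟨fun h => ι (x (φ h)), by
      rw [← cochainMap_d1 φ ι hι, hx]; rfl⟩)

theorem map_mk (f : Z2 G A) :
    map φ ι hι (mk G A f) = mk H B ⟨_, cochainMap_mem_Z2 φ ι hι f.2⟩ := rfl

theorem map_mk_eq_zero (f : Z2 G A) :
    map φ ι hι (mk G A f) = 0 ↔ ∃ x : H → B, d1 H B x = cochainMap φ ι (f : G × G → A) := by
  rw [map_mk, mk_eq_zero]

end map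

theorem map_map {H K B C : Type*} [Group H] [AddCommGroup B] [DistribMulAction H B]
    [Group K] [AddCommGroup C] [DistribMulAction K C]
    (φ : H →* G) (ι : A →+ B) (hι : ∀ h a, ι (φ h • a) = h • ι a)
    (ψ : K →* H) (κ : B →+ C) (hκ : ∀ k b, κ (ψ k • b) = k • κ b) (x : H2 G A) :
    map ψ κ hκ (map φ ι hι x) =
      map (φ.comp ψ) (κ.comp ι) (fun k a => by simp [hι, hκ]) x := by
  obtain ⟨f, rfl⟩ := mk_surjective x
  rfl

theorem map_congr {H B : Type*} [Group H] [AddCommGroup B] [DistribMulAction H B]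
    {φ φ' : H →* G} {ι ι' : A →+ B} {hι : ∀ h a, ι (φ h • a) = h • ι a}
    {hι' : ∀ h a, ι' (φ' h • a) = h • ι' a} (hφ : φ = φ') (hi : ι = ι') :
    map φ ι hι = map φ' ι' hι' := by
  subst hφ; subst hi; rfl

section infres

variable {Q B : Type*} [Group Q] [AddCommGroup B] [DistribMulAction Q B]
  (π : G →* Q) (hπ : Function.Surjective π) (ι : B →+ A) (hinj : Function.Injective ι)
  (hι : ∀ g b, ι (π g • b) = g • ι b)
  (hfix : ∀ a : A, (∀ n : π.ker, (n : G) • a = a) → a ∈ Set.range ι)
  (h1 : ∀ c : π.ker → A, (∀ n m : π.ker, c (n * m) = (n : G) • c m + c n) →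
    ∃ a : A, ∀ n : π.ker, c n = (n : G) • a - a)

include hπ hinj hfix h1 in
/-- Inflation is injective on `H²` when `H¹` of the kernel vanishes. -/
theorem inflation_injective : Function.Injective (map π ι hι) := by
  rw [injective_iff_map_eq_zero]
  intro z hz
  obtain ⟨f, rfl⟩ := mk_surjective z
  obtain ⟨x, hx⟩ := (map_mk_eq_zero π ι hι f).1 hz
  have key : ∀ g h, g • x h - x (g * h) + x g = ι ((f : Q × Q → B) (π g, π h)) := fun g h => by
    rw [← d1_apply, hx, cochainMap_apply]
  set c := ι ((f : Q × Q → B) (1, 1))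
  have hker : ∀ n : π.ker, π (n : G) = 1 := fun n => n.2
  have hc : ∀ n : π.ker, (n : G) • c = c := fun n => by
    rw [← hι, hker, one_smul]
  obtain ⟨a, ha⟩ := h1 (fun n => x n - c) fun n m => by
    have h' := key n m
    rw [hker, hker] at h'
    simp only [Subgroup.coe_mul, smul_sub, hc]
    rw [← sub_eq_zero]
    calc x ((n : G) * m) - c - ((n : G) • x m - c + (x n - c))
        = -(((n : G) • x m - x ((n : G) * m) + x n) - c) := by abel
      _ = 0 := by rw [h']; simp [c]
  set x' : G → A := fun g => x g - (g • a - a) with hx'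
  have key' : ∀ g h, g • x' h - x' (g * h) + x' g = ι ((f : Q × Q → B) (π g, π h)) := fun g h => by
    rw [← key]; simp only [hx', smul_sub, mul_smul]; abel
  have hN : ∀ n : π.ker, x' n = c := fun n => by
    simp only [hx', ← ha n]; abel
  have hright : ∀ (g : G) (n : π.ker), x' (g * n) = x' g := fun g n => by
    have h' := key' g n
    rw [hN, hker, map_one_snd_of_isCocycle₂ f.2, hι] at h'
    rw [← sub_eq_zero]
    calc x' (g * n) - x' g = g • c - (g • c - x' (g * n) + x' g) := by abel
      _ = 0 := by rw [h', sub_self]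
  have hinv : ∀ g : G, ∀ n : π.ker, (n : G) • x' g = x' g := fun g n => by
    have h' := key' n g
    rw [hN, hker, map_one_fst_of_isCocycle₂ f.2] at h'
    have e : (n : G) * g = g * (g⁻¹ * n * g) := by group
    have hm : g⁻¹ * (n : G) * g ∈ π.ker := by simp [MonoidHom.mem_ker, hker]
    rw [e, hright g ⟨_, hm⟩] at h'
    rw [← sub_eq_zero]
    calc (n : G) • x' g - x' g = (n : G) • x' g - x' g + c - c := by abel
      _ = 0 := by rw [h', sub_self]
  choose y hy using fun q => hfix (x' (Function.surjInv hπ q)) (hinv _)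
  have hxy : ∀ g, x' g = ι (y (π g)) := fun g => by
    rw [hy]
    have hm : (Function.surjInv hπ (π g))⁻¹ * g ∈ π.ker := by
      simp [MonoidHom.mem_ker, Function.surjInv_eq hπ]
    simpa using hright (Function.surjInv hπ (π g)) ⟨_, hm⟩
  refine mk_eq_zero.2 ⟨y, ?_⟩
  ext ⟨p, q⟩
  obtain ⟨g, rfl⟩ := hπ p
  obtain ⟨h, rfl⟩ := hπ q
  apply hinj
  rw [← key' g h, d1_apply, ← map_mul π, hxy g, hxy h, hxy (g * h), map_add, map_sub, hι]

include hπ hinj hfix h1 in
/-- A class dying on the kernel is inflated. -/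
theorem mem_range_inflation (z : H2 G A)
    (hz : map π.ker.subtype (AddMonoidHom.id A) (fun _ _ => rfl) z = 0) :
    z ∈ (map π ι hι).range := by
  classical
  obtain ⟨f, rfl⟩ := mk_surjective z
  obtain ⟨b, hb⟩ := (map_mk_eq_zero _ _ _ f).1 hz
  have hb' : ∀ n m : π.ker, (n : G) • b m - b (n * m) + b n = (f : G × G → A) (n, m) := fun n m =>
    congrFun hb (n, m)
  have hker : ∀ n : π.ker, π (n : G) = 1 := fun n => n.2
  -- a section of `π` sending `1` to `1`
  set s : Q → G := Function.update (Function.surjInv hπ) 1 1 with hs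
  have hsπ : ∀ q, π (s q) = q := fun q => by
    by_cases hq : q = 1
    · simp [hs, hq]
    · simp [hs, Function.update_of_ne hq, Function.surjInv_eq hπ]
  have hs1 : s 1 = 1 := by simp [hs]
  have hmem : ∀ g, (s (π g))⁻¹ * g ∈ π.ker := fun g => by simp [MonoidHom.mem_ker, hsπ]
  set k : G → π.ker := fun g => ⟨_, hmem g⟩ with hk
  set c : G → A := fun g => s (π g) • b (k g) - (f : G × G → A) (s (π g), k g) + b 1 with hc
  set f₁ : G × G → A := (f : G × G → A) - d1 G A c with hf₁
  have hf₁Z : f₁ ∈ Z2 G A := sub_mem f.2 (d1_mem_Z2 _)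
  have hkn : ∀ (g : G) (n : π.ker), k (g * n) = k g * n := fun g n => by
    ext; simp [hk, hker, mul_assoc]
  have hsn : ∀ (g : G) (n : π.ker), s (π (g * n)) = s (π g) := fun g n => by
    rw [map_mul, hker, mul_one]
  have hsk : ∀ g, s (π g) * k g = g := fun g => by simp [hk]
  have hcn : ∀ n : π.ker, c n = b n := fun n => by
    have hkn1 : k (n : G) = n := by ext; simp [hk, hker, hs1]
    have h11 : b 1 = (f : G × G → A) ((1 : G), (1 : G)) := by simpa using hb' 1 1
    simp only [hc, hker, hs1, one_smul, hkn1, map_one_fst_of_isCocycle₂ f.2, h11]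
    abel
  have hright : ∀ (g : G) (n : π.ker), f₁ (g, n) = 0 := fun g n => by
    have hc1 := f.2 (s (π g)) (k g) n
    rw [hsk, ← hb' (k g) n] at hc1
    simp only [hf₁, Pi.sub_apply, d1_apply, hcn]
    simp only [hc, hsn, hkn, Subgroup.coe_mul]
    simp only [smul_add, smul_sub, ← mul_smul, hsk] at hc1
    rw [← eq_sub_iff_add_eq] at hc1
    rw [hc1]; abel
  have hg1 : ∀ (g h : G) (n : π.ker), f₁ (g, h * n) = f₁ (g, h) := fun g h n => by
    have h' := hf₁Z g h n
    rw [hright, hright, smul_zero, zero_add, zero_add] at h'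
    exact h'.symm
  have hconj : ∀ (g : G) (n : π.ker), ∃ m : π.ker, (n : G) * g = g * m := fun g n =>
    ⟨⟨g⁻¹ * n * g, by simp [MonoidHom.mem_ker, hker]⟩, by simp [mul_assoc]⟩
  have hmidl : ∀ (g h : G) (n : π.ker),
      f₁ (g * n, h) = g • f₁ ((n : G), h) + f₁ (g, h) := fun g h n => by
    have h' := hf₁Z g n h
    obtain ⟨m, hm⟩ := hconj h n
    rw [hright, add_zero, hm, hg1] at h'
    exact h'
  -- kill the left kernel variable
  choose a ha using fun q => h1 (fun n => f₁ ((n : G), s q)) fun n m => by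
    simpa only [Subgroup.coe_mul] using hmidl n (s q) m
  set a' : Q → A := Function.update a 1 0 with ha'
  have hleft : ∀ (n : π.ker) g, f₁ ((n : G), g) = (n : G) • a' (π g) - a' (π g) := fun n g => by
    have hg : f₁ ((n : G), g) = f₁ ((n : G), s (π g)) := by
      conv_lhs => rw [← hsk g, hg1]
    rw [hg]
    by_cases hq : π g = 1
    · rw [hq, hs1, ha', Function.update_self, smul_zero, sub_zero]
      simpa using hright n 1
    · rw [ha', Function.update_of_ne hq]; exact ha (π g) n
  set c₂ : G → A := fun g => a' (π g) with hc₂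
  set f₂ : G × G → A := f₁ - d1 G A c₂ with hf₂
  have hf₂Z : f₂ ∈ Z2 G A := sub_mem hf₁Z (d1_mem_Z2 _)
  have hc₂n : ∀ n : π.ker, c₂ n = 0 := fun n => by simp [hc₂, hker, ha']
  have hc₂mul : ∀ (g : G) (n : π.ker), c₂ (g * n) = c₂ g := fun g n => by
    simp [hc₂, hker]
  have hright₂ : ∀ (g : G) (n : π.ker), f₂ (g, n) = 0 := fun g n => by
    simp [hf₂, hright, d1_apply, hc₂n, hc₂mul]
  have hleft₂ : ∀ (n : π.ker) (g : G), f₂ ((n : G), g) = 0 := fun n g => by
    simp [hf₂, hleft, d1_apply, hc₂, hker, ha']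
  have hg2 : ∀ (g h : G) (n : π.ker), f₂ (g, h * n) = f₂ (g, h) := fun g h n => by
    have h' := hf₂Z g h n
    rw [hright₂, hright₂, smul_zero, zero_add, zero_add] at h'
    exact h'.symm
  have hg3 : ∀ (g h : G) (n : π.ker), f₂ (g * n, h) = f₂ (g, h) := fun g h n => by
    have h' := hf₂Z g n h
    obtain ⟨m, hm⟩ := hconj h n
    rw [hright₂, add_zero, hleft₂, smul_zero, zero_add, hm, hg2] at h'
    exact h'
  have hinv : ∀ (g h : G) (n : π.ker), (n : G) • f₂ (g, h) = f₂ (g, h) := fun g h n => by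
    have h' := hf₂Z n g h
    obtain ⟨m, hm⟩ := hconj g n
    rw [hleft₂, hleft₂, add_zero, add_zero, hm, hg3] at h'
    exact h'.symm
  choose F hF using fun p : Q × Q => hfix _ (hinv (s p.1) (s p.2))
  have hFf : ∀ g h, ι (F (π g, π h)) = f₂ (g, h) := fun g h => by
    rw [hF]
    conv_rhs => rw [← hsk g, ← hsk h, hg2, hg3]
  have hFZ : F ∈ Z2 Q B := fun p q r => by
    obtain ⟨g, rfl⟩ := hπ p
    obtain ⟨h, rfl⟩ := hπ q
    obtain ⟨j, rfl⟩ := hπ r
    apply hinj
    rw [← map_mul, ← map_mul, map_add, map_add, hι, hFf, hFf, hFf, hFf]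
    exact hf₂Z g h j
  refine ⟨mk Q B ⟨F, hFZ⟩, ?_⟩
  rw [map_mk, mk_eq_mk]
  refine ⟨-(c + c₂), ?_⟩
  rw [map_neg, map_add]
  ext ⟨g, h⟩
  simp only [Pi.sub_apply, Pi.neg_apply, Pi.add_apply, cochainMap_apply, hFf, hf₂, hf₁]
  abel

include hπ hinj hι hfix h1 in
/-- The order of `H²(G, A)` is bounded through inflation and restriction. -/
theorem card_le (hQ : Finite (H2 Q B)) (hN : Finite (H2 π.ker A)) :
    Finite (H2 G A) ∧ Nat.card (H2 G A) ≤ Nat.card (H2 Q B) * Nat.card (H2 π.ker A) := by
  set r := map π.ker.subtype (AddMonoidHom.id A) (fun (_ : π.ker) (_ : A) => rfl)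
  have hle : r.ker ≤ (map π ι hι).range :=
    fun z hz => mem_range_inflation π hπ ι hinj hι hfix h1 z hz
  have : Finite (map π ι hι).range :=
    Finite.of_surjective _ (map π ι hι).rangeRestrict_surjective
  have : Finite r.ker := Finite.of_injective _ (AddSubgroup.inclusion_injective hle)
  have : Finite (H2 G A ⧸ r.ker) :=
    Finite.of_injective _ (QuotientAddGroup.kerLift_injective r)
  have hfin : Finite (H2 G A) :=
    Finite.of_equiv _ (AddSubgroup.addGroupEquivQuotientProdAddSubgroup (s := r.ker)).symm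
  refine ⟨hfin, ?_⟩
  rw [AddSubgroup.card_eq_card_quotient_mul_card_addSubgroup r.ker, mul_comm]
  exact Nat.mul_le_mul
    ((AddSubgroup.card_le_of_le hle).trans
      (Nat.card_le_card_of_surjective _ (map π ι hι).rangeRestrict_surjective))
    (Nat.card_le_card_of_injective _ (QuotientAddGroup.kerLift_injective r))

end infres

end Fermat.Agent.ClassField.CochainH2
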