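import Mathlib.Algebra.Ring.Action.Basic
import Mathlib.Algebra.Group.Units.Hom
import Mathlib.Algebra.Group.TypeTags.Hom
import Mathlib.Algebra.GroupWithZero.Action.Defs

/-!
# The action on units of a group acting by ring automorphisms

Scoped instance `DistribMulAction G (Additive Rˣ)`; use `open scoped Fermat.Agent.ClassField`.
-/

set_option autoImplicit false

namespace Fermat.Agent.ClassField

variable {G R : Type*} [Monoid G] [Semiring R] [MulSemiringAction G R]

/-- `g • ofMul u = ofMul (g • u)`. -/
scoped instance additiveUnitsAction : DistribMulAction G (Additive Rˣ) where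
  smul g u := Additive.ofMul (Units.map (MulSemiringAction.toRingHom G R g : R →* R) u.toMul)
  one_smul u := Additive.toMul.injective (Units.ext (one_smul G _))
  mul_smul g h u := Additive.toMul.injective (Units.ext (mul_smul g h _))
  smul_zero g := Additive.toMul.injective (Units.ext (smul_one g))
  smul_add g u v := Additive.toMul.injective (Units.ext (smul_mul' g _ _))

theorem val_smul_additive (g : G) (u : Additive Rˣ) :
    (((g • u).toMul : Rˣ) : R) = g • ((u.toMul : Rˣ) : R) := rfl

end Fermat.Agent.ClassField
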