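import Fermat.Agent.ClassField.CochainH2
import Fermat.Agent.ClassField.UnitsAction
import Mathlib.GroupTheory.SpecificGroups.Cyclic
import Mathlib.Algebra.BigOperators.Intervals
import Mathlib.FieldTheory.Galois.Basic
import Mathlib.RingTheory.Norm.Transitivity

/-!
# `H²` of a finite cyclic group, and Hilbert 90 for units

`H²(G, A) ≅ Aᴳ / N A` for `G` finite cyclic, by the invariant `f ↦ ∑ f(σⁱ, σ)`.
-/

set_option autoImplicit false
set_option linter.unusedSectionVars false

namespace Fermat.Agent.ClassField.CyclicH2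

open groupCohomology Finset CochainH2

variable {G A : Type*} [Group G] [AddCommGroup A] [DistribMulAction G A]

/-- `a ↦ ∑_{i < n} σⁱ a`. -/
noncomputable def normSum (σ : G) : A →+ A where
  toFun a := ∑ i ∈ range (orderOf σ), σ ^ i • a
  map_zero' := by simp
  map_add' a b := by simp [sum_add_distrib, smul_add]

theorem normSum_apply (σ : G) (a : A) : normSum σ a = ∑ i ∈ range (orderOf σ), σ ^ i • a := rfl

theorem smul_normSum (σ : G) (a : A) : σ • normSum σ a = normSum σ a := by
  rw [normSum_apply, smul_sum, ← sub_eq_zero, ← sum_sub_distrib]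
  simp only [← mul_smul, ← pow_succ']
  rw [sum_range_sub fun i => σ ^ i • a, pow_orderOf_eq_one, pow_zero, sub_self]

/-- The invariant of a cocycle. -/
noncomputable def inv (σ : G) : ↥(Z2 G A) →+ A where
  toFun f := ∑ i ∈ range (orderOf σ), (f : G × G → A) (σ ^ i, σ)
  map_zero' := by simp
  map_add' a b := by simp [sum_add_distrib]

theorem inv_apply (σ : G) (f : Z2 G A) :
    inv σ f = ∑ i ∈ range (orderOf σ), (f : G × G → A) (σ ^ i, σ) := rfl

theorem smul_inv (σ : G) (f : Z2 G A) : σ • inv σ f = inv σ f := by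
  rw [← sub_eq_zero, inv_apply, smul_sum]
  have h : ∀ i : ℕ, σ • (f : G × G → A) (σ ^ i, σ) =
      (f : G × G → A) (σ ^ (i + 1), σ) + (f : G × G → A) (σ, σ ^ i) -
        (f : G × G → A) (σ, σ ^ (i + 1)) := fun i => by
    have h' := f.2 σ (σ ^ i) σ
    rw [← pow_succ', ← pow_succ] at h'
    rw [h']; abel
  rw [← sum_sub_distrib]
  have h2 : ∀ i : ℕ, σ • (f : G × G → A) (σ ^ i, σ) - (f : G × G → A) (σ ^ i, σ) =
      ((f : G × G → A) (σ ^ (i + 1), σ) - (f : G × G → A) (σ, σ ^ (i + 1))) -
        ((f : G × G → A) (σ ^ i, σ) - (f : G × G → A) (σ, σ ^ i)) := fun i => by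
    rw [h i]; abel
  simp only [h2]
  rw [sum_range_sub fun i => (f : G × G → A) (σ ^ i, σ) - (f : G × G → A) (σ, σ ^ i),
    pow_orderOf_eq_one, pow_zero, sub_self]

theorem inv_d1 (σ : G) (x : G → A) :
    inv σ ⟨d1 G A x, d1_mem_Z2 x⟩ = normSum σ (x σ) := by
  rw [inv_apply, normSum_apply]
  have h : ∀ i : ℕ, d1 G A x (σ ^ i, σ) =
      σ ^ i • x σ - (x (σ ^ (i + 1)) - x (σ ^ i)) := fun i => by
    rw [d1_apply, pow_succ]; abel
  simp only [h]
  rw [sum_sub_distrib, sum_range_sub fun i => x (σ ^ i), pow_orderOf_eq_one, pow_zero, sub_self,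
    sub_zero]

variable (σ : G) (hσ : ∀ g : G, g ∈ Submonoid.powers σ)

include hσ in
theorem eq_zero_of_vanish (f : Z2 G A) (h11 : (f : G × G → A) (1, 1) = 0)
    (h : ∀ g, (f : G × G → A) (g, σ) = 0) : f = 0 := by
  ext ⟨g, k⟩
  obtain ⟨j, rfl⟩ := Submonoid.mem_powers_iff _ _ |>.1 (hσ k)
  change (f : G × G → A) (g, σ ^ j) = 0
  induction j generalizing g with
  | zero => rw [pow_zero, map_one_snd_of_isCocycle₂ f.2, h11, smul_zero]
  | succ j ih =>
    have h' := f.2 g (σ ^ j) σ
    rw [h, h, ih] at h'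
    rw [pow_succ]; simpa using h'.symm

include hσ in
theorem mk_eq_zero_iff (hfin : IsOfFinOrder σ) (f : Z2 G A) :
    mk G A f = 0 ↔ inv σ f ∈ (normSum (A := A) σ).range := by
  constructor
  · intro h
    obtain ⟨x, hx⟩ := mk_eq_zero.1 h
    refine ⟨x σ, ?_⟩
    rw [← inv_d1]
    congr 1
    exact Subtype.ext hx
  · rintro ⟨y, hy⟩
    set n := orderOf σ
    have hn : 0 < n := hfin.orderOf_pos
    set φ : ℕ → A := fun i => (f : G × G → A) (1, 1) +
      ∑ j ∈ range i, (σ ^ j • y - (f : G × G → A) (σ ^ j, σ)) with hφ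
    have hperiod : φ n = φ 0 := by
      simp only [hφ, sum_range_zero]
      rw [sum_sub_distrib, ← normSum_apply, ← inv_apply, hy, sub_self]
    have hex : ∀ g : G, ∃ i, σ ^ i = g := fun g => Submonoid.mem_powers_iff _ _ |>.1 (hσ g)
    choose idx hidx using hex
    set x : G → A := fun g => φ (idx g % n) with hx
    have hxφ : ∀ i ≤ n, x (σ ^ i) = φ i := fun i hi => by
      have h1 : idx (σ ^ i) % n = i % n := pow_eq_pow_iff_modEq.1 (hidx (σ ^ i))
      rcases lt_or_eq_of_le hi with h | h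
      · simp only [hx, h1, Nat.mod_eq_of_lt h]
      · simp only [hx]
        rw [h1, h, Nat.mod_self, hperiod]
    have hstep : ∀ i < n, φ (i + 1) = φ i + (σ ^ i • y - (f : G × G → A) (σ ^ i, σ)) :=
      fun i _ => by simp only [hφ, sum_range_succ]; abel
    have hyσ : x σ = y := by
      have h := hxφ 1 hn
      rw [pow_one] at h
      rw [h, hstep 0 hn]
      simp [hφ, map_one_fst_of_isCocycle₂ f.2]
    refine mk_eq_zero.2 ⟨x, ?_⟩
    have h0 := eq_zero_of_vanish σ hσ (f - ⟨d1 G A x, d1_mem_Z2 x⟩) ?_ ?_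
    · exact (congrArg Subtype.val (sub_eq_zero.1 h0)).symm
    · have h := hxφ 0 hn.le
      rw [pow_zero] at h
      simp [d1_apply, h, hφ]
    · intro g
      obtain ⟨i, hi, rfl⟩ : ∃ i < n, σ ^ i = g := ⟨idx g % n, Nat.mod_lt _ hn, by
        rw [pow_mod_orderOf]; exact hidx g⟩
      simp only [AddSubgroup.coe_sub, Pi.sub_apply, d1_apply, hyσ, ← pow_succ, hxφ i hi.le,
        hxφ (i + 1) hi, hstep i hi]
      abel

/-- The cocycle attached to an invariant element. -/
noncomputable def cocycle (a : A) : G × G → A := fun p =>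
  haveI := Classical.decEq G
  let idx : G → ℕ := fun g => if h : g ∈ Submonoid.powers σ then
    ((Submonoid.mem_powers_iff g σ).1 h).choose % orderOf σ else 0
  ((idx p.1 + idx p.2) / orderOf σ) • a

theorem cocycle_pow_apply (a : A) (i j : ℕ) :
    cocycle σ a (σ ^ i, σ ^ j) = ((i % orderOf σ + j % orderOf σ) / orderOf σ) • a := by
  have key : ∀ i : ℕ, ∀ h : σ ^ i ∈ Submonoid.powers σ,
      ((Submonoid.mem_powers_iff (σ ^ i) σ).1 h).choose % orderOf σ = i % orderOf σ := fun i h =>
    pow_eq_pow_iff_modEq.1 ((Submonoid.mem_powers_iff (σ ^ i) σ).1 h).choose_spec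
  have hm : ∀ i : ℕ, σ ^ i ∈ Submonoid.powers σ := fun i => ⟨i, rfl⟩
  simp only [cocycle, dif_pos (hm i), dif_pos (hm j)]
  rw [key i (hm i), key j (hm j)]

include hσ in
theorem cocycle_mem_Z2 (hfin : IsOfFinOrder σ) {a : A} (ha : σ • a = a) :
    cocycle σ a ∈ Z2 G A := fun g h k => by
  obtain ⟨i, rfl⟩ := Submonoid.mem_powers_iff _ _ |>.1 (hσ g)
  obtain ⟨j, rfl⟩ := Submonoid.mem_powers_iff _ _ |>.1 (hσ h)
  obtain ⟨l, rfl⟩ := Submonoid.mem_powers_iff _ _ |>.1 (hσ k)
  have hfix : ∀ i : ℕ, σ ^ i • a = a := fun i => by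
    induction i with
    | zero => simp
    | succ i ih => rw [pow_succ, mul_smul, ha, ih]
  simp only [← pow_add, cocycle_pow_apply σ, smul_comm (σ ^ i), hfix, ← add_nsmul]
  congr 1
  have hn : 0 < orderOf σ := hfin.orderOf_pos
  set n := orderOf σ
  have h1 := Nat.mod_lt i hn
  have h2 := Nat.mod_lt j hn
  have h3 := Nat.mod_lt l hn
  rw [Nat.add_mod i j, Nat.add_mod j l]
  set i' := i % n; set j' := j % n; set l' := l % n
  -- both sides are `(i' + j' + l') / n`
  have e1 : ((i' + j') % n + l') / n + (i' + j') / n = (i' + j' + l') / n := by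
    conv_rhs => rw [show i' + j' + l' = (i' + j') % n + l' + n * ((i' + j') / n) by
      have := Nat.mod_add_div (i' + j') n; omega]
    rw [Nat.add_mul_div_left _ _ hn]
  have e2 : (j' + l') / n + (i' + (j' + l') % n) / n = (i' + j' + l') / n := by
    conv_rhs => rw [show i' + j' + l' = i' + (j' + l') % n + n * ((j' + l') / n) by
      have := Nat.mod_add_div (j' + l') n; omega]
    rw [Nat.add_mul_div_left _ _ hn, add_comm]
  rw [e1, e2]

/-- The invariant of the pullback of `cocycle σ a` along `τ ↦ σ ^ m`. -/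
theorem sum_cocycle_pow (hfin : IsOfFinOrder σ) (a : A) (m d : ℕ) :
    ∑ i ∈ range d, cocycle σ a (σ ^ (m * i), σ ^ m) =
      ((m % orderOf σ * d) / orderOf σ) • a := by
  have hn : 0 < orderOf σ := hfin.orderOf_pos
  simp only [cocycle_pow_apply σ, ← Finset.sum_smul]
  congr 1
  set n := orderOf σ
  induction d with
  | zero => simp
  | succ d ih =>
    rw [sum_range_succ, ih, add_comm]
    have h := Nat.mod_add_div (m % n * d) n
    have h' : (m * d) % n = m % n * d % n := by rw [Nat.mul_mod, Nat.mul_mod (m % n) d, Nat.mod_mod]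
    rw [show m % n * (d + 1) = m % n * d % n + m % n + n * (m % n * d / n) by
      rw [Nat.mul_succ]; omega, Nat.add_mul_div_left _ _ hn, h']

include hσ in
/-- Every class is that of the standard cocycle of its invariant. -/
theorem mk_eq_cocycle (hfin : IsOfFinOrder σ) (f : Z2 G A) :
    mk G A f = mk G A ⟨cocycle σ (inv σ f), cocycle_mem_Z2 σ hσ hfin (smul_inv σ f)⟩ := by
  rw [← sub_eq_zero, ← map_sub, mk_eq_zero_iff σ hσ hfin, map_sub]
  set a := inv σ f
  have h : inv σ ⟨cocycle σ a, cocycle_mem_Z2 σ hσ hfin (smul_inv σ f)⟩ =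
      ((1 % orderOf σ * orderOf σ) / orderOf σ) • a := by
    rw [inv_apply]
    simpa using sum_cocycle_pow σ hfin a 1 (orderOf σ)
  rw [h, Nat.mul_div_cancel _ hfin.orderOf_pos]
  rcases eq_or_lt_of_le (Nat.one_le_iff_ne_zero.2 hfin.orderOf_pos.ne') with h1 | h1
  · exact ⟨a, by simp [a, normSum_apply, ← h1]⟩
  · exact ⟨0, by simp [a, Nat.mod_eq_of_lt h1]⟩

variable (A) in
/-- The fixed elements of `σ`. -/
def fixed : AddSubgroup A where
  carrier := {a | σ • a = a}
  zero_mem' := smul_zero σ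
  add_mem' := fun {a b} (ha : σ • a = a) (hb : σ • b = b) => show σ • (a + b) = a + b by
    rw [smul_add, ha, hb]
  neg_mem' := fun {a} (ha : σ • a = a) => show σ • -a = -a by rw [smul_neg, ha]

include hσ in
/-- `H²` of a cyclic group is finite of order at most `#(Aᴳ / N A)`. -/
theorem card_le (hfin : IsOfFinOrder σ)
    (hne : (normSum (A := A) σ).range.relIndex (fixed A σ) ≠ 0) :
    Finite (H2 G A) ∧
      Nat.card (H2 G A) ≤ (normSum (A := A) σ).range.relIndex (fixed A σ) := by
  let Q := fixed A σ ⧸ (normSum (A := A) σ).range.addSubgroupOf (fixed A σ)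
  have hQ : Nat.card Q = (normSum (A := A) σ).range.relIndex (fixed A σ) := rfl
  have hfinQ : Finite Q := Nat.finite_of_card_ne_zero (hQ ▸ hne)
  let ψ : ↥(Z2 G A) →+ Q := (QuotientAddGroup.mk' _).comp
    ((inv (A := A) σ).codRestrict (fixed A σ) (smul_inv σ))
  have hψ : ∀ f, ψ f = 0 ↔ mk G A f = 0 := fun f => by
    rw [mk_eq_zero_iff σ hσ hfin, AddMonoidHom.comp_apply, QuotientAddGroup.mk'_apply,
      QuotientAddGroup.eq_zero_iff, AddSubgroup.mem_addSubgroupOf]
    rfl
  let Ψ : H2 G A →+ Q := QuotientAddGroup.lift _ ψ fun f hf =>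
    (hψ f).2 ((QuotientAddGroup.eq_zero_iff f).2 hf)
  have hinj : Function.Injective Ψ := (injective_iff_map_eq_zero Ψ).2 fun z hz => by
    obtain ⟨f, rfl⟩ := mk_surjective z
    exact (hψ f).1 hz
  exact ⟨Finite.of_injective _ hinj, hQ ▸ Nat.card_le_card_of_injective _ hinj⟩

section units

variable {L H : Type*} [Field L] [Group H] [Fintype H] [MulSemiringAction H L] [FaithfulSMul H L]

/-- Hilbert 90 for a finite group of field automorphisms, additively written. -/
theorem exists_eq_smul_sub (c : H → Additive Lˣ)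
    (hc : ∀ g h, c (g * h) = g • c h + c g) :
    ∃ a : Additive Lˣ, ∀ g, c g = g • a - a := by
  have hc' : ∀ g h, ((c (g * h)).toMul : L) = g • ((c h).toMul : L) * ((c g).toMul : L) :=
    fun g h => by rw [hc]; rfl
  obtain ⟨z, hz⟩ : ∃ z : L, ∑ g : H, ((c g).toMul : L) * g • z ≠ 0 := by
    by_contra hz
    simp only [not_exists, not_not] at hz
    have hli : LinearIndependent L fun g : H => (MulSemiringAction.toRingHom H L g : L → L) :=
      LinearIndependent.comp (linearIndependent_monoidHom L L)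
        (fun g => (MulSemiringAction.toRingHom H L g : L →* L))
        (fun g h e => eq_of_smul_eq_smul fun x => DFunLike.congr_fun e x)
    have h1 := Fintype.linearIndependent_iff.1 hli (fun g => ((c g).toMul : L))
      (funext fun x => by simpa using hz x) 1
    exact (c 1).toMul.ne_zero h1
  set b : L := ∑ g : H, ((c g).toMul : L) * g • z
  have key : ∀ k : H, k • b * ((c k).toMul : L) = b := fun k => by
    simp only [b, Finset.smul_sum, Finset.sum_mul]
    refine Fintype.sum_equiv (Equiv.mulLeft k) _ _ fun g => ?_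
    rw [Equiv.coe_mulLeft, hc', smul_mul', mul_smul]; ring
  refine ⟨-Additive.ofMul (Units.mk0 b hz), fun g => ?_⟩
  rw [smul_neg, sub_neg_eq_add, eq_neg_add_iff_add_eq]
  exact Additive.toMul.injective (Units.ext (key g))

end units

end Fermat.Agent.ClassField.CyclicH2
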