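import Fermat.Agent.ClassField.Devissage

/-!
# Norm equations for two commuting elements

If `s - 1` of `B` is `(γ - 1)` of `D` and the norms of `D` along `s` match the partial norms of `B`
along `γ`, then `B` can be moved, without changing its `γ`-norm, to an element fixed by
`(γ ^ i)⁻¹ * s`.
-/

set_option autoImplicit false

noncomputable section

open Finset

namespace Fermat.Agent.ClassField.CyclicNorms

open Devissage (powSum powSum_apply H1Vanishes)

variable {G A : Type*} [Group G] [AddCommGroup A] [DistribMulAction G A]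

lemma powSum_succ (γ : G) (n : ℕ) (x : A) : powSum γ (n + 1) x = powSum γ n x + γ ^ n • x :=
  Finset.sum_range_succ _ _

lemma powSum_zero (γ : G) (x : A) : powSum γ 0 x = 0 := Finset.sum_range_zero fun i => γ ^ i • x

lemma powSum_add (γ : G) (n m : ℕ) (x : A) :
    powSum γ (n + m) x = powSum γ n x + γ ^ n • powSum γ m x := by
  induction m with
  | zero => simp [powSum_zero]
  | succ m ih => rw [← Nat.add_assoc, powSum_succ, ih, powSum_succ, smul_add, ← mul_smul, pow_add,
      add_assoc]

lemma powSum_one (γ : G) (x : A) : powSum γ 1 x = x := by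
  rw [powSum_succ, powSum_zero, zero_add, pow_zero, one_smul]

lemma smul_powSum_sub (γ : G) (n : ℕ) (x : A) :
    γ • powSum γ n x - powSum γ n x = γ ^ n • x - x := by
  have h1 := powSum_add γ 1 n x
  rw [add_comm 1 n, powSum_succ, powSum_one, pow_one] at h1
  rw [show γ • powSum γ n x = powSum γ n x + γ ^ n • x - x from eq_sub_of_add_eq (by rw [add_comm]; exact h1.symm)]
  abel

lemma smul_powSum_of_commute {γ s : G} (h : Commute γ s) (n : ℕ) (x : A) :
    s • powSum γ n x = powSum γ n (s • x) := by
  rw [powSum_apply, powSum_apply, Finset.smul_sum]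
  exact Finset.sum_congr rfl fun i _ => by rw [← mul_smul, ← mul_smul, (h.pow_left i).eq]

lemma powSum_comm {γ s : G} (h : Commute γ s) (n m : ℕ) (x : A) :
    powSum γ n (powSum s m x) = powSum s m (powSum γ n x) := by
  rw [powSum_apply s m x, map_sum, powSum_apply s]
  exact Finset.sum_congr rfl fun j _ => (smul_powSum_of_commute (h.pow_right j) n x).symm

lemma powSum_mul (γ : G) (m e : ℕ) (x : A) :
    powSum γ (m * e) x = powSum γ m (powSum (γ ^ m) e x) := by
  induction e with
  | zero => rw [Nat.mul_zero, powSum_zero, powSum_zero, map_zero]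
  | succ e ih =>
    rw [Nat.mul_succ, powSum_add, ih, powSum_succ, map_add,
      smul_powSum_of_commute (Commute.pow_right (Commute.refl γ) _), ← pow_mul]

lemma powSum_of_smul_eq {γ : G} {x : A} (h : γ • x = x) (n : ℕ) : powSum γ n x = n • x := by
  induction n with
  | zero => rw [powSum_zero, zero_smul]
  | succ n ih =>
    have hp : ∀ n : ℕ, γ ^ n • x = x := fun n => by
      induction n with
      | zero => rw [pow_zero, one_smul]
      | succ n ih => rw [pow_succ, mul_smul, h, ih]
    rw [powSum_succ, ih, hp, succ_nsmul]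

/-- Hilbert 90 from the vanishing of `H¹` of a cyclic group. -/
theorem exists_smul_sub {σ : G} (hfin : IsOfFinOrder σ)
    (hv : H1Vanishes (Subgroup.zpowers σ) A) {E : A} (hE : powSum σ (orderOf σ) E = 0) :
    ∃ W : A, E = σ • W - W := by
  have hper : ∀ r q : ℕ, powSum σ (r + q * orderOf σ) E = powSum σ r E := by
    intro r q
    induction q with
    | zero => simp
    | succ q ih =>
      rw [Nat.succ_mul, ← Nat.add_assoc, powSum_add, hE, smul_zero, add_zero, ih]
  have hwd : ∀ r r' : ℕ, σ ^ r = σ ^ r' → powSum σ r E = powSum σ r' E := by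
    have key : ∀ r : ℕ, powSum σ r E = powSum σ (r % orderOf σ) E := fun r => by
      conv_lhs => rw [← Nat.mod_add_div r (orderOf σ), Nat.mul_comm (orderOf σ)]
      rw [hper]
    intro r r' h
    rw [key r, key r', pow_eq_pow_iff_modEq.1 h]
  have hmem : ∀ g : Subgroup.zpowers σ, ∃ r : ℕ, σ ^ r = (g : G) := fun g =>
    Submonoid.mem_powers_iff _ _ |>.1 (hfin.mem_powers_iff_mem_zpowers.2 g.2)
  choose idx hidx using hmem
  obtain ⟨W, hW⟩ := hv (fun g => powSum σ (idx g) E) fun g h => by
    show powSum σ (idx (g * h)) E = (g : G) • powSum σ (idx h) E + powSum σ (idx g) E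
    rw [hwd (idx (g * h)) (idx g + idx h) (by rw [hidx, pow_add, hidx, hidx]; rfl), powSum_add,
      hidx, add_comm]
  refine ⟨W, ?_⟩
  have h := hW ⟨σ, Subgroup.mem_zpowers σ⟩
  change powSum σ _ E = σ • W - W at h
  rw [hwd _ 1 ((hidx _).trans (pow_one σ).symm), powSum_one] at h
  exact h

lemma smul_smul_comm' {g h : G} (e : Commute g h) {x : A} : g • h • x = h • g • x := by
  rw [← mul_smul, ← mul_smul, e.eq]

/-- **The key identity.** -/
theorem exists_fixed_preimage {γ s : G} (hc : Commute γ s) (i n N : ℕ) (hN : γ ^ N = 1)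
    (hH : ∀ E : A, powSum ((γ ^ i)⁻¹ * s) n E = 0 → ∃ W, E = ((γ ^ i)⁻¹ * s) • W - W)
    {B D : A} (h1 : s • B - B = γ • D - D) (h2 : powSum s n D = powSum γ (n * i) B) :
    ∃ Z : A, ((γ ^ i)⁻¹ * s) • Z = Z ∧ powSum γ N Z = powSum γ N B := by
  set a := γ ^ i with ha
  set s₀ := a⁻¹ * s with hs₀
  set P := powSum (A := A) γ i with hP
  set E := a⁻¹ • (D - P B) with hE
  have hca : Commute a s := hc.pow_left i
  have hpow : ∀ k : ℕ, s ^ k • B - B = γ • powSum s k D - powSum s k D := fun k => by
    rw [smul_powSum_of_commute hc.symm, ← map_sub, ← h1, map_sub, ← smul_powSum_of_commute (Commute.refl s),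
      smul_powSum_sub]
  have hk : ∀ k : ℕ, a ^ k • powSum s₀ k E = powSum s k D - powSum γ (k * i) B := by
    intro k
    induction k with
    | zero => simp [powSum_zero]
    | succ k ih =>
      have hs : a ^ (k + 1) * s₀ ^ k * a⁻¹ = s ^ k := by
        rw [hs₀, hca.inv_left.mul_pow, inv_pow, pow_succ']
        calc a * a ^ k * ((a ^ k)⁻¹ * s ^ k) * a⁻¹ = a * s ^ k * a⁻¹ := by group
          _ = s ^ k := by rw [(hca.pow_right k).eq, mul_inv_cancel_right]
      have hterm : a ^ (k + 1) • s₀ ^ k • E = s ^ k • (D - P B) := by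
        rw [hE, ← mul_smul, ← mul_smul, hs]
      have haU : a • powSum s k D - powSum s k D = s ^ k • P B - P B := by
        rw [hP, smul_powSum_of_commute (hc.pow_right k), ← map_sub, hpow k, map_sub,
          ← smul_powSum_of_commute (Commute.refl γ), smul_powSum_sub]
      rw [powSum_succ, smul_add, hterm, pow_succ', mul_smul, ih, smul_sub, smul_sub, powSum_succ,
        show (k + 1) * i = i + k * i by ring, powSum_add, ← ha, ← hP, sub_eq_iff_eq_add.1 haU]
      abel
  have hE0 : powSum s₀ n E = 0 := MulAction.injective (a ^ n) (by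
    show a ^ n • powSum s₀ n E = a ^ n • (0 : A)
    rw [hk, h2, sub_self, smul_zero])
  obtain ⟨W, hW⟩ := hH E hE0
  refine ⟨B - (γ • W - W), ?_, ?_⟩
  · have hcs : γ • s₀ • W = s₀ • γ • W := by
      rw [← mul_smul, ← mul_smul, hs₀,
        ((((Commute.refl γ).pow_right i).inv_right).mul_right hc).eq]
    have hB : s₀ • B - B = γ • E - E := by
      rw [hE, smul_smul_comm' (((Commute.refl γ).pow_right i).inv_right),
        ← smul_sub, smul_sub γ D, hs₀, mul_smul, eq_comm]
      refine smul_left_cancel a ?_
      rw [smul_inv_smul, smul_sub, smul_inv_smul]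
      have hPB : γ • P B - P B = a • B - B := by rw [hP, smul_powSum_sub]
      calc γ • D - γ • P B - (D - P B) = (γ • D - D) - (γ • P B - P B) := by abel
        _ = s • B - a • B := by rw [← h1, hPB]; abel
    rw [hW, smul_sub γ, hcs] at hB
    rw [smul_sub s₀, smul_sub s₀]
    have : s₀ • B - (s₀ • γ • W - s₀ • W) - (B - (γ • W - W)) =
        (s₀ • B - B) - (s₀ • γ • W - γ • W - (s₀ • W - W)) := by abel
    rw [← sub_eq_zero, this, hB, sub_self]
  · rw [map_sub, map_sub, ← smul_powSum_of_commute (Commute.refl γ), smul_powSum_sub, hN, one_smul,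
      sub_self, sub_zero]

end Fermat.Agent.ClassField.CyclicNorms
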