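import Fermat.Agent.ClassField.CyclicH2
import Mathlib.GroupTheory.Sylow
import Mathlib.GroupTheory.IndexNormal

/-!
# Devissage for finite `p`-groups

If in every step `U ◁ V` of index `p` the norm-zero invariants are differences and the norm index
is at most `p`, then `H¹(V, A) = 0` and `#H²(V, A) ≤ #V` for all subgroups `V`.
-/

set_option autoImplicit false
set_option linter.unusedSectionVars false

namespace Fermat.Agent.ClassField.Devissage

open CochainH2 Finset

variable {G : Type*} [Group G] (A : Type*) [AddCommGroup A] [DistribMulAction G A]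

/-- Vanishing of `H¹`, on cochains. -/
def H1Vanishes (G A : Type*) [Group G] [AddCommGroup A] [DistribMulAction G A] : Prop :=
  ∀ c : G → A, (∀ g h, c (g * h) = g • c h + c g) → ∃ a, ∀ g, c g = g • a - a

/-- The elements fixed by a subgroup. -/
def fixedPts (N : Subgroup G) : AddSubgroup A where
  carrier := {a | ∀ g ∈ N, g • a = a}
  zero_mem' := fun g _ => smul_zero g
  add_mem' := fun {a b} ha hb g hg => by rw [smul_add, ha g hg, hb g hg]
  neg_mem' := fun {a} ha g hg => by rw [smul_neg, ha g hg]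

variable {A}

theorem mem_fixedPts {N : Subgroup G} {a : A} : a ∈ fixedPts A N ↔ ∀ g ∈ N, g • a = a := Iff.rfl

theorem smul_mem_fixedPts {N : Subgroup G} [hN : N.Normal] (g : G) {a : A}
    (ha : a ∈ fixedPts A N) : g • a ∈ fixedPts A N := fun n hn => by
  rw [← mul_smul, show n * g = g * (g⁻¹ * n * g) by group, mul_smul]
  congr 1
  exact ha _ (by simpa using hN.conj_mem n hn g⁻¹)

/-- The action of `G ⧸ N` on the elements fixed by `N`. -/
noncomputable instance quotientAction (N : Subgroup G) [N.Normal] :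
    DistribMulAction (G ⧸ N) (fixedPts A N) :=
  haveI key : ∀ (g : G) (a : fixedPts A N),
      (Quotient.out (g : G ⧸ N)) • (a : A) = g • (a : A) := fun g a => by
    obtain ⟨n, hn⟩ := QuotientGroup.mk_out_eq_mul N g
    rw [hn, mul_smul, a.2 n n.2]
  { smul := fun q a => ⟨q.out • (a : A), smul_mem_fixedPts _ a.2⟩
    one_smul := fun a => Subtype.ext ((key 1 a).trans (one_smul G _))
    mul_smul := fun p q a => by
      obtain ⟨g, rfl⟩ := QuotientGroup.mk_surjective p
      obtain ⟨h, rfl⟩ := QuotientGroup.mk_surjective q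
      refine Subtype.ext ?_
      show Quotient.out ((g : G ⧸ N) * (h : G ⧸ N)) • (a : A) =
        Quotient.out (g : G ⧸ N) • Quotient.out (h : G ⧸ N) • (a : A)
      rw [← QuotientGroup.mk_mul, key, key h a,
        key g ⟨_, smul_mem_fixedPts h a.2⟩, mul_smul]
    smul_zero := fun q => Subtype.ext (smul_zero q.out)
    smul_add := fun q a b => Subtype.ext (smul_add q.out (a : A) b) }

theorem coe_mk_smul (N : Subgroup G) [N.Normal] (g : G) (a : fixedPts A N) :
    (((g : G ⧸ N) • a : fixedPts A N) : A) = g • (a : A) := by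
  obtain ⟨n, hn⟩ := QuotientGroup.mk_out_eq_mul N g
  show Quotient.out (g : G ⧸ N) • (a : A) = _
  rw [hn, mul_smul, a.2 n n.2]

/-- `a ↦ ∑_{i < p} σⁱ a`. -/
noncomputable def powSum (σ : G) (p : ℕ) : A →+ A where
  toFun a := ∑ i ∈ range p, σ ^ i • a
  map_zero' := by simp
  map_add' a b := by simp [sum_add_distrib, smul_add]

theorem powSum_apply (σ : G) (p : ℕ) (a : A) : powSum σ p a = ∑ i ∈ range p, σ ^ i • a := rfl

section transfer

variable {W : Type*} [Group W] [DistribMulAction W A] (e : W ≃* G)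
  (he : ∀ w (a : A), e w • a = w • a)

include he in
theorem h1Vanishes_of_equiv (h : H1Vanishes W A) : H1Vanishes G A := fun c hc => by
  obtain ⟨a, ha⟩ := h (fun w => c (e w)) fun w w' => by rw [map_mul, hc, he]
  exact ⟨a, fun g => by
    obtain ⟨w, rfl⟩ := e.surjective g
    rw [ha w, he]⟩

include he in
theorem card_h2_of_equiv (h : Finite (H2 W A)) :
    Finite (H2 G A) ∧ Nat.card (H2 G A) = Nat.card (H2 W A) := by
  have h₂ : ∀ (g : G) (a : A), e.symm g • a = g • a := fun g a => by
    rw [← he, MulEquiv.apply_symm_apply]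
  let f := CochainH2.map (A := A) (e : W →* G) (AddMonoidHom.id A) fun w a => he w a
  let f' := CochainH2.map (A := A) (e.symm : G →* W) (AddMonoidHom.id A) fun g a => h₂ g a
  have hff : ∀ z, f' (f z) = z := fun z => by
    obtain ⟨x, rfl⟩ := mk_surjective z
    refine congrArg (CochainH2.mk G A) (Subtype.ext (funext fun y => ?_))
    show (x : G × G → A) (e (e.symm y.1), e (e.symm y.2)) = (x : G × G → A) y
    rw [e.apply_symm_apply, e.apply_symm_apply]
  have hff' : ∀ z, f (f' z) = z := fun z => by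
    obtain ⟨x, rfl⟩ := mk_surjective z
    refine congrArg (CochainH2.mk W A) (Subtype.ext (funext fun y => ?_))
    show (x : W × W → A) (e.symm (e y.1), e.symm (e y.2)) = (x : W × W → A) y
    rw [e.symm_apply_apply, e.symm_apply_apply]
  have hinj : Function.Injective f := Function.LeftInverse.injective hff
  have hfin : Finite (H2 G A) := Finite.of_injective f hinj
  refine ⟨hfin, le_antisymm (Nat.card_le_card_of_injective f hinj) ?_⟩
  exact Nat.card_le_card_of_surjective f fun z => ⟨f' z, hff' z⟩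

end transfer

variable (A) in
/-- The hypothesis for the steps of index `p`. -/
def StepHyp (G : Type*) [Group G] [DistribMulAction G A] (p : ℕ) : Prop :=
  ∀ V U : Subgroup G, U ≤ V → (U.subgroupOf V).Normal → U.relIndex V = p → ∀ σ ∈ V, σ ∉ U →
    (∀ x ∈ fixedPts A U, powSum σ p x = 0 → ∃ y ∈ fixedPts A U, σ • y - y = x) ∧
      ((fixedPts A U).map (powSum (A := A) σ p)).relIndex (fixedPts A V) ≠ 0 ∧
      ((fixedPts A U).map (powSum (A := A) σ p)).relIndex (fixedPts A V) ≤ p

/-- One step. -/
theorem step {p : ℕ} (hp : p.Prime) (hbase : StepHyp A G p) (V U : Subgroup G) (hUV : U ≤ V)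
    [hn : (U.subgroupOf V).Normal] (hidx : U.relIndex V = p) :
    H1Vanishes (V ⧸ U.subgroupOf V) (fixedPts A (U.subgroupOf V)) ∧
      Finite (H2 (V ⧸ U.subgroupOf V) (fixedPts A (U.subgroupOf V))) ∧
      Nat.card (H2 (V ⧸ U.subgroupOf V) (fixedPts A (U.subgroupOf V))) ≤ p := by
  set N := U.subgroupOf V with hN
  have hcard : Nat.card (V ⧸ N) = p := hidx
  have : Finite (V ⧸ N) := Nat.finite_of_card_ne_zero (hcard ▸ hp.ne_zero)
  have : Fact p.Prime := ⟨hp⟩
  obtain ⟨s, hs⟩ : ∃ s : V ⧸ N, s ≠ 1 := by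
    by_contra! h
    have : Subsingleton (V ⧸ N) := ⟨fun a b => (h a).trans (h b).symm⟩
    rw [Nat.card_unique] at hcard
    exact hp.one_lt.ne hcard
  obtain ⟨σ, rfl⟩ := QuotientGroup.mk_surjective s
  have hσU : (σ : G) ∉ U := fun h => hs ((QuotientGroup.eq_one_iff σ).2 (Subgroup.mem_subgroupOf.2 h))
  obtain ⟨hnorm, hne, hle⟩ := hbase V U hUV hn hidx σ σ.2 hσU
  have hord : orderOf (σ : V ⧸ N) = p := orderOf_eq_prime
    (by rw [← hcard, pow_card_eq_one']) hs
  have hgen : ∀ x : V ⧸ N, x ∈ Submonoid.powers (σ : V ⧸ N) := fun x =>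
    mem_powers_of_prime_card hcard hs
  have hfix : ∀ x : A, x ∈ fixedPts A U ↔ x ∈ fixedPts A N := fun x =>
    ⟨fun h g hg => h g (Subgroup.mem_subgroupOf.1 hg),
      fun h g hg => h ⟨g, hUV hg⟩ (Subgroup.mem_subgroupOf.2 hg)⟩
  have hsmul : ∀ (i : ℕ) (b : fixedPts A N),
      ((((σ : V ⧸ N) ^ i) • b : fixedPts A N) : A) = (σ : G) ^ i • (b : A) := fun i b => by
    rw [← QuotientGroup.mk_pow, coe_mk_smul]
    exact congrArg (· • (b : A)) (SubmonoidClass.coe_pow σ i)
  have hsum : ∀ b : fixedPts A N,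
      ((CyclicH2.normSum (σ : V ⧸ N) b : fixedPts A N) : A) = powSum (σ : G) p (b : A) := fun b => by
    rw [CyclicH2.normSum_apply, hord, AddSubgroup.val_finsetSum, powSum_apply]
    exact sum_congr rfl fun i _ => hsmul i b
  refine ⟨fun c hc => ?_, ?_⟩
  · have hc1 : c 1 = 0 := by
      have h := hc 1 1
      rwa [one_mul, one_smul, left_eq_add] at h
    have hci : ∀ i : ℕ, c ((σ : V ⧸ N) ^ i) = ∑ j ∈ range i, (σ : V ⧸ N) ^ j • c σ := fun i => by
      induction i with
      | zero => rw [pow_zero, range_zero, sum_empty, hc1]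
      | succ i ih => rw [pow_succ, hc, sum_range_succ, ih, add_comm]
    have h0 : powSum (σ : G) p (c σ : A) = 0 := by
      rw [← hsum, CyclicH2.normSum_apply, ← hci, pow_orderOf_eq_one, hc1]; rfl
    obtain ⟨y, hy, hyx⟩ := hnorm _ ((hfix _).2 (c σ).2) h0
    refine ⟨⟨y, (hfix _).1 hy⟩, fun g => ?_⟩
    obtain ⟨i, rfl⟩ := Submonoid.mem_powers_iff _ _ |>.1 (hgen g)
    induction i with
    | zero => rw [pow_zero, hc1, one_smul, sub_self]
    | succ i ih =>
      have e : c σ = (σ : V ⧸ N) • (⟨y, (hfix _).1 hy⟩ : fixedPts A N) - ⟨y, (hfix _).1 hy⟩ := by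
        refine Subtype.ext ?_
        rw [AddSubgroup.coe_sub, coe_mk_smul]
        exact hyx.symm
      rw [pow_succ, hc, ih, e, mul_smul, smul_sub]
      abel
  · have himg : ((CyclicH2.normSum (A := fixedPts A N) (σ : V ⧸ N)).range).map
        (fixedPts A N).subtype = (fixedPts A U).map (powSum (A := A) (σ : G) p) := by
      ext x
      simp only [AddSubgroup.mem_map, AddMonoidHom.mem_range, AddSubgroup.coe_subtype]
      constructor
      · rintro ⟨_, ⟨b, rfl⟩, rfl⟩
        exact ⟨b, (hfix _).2 b.2, (hsum b).symm⟩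
      · rintro ⟨b, hb, rfl⟩
        exact ⟨_, ⟨⟨b, (hfix _).1 hb⟩, rfl⟩, hsum _⟩
    have himg' : (CyclicH2.fixed (fixedPts A N) (σ : V ⧸ N)).map (fixedPts A N).subtype =
        fixedPts A V := by
      ext x
      simp only [AddSubgroup.mem_map, AddSubgroup.coe_subtype]
      constructor
      · rintro ⟨b, hb, rfl⟩ g hg
        obtain ⟨i, hi⟩ := Submonoid.mem_powers_iff _ _ |>.1 (hgen ((⟨g, hg⟩ : V) : V ⧸ N))
        have hb' : ∀ i : ℕ, (σ : V ⧸ N) ^ i • b = b := fun i => by
          induction i with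
          | zero => rw [pow_zero, one_smul]
          | succ i ih => rw [pow_succ, mul_smul, show (σ : V ⧸ N) • b = b from hb, ih]
        have h := congrArg Subtype.val ((congrArg (· • b) hi).symm.trans (hb' i))
        rwa [coe_mk_smul] at h
      · intro hx
        refine ⟨⟨x, (hfix x).1 fun g hg => hx g (hUV hg)⟩, Subtype.ext ?_, rfl⟩
        rw [coe_mk_smul]
        exact hx σ σ.2
    have hrel : (CyclicH2.normSum (A := fixedPts A N) (σ : V ⧸ N)).range.relIndex
        (CyclicH2.fixed (fixedPts A N) (σ : V ⧸ N)) =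
        ((fixedPts A U).map (powSum (A := A) (σ : G) p)).relIndex (fixedPts A V) := by
      rw [← himg, ← himg', AddSubgroup.relIndex_map_map_of_injective _ _ Subtype.val_injective]
    obtain ⟨h1, h2⟩ := CyclicH2.card_le (σ : V ⧸ N) hgen (isOfFinOrder_of_finite _) (hrel ▸ hne)
    exact ⟨h1, h2.trans (hrel ▸ hle)⟩

/-- **Devissage.** -/
theorem h1_h2_le [Finite G] {p : ℕ} [Fact p.Prime] (hG : IsPGroup p G) (hbase : StepHyp A G p)
    (V : Subgroup G) :
    H1Vanishes V A ∧ Finite (H2 V A) ∧ Nat.card (H2 V A) ≤ Nat.card V := by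
  have hp := Fact.out (p := p.Prime)
  suffices H : ∀ n, ∀ V : Subgroup G, Nat.card V = n →
      H1Vanishes V A ∧ Finite (H2 V A) ∧ Nat.card (H2 V A) ≤ Nat.card V from H _ V rfl
  intro n
  induction n using Nat.strong_induction_on with
  | _ n ih =>
  intro V hV
  obtain ⟨k, hk⟩ := (hG.to_subgroup V).exists_card_eq
  rcases k with _ | k
  · have : Subsingleton V := (Nat.card_eq_one_iff_unique.1 (by rw [hk, pow_zero])).1
    have hz : ∀ z : H2 V A, z = 0 := fun z => by
      obtain ⟨f, rfl⟩ := mk_surjective z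
      refine mk_eq_zero.2 ⟨fun _ => (f : V × V → A) (1, 1), funext fun x => ?_⟩
      obtain ⟨g, h⟩ := x
      rw [d1_apply, Subsingleton.elim g 1, Subsingleton.elim h 1, one_smul, sub_self, zero_add]
    have : Subsingleton (H2 V A) := ⟨fun a b => (hz a).trans (hz b).symm⟩
    refine ⟨fun c hc => ⟨0, fun g => ?_⟩, inferInstance, ?_⟩
    · have h := hc 1 1
      rw [one_mul, one_smul, left_eq_add] at h
      rw [Subsingleton.elim g 1, h, smul_zero, sub_zero]
    · rw [Nat.card_unique]; exact Nat.card_pos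
  · obtain ⟨U₀, hU₀⟩ := Sylow.exists_subgroup_card_pow_prime (G := V) p (n := k)
      (by rw [hk]; exact pow_dvd_pow p k.le_succ)
    have hidx : U₀.index = p := by
      have h := U₀.card_mul_index
      rw [hU₀, hk, pow_succ] at h
      exact Nat.eq_of_mul_eq_mul_left (pow_pos hp.pos k) h
    have hn : U₀.Normal := Subgroup.normal_of_index_eq_minFac_card
      (by rw [hidx, hk, hp.pow_minFac k.succ_ne_zero])
    set U := U₀.map V.subtype with hU
    have hUV : U ≤ V := Subgroup.map_subtype_le U₀
    have hUN : U.subgroupOf V = U₀ :=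
      Subgroup.comap_map_eq_self_of_injective V.subtype_injective U₀
    have : (U.subgroupOf V).Normal := by rw [hUN]; exact hn
    have hrel : U.relIndex V = p := by rw [Subgroup.relIndex, hUN, hidx]
    obtain ⟨hQ1, hQf, hQc⟩ := step hp hbase V U hUV hrel
    have hcardU : Nat.card U = p ^ k := by
      rw [← hU₀]
      exact (Nat.card_congr (U₀.equivMapOfInjective V.subtype V.subtype_injective).toEquiv).symm
    obtain ⟨hU1, hUf, hUc⟩ := ih _ (by rw [← hV, hk, hcardU]; exact Nat.pow_lt_pow_succ hp.one_lt) U rfl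
    set N := U.subgroupOf V with hNdef
    set π := QuotientGroup.mk' N
    let e : U ≃* π.ker := (Subgroup.subgroupOfEquivOfLe hUV).symm.trans
      (MulEquiv.subgroupCongr (QuotientGroup.ker_mk' N).symm)
    have he : ∀ (u : U) (a : A), e u • a = u • a := fun _ _ => rfl
    have hN1 : H1Vanishes π.ker A := h1Vanishes_of_equiv e he hU1
    obtain ⟨hNf, hNc⟩ := card_h2_of_equiv e he hUf
    let ι : fixedPts A N →+ A := (fixedPts A N).subtype
    have hι : ∀ (g : V) (b : fixedPts A N), ι (π g • b) = g • ι b := coe_mk_smul N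
    have hfix : ∀ a : A, (∀ m : π.ker, (m : V) • a = a) → a ∈ Set.range ι := fun a ha =>
      ⟨⟨a, fun g hg => ha ⟨g, by rwa [QuotientGroup.ker_mk']⟩⟩, rfl⟩
    refine ⟨fun c hc => ?_, ?_⟩
    · obtain ⟨a, ha⟩ := hN1 (fun m => c m) fun m m' => hc m m'
      set c' : V → A := fun g => c g - (g • a - a) with hc'
      have hcoc : ∀ g h, c' (g * h) = g • c' h + c' g := fun g h => by
        simp only [hc', hc, mul_smul, smul_sub]; abel
      have h0 : ∀ m : π.ker, c' m = 0 := fun m => by
        show c m - ((m : V) • a - a) = 0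
        exact sub_eq_zero.2 (ha m)
      have hright : ∀ (g : V) (m : π.ker), c' (g * m) = c' g := fun g m => by
        rw [hcoc, h0, smul_zero, zero_add]
      have hinv : ∀ g : V, c' g ∈ Set.range ι := fun g => hfix _ fun m => by
        have hm : g⁻¹ * (m : V) * g ∈ π.ker := by
          simp [MonoidHom.mem_ker, MonoidHom.mem_ker.1 m.2]
        have h := hcoc (m : V) g
        rw [h0, add_zero, show (m : V) * g = g * (g⁻¹ * m * g) by group, hright g ⟨_, hm⟩] at h
        exact h.symm
      choose b hb using hinv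
      have hbq : ∀ g, b (π g).out = b g := fun g => by
        obtain ⟨m, hm⟩ := QuotientGroup.mk_out_eq_mul N g
        apply Subtype.val_injective (p := (· ∈ fixedPts A N))
        show ι (b _) = ι (b g)
        rw [hb, hb, show (π g).out = g * m from hm]
        exact hright g ⟨m, by rw [QuotientGroup.ker_mk']; exact m.2⟩
      obtain ⟨y, hy⟩ := hQ1 (fun x => b x.out) fun x x' => by
        obtain ⟨g, rfl⟩ := QuotientGroup.mk'_surjective N x
        obtain ⟨g', rfl⟩ := QuotientGroup.mk'_surjective N x'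
        rw [← map_mul π, hbq, hbq, hbq]
        apply Subtype.val_injective (p := (· ∈ fixedPts A N))
        show ι (b _) = ι (π g • b g' + b g)
        rw [map_add, hι, hb, hb, hb, hcoc]
      refine ⟨(y : A) + a, fun g => ?_⟩
      have h := congrArg ι (hy (π g))
      rw [hbq, hb, map_sub, hι] at h
      have h' : c g - (g • a - a) = g • (y : A) - y := h
      rw [smul_add, sub_eq_iff_eq_add.1 h']
      abel
    · obtain ⟨hf, hc⟩ := CochainH2.card_le π (QuotientGroup.mk'_surjective N) ι
        Subtype.val_injective hι hfix hN1 hQf hNf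
      refine ⟨hf, hc.trans ?_⟩
      rw [hNc, hk, pow_succ, mul_comm (p ^ k) p, ← hcardU]
      exact Nat.mul_le_mul hQc hUc

end Fermat.Agent.ClassField.Devissage
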