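import Fermat.Agent.ClassField.HerbrandRank
import Mathlib

/-!
# First inequality for unramified cyclic extensions of prime degree

Elementary proof through the ambiguous class number bound: for `L/K` unramified cyclic of degree
`p`, the Herbrand quotient of the units gives `#Cl_L^G * p ≤ h_K`; as the norm factors through the
coinvariants, its image is a proper subgroup of `Cl_K`.
-/

set_option autoImplicit false
set_option linter.unusedSectionVars false

noncomputable section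

open scoped NumberField nonZeroDivisors Pointwise
open IsDedekindDomain NumberField Module

namespace Fermat.Agent.ClassField

namespace FirstIneq

section descend

variable {R H : Type*} [CommRing R] [IsDedekindDomain R] [CommGroup H]

/-- A homomorphism on nonzero ideals that is trivial on principal ideals descends to classes. -/
def descend (φ : (Ideal R)⁰ →* H)
    (hφ : ∀ I : (Ideal R)⁰, (I : Ideal R).IsPrincipal → φ I = 1) : ClassGroup R →* H :=
  have key : ∀ I J, ClassGroup.mk0 I = ClassGroup.mk0 J → φ I = φ J := by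
    intro I J h
    obtain ⟨x, y, hx, hy, e⟩ := ClassGroup.mk0_eq_mk0_iff.1 h
    let X : (Ideal R)⁰ := ⟨Ideal.span {x}, mem_nonZeroDivisors_of_ne_zero (by simpa using hx)⟩
    let Y : (Ideal R)⁰ := ⟨Ideal.span {y}, mem_nonZeroDivisors_of_ne_zero (by simpa using hy)⟩
    have e' : X * I = Y * J := Subtype.ext e
    have := congrArg φ e'
    rw [map_mul, map_mul, hφ X ⟨⟨x, rfl⟩⟩, hφ Y ⟨⟨y, rfl⟩⟩, one_mul, one_mul] at this
    exact this
  MonoidHom.mk' (fun c => φ (ClassGroup.mk0_surjective c).choose) fun a b => by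
    rw [← map_mul]
    apply key
    rw [map_mul, (ClassGroup.mk0_surjective _).choose_spec, (ClassGroup.mk0_surjective a).choose_spec,
      (ClassGroup.mk0_surjective b).choose_spec]

theorem descend_mk0 (φ : (Ideal R)⁰ →* H)
    (hφ : ∀ I : (Ideal R)⁰, (I : Ideal R).IsPrincipal → φ I = 1) (I : (Ideal R)⁰) :
    descend φ hφ (ClassGroup.mk0 I) = φ I := by
  have h := (ClassGroup.mk0_surjective (ClassGroup.mk0 I)).choose_spec
  obtain ⟨x, y, hx, hy, e⟩ := ClassGroup.mk0_eq_mk0_iff.1 h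
  let X : (Ideal R)⁰ := ⟨Ideal.span {x}, mem_nonZeroDivisors_of_ne_zero (by simpa using hx)⟩
  let Y : (Ideal R)⁰ := ⟨Ideal.span {y}, mem_nonZeroDivisors_of_ne_zero (by simpa using hy)⟩
  have e' : X * (ClassGroup.mk0_surjective (ClassGroup.mk0 I)).choose = Y * I := Subtype.ext e
  have := congrArg φ e'
  rw [map_mul, map_mul, hφ X ⟨⟨x, rfl⟩⟩, hφ Y ⟨⟨y, rfl⟩⟩, one_mul, one_mul] at this
  exact this

end descend

theorem exists_addMonoidHom_ne_zero_of_module {p : ℕ} [Fact p.Prime] {V : Type*} [AddCommGroup V]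
    [Module (ZMod p) V] {v : V} (hv : v ≠ 0) : ∃ f : V →+ ZMod p, f v ≠ 0 := by
  obtain ⟨f, hf⟩ : ∃ f : V →ₗ[ZMod p] ZMod p, f v ≠ 0 := by
    by_contra hall
    push Not at hall
    exact hv ((Module.forall_dual_apply_eq_zero_iff (ZMod p) v).1 hall)
  exact ⟨f.toAddMonoidHom, hf⟩

theorem exists_addMonoidHom_zmod_ne_zero {p : ℕ} [Fact p.Prime] {V : Type*} [AddCommGroup V]
    (h : ∀ x : V, p • x = 0) {v : V} (hv : v ≠ 0) : ∃ f : V →+ ZMod p, f v ≠ 0 :=
  @exists_addMonoidHom_ne_zero_of_module p _ V _ (AddCommGroup.zmodModule h) v hv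

variable {K L : Type*} [Field K] [NumberField K] [Field L] [NumberField L] [Algebra K L]


theorem smul_span_singleton (g : (L ≃ₐ[K] L)) (x : 𝓞 L) :
    g • Ideal.span {x} = Ideal.span {g • x} := by
  rw [Ideal.pointwise_smul_def, Ideal.map_span, Set.image_singleton]
  rfl

theorem smul_ideal_mul (g : (L ≃ₐ[K] L)) (I J : Ideal (𝓞 L)) : g • (I * J) = g • I * g • J := by
  simp only [Ideal.pointwise_smul_def, Ideal.map_mul]

variable [IsGalois K L]

theorem smul_map (g : (L ≃ₐ[K] L)) (I : Ideal (𝓞 K)) :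
    g • I.map (algebraMap (𝓞 K) (𝓞 L)) = I.map (algebraMap (𝓞 K) (𝓞 L)) := by
  rw [Ideal.pointwise_smul_def, Ideal.map_map]
  congr 1
  exact RingHom.ext fun x => smul_algebraMap g x

theorem map_prime_eq_prod (hunr : ∀ Q : Ideal (𝓞 L), Q ≠ ⊥ → Q.IsPrime → Q.inertia (L ≃ₐ[K] L) = ⊥)
    (P : Ideal (𝓞 K)) [P.IsMaximal] (hP : P ≠ ⊥) :
    P.map (algebraMap (𝓞 K) (𝓞 L)) =
      ∏ Q ∈ (IsDedekindDomain.primesOverFinset P (𝓞 L)), Q := by
  rw [Ideal.map_algebraMap_eq_finsetProd_pow (by simpa using hP)]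
  refine Finset.prod_congr ?_ fun Q hQ => ?_
  · ext Q
    simp [IsDedekindDomain.mem_primesOverFinset_iff hP _]
  · have hQ' : Q ∈ P.primesOver (𝓞 L) := (IsDedekindDomain.mem_primesOverFinset_iff hP _).1 hQ
    have := hQ'.1
    have := hQ'.2
    have hQne : Q ≠ ⊥ := Ideal.ne_bot_of_liesOver_of_ne_bot hP Q
    have : Finite (𝓞 K ⧸ P) := Ideal.finiteQuotientOfFreeOfNeBot P hP
    have : Finite P.ResidueField := Finite.of_surjective _
      P.bijective_algebraMap_quotient_residueField.surjective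
    have h1 := Ideal.card_inertia_eq_ramificationIdxIn (G := L ≃ₐ[K] L) P Q
    rw [hunr Q hQne inferInstance, Subgroup.card_bot,
      Ideal.ramificationIdxIn_eq_ramificationIdx P Q (L ≃ₐ[K] L)] at h1
    rw [← h1, pow_one]

/-- An invariant ideal of an unramified Galois extension is extended from the base. -/
theorem exists_eq_map_of_invariant
    (hunr : ∀ Q : Ideal (𝓞 L), Q ≠ ⊥ → Q.IsPrime → Q.inertia (L ≃ₐ[K] L) = ⊥)
    (J : Ideal (𝓞 L)) (hJ : J ≠ ⊥) (hinv : ∀ g : (L ≃ₐ[K] L), g • J = J) :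
    ∃ I : (Ideal (𝓞 K))⁰, J = (I : Ideal (𝓞 K)).map (algebraMap (𝓞 K) (𝓞 L)) := by
  induction hn : Ideal.absNorm J using Nat.strong_induction_on generalizing J with
  | _ n ih =>
  by_cases hJt : J = ⊤
  · exact ⟨1, by rw [hJt, OneMemClass.coe_one, Ideal.one_eq_top]; exact (Ideal.map_top (algebraMap (𝓞 K) (𝓞 L))).symm⟩
  obtain ⟨Q, hQ, hJQ⟩ := J.exists_le_maximal hJt
  have hQne : Q ≠ ⊥ := fun h => hJ (le_bot_iff.1 (h ▸ hJQ))
  set P := Q.under (𝓞 K) with hPdef
  have : Q.LiesOver P := Ideal.over_under Q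
  have : P.IsMaximal := Ideal.IsMaximal.under (𝓞 K) Q
  have hP : P ≠ ⊥ := mt (Ideal.eq_bot_of_comap_eq_bot (R := 𝓞 K)) hQne
  have hdvd : P.map (algebraMap (𝓞 K) (𝓞 L)) ∣ J := by
    rw [map_prime_eq_prod hunr P hP]
    refine Finset.prod_primes_dvd _ (fun Q' hQ' => ?_) fun Q' hQ' => ?_
    · have h := (IsDedekindDomain.mem_primesOverFinset_iff hP _).1 hQ'
      have := h.1
      have := h.2
      exact Ideal.prime_of_isPrime (Ideal.ne_bot_of_liesOver_of_ne_bot hP Q') h.1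
    · have h := (IsDedekindDomain.mem_primesOverFinset_iff hP _).1 hQ'
      have := h.1
      have := h.2
      obtain ⟨g, rfl⟩ := Ideal.exists_smul_eq_of_isGaloisGroup P Q Q' (L ≃ₐ[K] L)
      rw [Ideal.dvd_iff_le, ← hinv g, Ideal.pointwise_smul_def, Ideal.pointwise_smul_def]
      exact Ideal.map_mono hJQ
  obtain ⟨J', rfl⟩ := hdvd
  have hmP : P.map (algebraMap (𝓞 K) (𝓞 L)) ≠ 0 := left_ne_zero_of_mul hJ
  have hJ' : J' ≠ ⊥ := right_ne_zero_of_mul hJ
  have hinv' : ∀ g : (L ≃ₐ[K] L), g • J' = J' := fun g => by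
    have := hinv g
    rw [smul_ideal_mul, smul_map] at this
    exact mul_left_cancel₀ hmP this
  have hlt : Ideal.absNorm J' < n := by
    rw [← hn, map_mul]
    refine lt_mul_of_one_lt_left (Nat.pos_of_ne_zero fun h => hJ' (Ideal.absNorm_eq_zero_iff.1 h)) ?_
    have h0 : Ideal.absNorm (P.map (algebraMap (𝓞 K) (𝓞 L))) ≠ 0 :=
      fun h => hmP (Ideal.absNorm_eq_zero_iff.1 h)
    have h1 : Ideal.absNorm (P.map (algebraMap (𝓞 K) (𝓞 L))) ≠ 1 := by
      rw [Ne, Ideal.absNorm_eq_one_iff]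
      exact ne_top_of_le_ne_top (Ideal.IsMaximal.ne_top hQ) Ideal.map_comap_le
    omega
  obtain ⟨I, rfl⟩ := ih _ hlt J' hJ' hinv' rfl
  refine ⟨⟨P * I, mem_nonZeroDivisors_of_ne_zero (mul_ne_zero hP (nonZeroDivisors.coe_ne_zero I))⟩, ?_⟩
  exact (Ideal.map_mul _ _ _).symm

variable {p : ℕ} [hp : NeZero p]

variable (hd : finrank K L = p) (σ : (L ≃ₐ[K] L)) (hσ : ∀ g : (L ≃ₐ[K] L), g ∈ Subgroup.zpowers σ)

include hd hσ in
theorem orderOf_eq : orderOf σ = p := by
  rw [orderOf_eq_card_of_forall_mem_zpowers hσ, IsGalois.card_aut_eq_finrank, hd]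

include hd hσ in
theorem pow_eq_one : σ ^ p = 1 := by
  rw [← orderOf_eq hd σ hσ]; exact pow_orderOf_eq_one σ

include hd hσ in
theorem prod_range_pow {M : Type*} [CommMonoid M] (f : (L ≃ₐ[K] L) → M) :
    ∏ i ∈ Finset.range p, f (σ ^ i) = ∏ g : (L ≃ₐ[K] L), f g := by
  refine Finset.prod_nbij (σ ^ ·) (fun _ _ => Finset.mem_univ _) ?_ ?_ fun _ _ => rfl
  · rw [← orderOf_eq hd σ hσ, Finset.coe_range]
    exact pow_injOn_Iio_orderOf
  · intro g _
    obtain ⟨i, rfl⟩ := mem_powers_iff_mem_zpowers.2 (hσ g)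
    refine ⟨i % p, Finset.mem_range.2 (Nat.mod_lt _ (Nat.pos_of_ne_zero hp.out)), ?_⟩
    rw [← orderOf_eq hd σ hσ]
    exact pow_mod_orderOf σ i

include hd hσ in
/-- Hilbert's Theorem 90 in any universe. -/
theorem exists_mul_eq_self {y : L} (hy : ∏ g : (L ≃ₐ[K] L), g y = 1) :
    ∃ z : L, z ≠ 0 ∧ y * σ z = z := by
  let c : ℕ → L := fun i => ∏ j ∈ Finset.range i, (σ ^ j) y
  have hinj : Function.Injective
      (fun i : Fin p => ((σ ^ (i : ℕ) : L ≃ₐ[K] L) : L →* L)) := by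
    intro i j h
    refine Fin.ext (pow_injOn_Iio_orderOf (x := σ) ?_ ?_ (AlgEquiv.ext fun x => DFunLike.congr_fun h x))
    · rw [orderOf_eq hd σ hσ]; exact i.2
    · rw [orderOf_eq hd σ hσ]; exact j.2
  obtain ⟨t, ht⟩ : ∃ t, ∑ i : Fin p, c i * (σ ^ (i : ℕ)) t ≠ 0 := by
    by_contra hall
    push Not at hall
    have hli := Fintype.linearIndependent_iff.1 ((linearIndependent_monoidHom L L).comp _ hinj)
      (fun i => c i) (funext fun x => by
        simpa [Finset.sum_apply] using hall x) ⟨0, Nat.pos_of_ne_zero hp.out⟩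
    simp [c] at hli
  refine ⟨_, ht, ?_⟩
  rw [map_sum, Finset.mul_sum, Fin.sum_univ_eq_sum_range (fun i => y * σ (c i * (σ ^ i) t)),
    Fin.sum_univ_eq_sum_range (fun i => c i * (σ ^ i) t)]
  have step : ∀ i, y * σ (c i * (σ ^ i) t) = c (i + 1) * (σ ^ (i + 1)) t := by
    intro i
    simp only [c, map_mul, map_prod, ← AlgEquiv.mul_apply, ← pow_succ', ← mul_assoc]
    congr 1
    rw [mul_comm, Finset.prod_range_succ']
    simp
  simp only [step]
  have hper : c p * (σ ^ p) t = c 0 * (σ ^ 0) t := by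
    have hcp : c p = 1 := (prod_range_pow hd σ hσ fun g => g y).trans hy
    rw [hcp, pow_eq_one hd σ hσ, pow_zero]
    simp [c]
  have h := Finset.sum_range_succ' (fun i => c i * (σ ^ i) t) p
  rw [Finset.sum_range_succ, hper] at h
  exact (add_right_cancel h).symm

include hσ in
theorem invariant_of_smul_eq {X : Type*} [MulAction (L ≃ₐ[K] L) X] {x : X} (h : σ • x = x) (g : (L ≃ₐ[K] L)) :
    g • x = x := by
  have : Subgroup.zpowers σ ≤ MulAction.stabilizer (L ≃ₐ[K] L) x := Subgroup.zpowers_le.2 h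
  exact this (hσ g)

include hσ in
theorem exists_of_smul_eq {x : 𝓞 L} (h : σ • x = x) :
    ∃ y : 𝓞 K, algebraMap (𝓞 K) (𝓞 L) y = x :=
  Algebra.IsInvariant.isInvariant (G := L ≃ₐ[K] L) x (invariant_of_smul_eq σ hσ h)

/-- The automorphism of the unit group, additively. -/
def unitEnd : Module.End ℤ (Additive (𝓞 L)ˣ) :=
  (MonoidHom.toAdditive (Units.map (MulSemiringAction.toRingHom (L ≃ₐ[K] L) (𝓞 L) σ : 𝓞 L →* 𝓞 L))).toIntLinearMap

theorem unitEnd_apply (x : Additive (𝓞 L)ˣ) :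
    ((Additive.toMul (unitEnd σ x) : (𝓞 L)ˣ) : 𝓞 L) = σ • ((Additive.toMul x : (𝓞 L)ˣ) : 𝓞 L) := rfl

theorem unitEnd_pow_apply (i : ℕ) (x : Additive (𝓞 L)ˣ) :
    ((Additive.toMul ((unitEnd σ ^ i) x) : (𝓞 L)ˣ) : 𝓞 L) =
      (σ ^ i) • ((Additive.toMul x : (𝓞 L)ˣ) : 𝓞 L) := by
  induction i with
  | zero => simp
  | succ i ih => rw [pow_succ', Module.End.mul_apply, unitEnd_apply, ih, pow_succ', mul_smul]

include hd hσ in
theorem unitEnd_pow : unitEnd σ ^ p = 1 := by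
  refine LinearMap.ext fun x => Additive.toMul.injective (Units.ext ?_)
  rw [unitEnd_pow_apply, pow_eq_one hd σ hσ, one_smul]
  rfl

include hd hσ in
theorem unitNorm_apply (x : Additive (𝓞 L)ˣ) :
    ((Additive.toMul ((∑ i ∈ Finset.range p, unitEnd σ ^ i) x) : (𝓞 L)ˣ) : 𝓞 L) =
      ∏ g : (L ≃ₐ[K] L), g • ((Additive.toMul x : (𝓞 L)ˣ) : 𝓞 L) := by
  rw [LinearMap.sum_apply, toMul_sum, Units.coe_prod,
    ← prod_range_pow hd σ hσ]
  exact Finset.prod_congr rfl fun i _ => unitEnd_pow_apply σ i x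

theorem mem_ker_unitEnd_sub_one (x : Additive (𝓞 L)ˣ) :
    x ∈ (unitEnd σ - 1).ker ↔
      σ • ((Additive.toMul x : (𝓞 L)ˣ) : 𝓞 L) = ((Additive.toMul x : (𝓞 L)ˣ) : 𝓞 L) := by
  rw [LinearMap.mem_ker, LinearMap.sub_apply, sub_eq_zero, Module.End.one_apply,
    ← unitEnd_apply]
  exact ⟨fun h => by rw [h], fun h => Additive.toMul.injective (Units.ext h)⟩

include hσ in
theorem finrank_ker_unitEnd :
    finrank ℤ (unitEnd σ - 1).ker = Units.rank K := by
  let f : Additive (𝓞 K)ˣ →ₗ[ℤ] Additive (𝓞 L)ˣ :=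
    (MonoidHom.toAdditive (Units.map (algebraMap (𝓞 K) (𝓞 L) : 𝓞 K →* 𝓞 L))).toIntLinearMap
  have hf : Function.Injective f := fun x y h => Additive.toMul.injective <| Units.ext <|
    FaithfulSMul.algebraMap_injective (𝓞 K) (𝓞 L)
      (congrArg (fun z : Additive (𝓞 L)ˣ => ((Additive.toMul z : (𝓞 L)ˣ) : 𝓞 L)) h)
  have hr : f.range = (unitEnd σ - 1).ker := by
    ext x
    rw [mem_ker_unitEnd_sub_one]
    constructor
    · rintro ⟨y, rfl⟩
      exact smul_algebraMap σ _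
    · intro h
      obtain ⟨a, ha⟩ := exists_of_smul_eq σ hσ h
      have hinv : σ • ((Additive.toMul x)⁻¹ : (𝓞 L)ˣ).1 = ((Additive.toMul x)⁻¹ : (𝓞 L)ˣ).1 := by
        apply (Additive.toMul x).isUnit.mul_left_cancel
        conv_lhs => rw [← h, ← smul_mul', Units.mul_inv, smul_one]
        exact (Units.mul_inv _).symm
      obtain ⟨b, hb⟩ := exists_of_smul_eq σ hσ hinv
      have hab : a * b = 1 := FaithfulSMul.algebraMap_injective (𝓞 K) (𝓞 L) (by
        rw [map_mul, ha, hb, Units.mul_inv, map_one])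
      exact ⟨Additive.ofMul ⟨a, b, hab, by rwa [mul_comm]⟩, Additive.toMul.injective (Units.ext ha)⟩
  rw [← hr, LinearMap.finrank_range_of_inj hf, Units.finrank_eq]

include hd in
theorem rank_eq [IsUnramifiedAtInfinitePlaces K L] :
    Units.rank L + 1 = p * (Units.rank K + 1) := by
  classical
  have hun : ∀ w : InfinitePlace K, w.IsUnramifiedIn L := fun w v _ =>
    IsUnramifiedAtInfinitePlaces.isUnramified v
  have h := InfinitePlace.card_eq_card_isUnramifiedIn (k := K) (K := L)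
  rw [Finset.filter_true_of_mem (fun w _ => hun w)] at h
  simp only [Finset.compl_univ, Finset.card_empty, zero_mul, add_zero, Finset.card_univ] at h
  have hL : 0 < Fintype.card (InfinitePlace L) := Fintype.card_pos
  have hK : 0 < Fintype.card (InfinitePlace K) := Fintype.card_pos
  rw [Units.rank, Units.rank, Nat.sub_add_cancel hL, Nat.sub_add_cancel hK, h, hd, mul_comm]

include hd hσ in
/-- The Herbrand quotient of the unit group is `1 / p`. -/
theorem units_herbrand [hp : Fact p.Prime] [IsUnramifiedAtInfinitePlaces K L] :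
    (∑ i ∈ Finset.range p, unitEnd σ ^ i).range.toAddSubgroup.relIndex
        (unitEnd σ - 1).ker.toAddSubgroup ≠ 0 ∧
    (unitEnd σ - 1).range.toAddSubgroup.relIndex
        (∑ i ∈ Finset.range p, unitEnd σ ^ i).ker.toAddSubgroup =
      p * (∑ i ∈ Finset.range p, unitEnd σ ^ i).range.toAddSubgroup.relIndex
        (unitEnd σ - 1).ker.toAddSubgroup := by
  obtain ⟨h0, h⟩ := HerbrandRank.herbrand_rank p (unitEnd σ) (unitEnd_pow hd σ hσ)
  refine ⟨h0, ?_⟩
  rw [finrank_ker_unitEnd σ hσ, Units.finrank_eq] at h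
  have hr := rank_eq (K := K) (L := L) hd
  have hp1 := hp.out.one_le
  have e : Units.rank L = p * Units.rank K + (p - 1) := by
    have : p * (Units.rank K + 1) = p * Units.rank K + p := by ring
    omega
  rw [e, pow_add, mul_left_comm, mul_comm (_ ^ (p - 1)) (p ^ (p * Units.rank K)), ← mul_pow,
    mul_comm _ p] at h
  have h' := mul_left_cancel₀ (pow_ne_zero _ hp.out.ne_zero) h
  exact Nat.pow_left_injective (by have := hp.out.two_le; omega) h'

variable (L) in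
/-- The automorphism of the class group. -/
def classAct (g : (L ≃ₐ[K] L)) : ClassGroup (𝓞 L) →* ClassGroup (𝓞 L) :=
  descend
    (ClassGroup.mk0.comp
      { toFun := fun I => ⟨g • (I : Ideal (𝓞 L)), mem_nonZeroDivisors_of_ne_zero
          (by rw [Ideal.zero_eq_bot, ← Ideal.smul_bot g]
              exact fun h => nonZeroDivisors.coe_ne_zero I (smul_left_cancel g h))⟩
        map_one' := Subtype.ext (by
          change g • (1 : Ideal (𝓞 L)) = 1
          exact smul_one g)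
        map_mul' := fun I J => Subtype.ext (smul_ideal_mul g _ _) })
    (fun I hI => by
      obtain ⟨x, hx⟩ := hI.principal
      refine (ClassGroup.mk0_eq_one_iff _).2 ?_
      rw [show (I : Ideal (𝓞 L)) = Ideal.span {x} from hx, smul_span_singleton]
      exact ⟨⟨_, rfl⟩⟩)

theorem classAct_mk0 (g : (L ≃ₐ[K] L)) (I : (Ideal (𝓞 L))⁰) (J : (Ideal (𝓞 L))⁰)
    (h : (J : Ideal (𝓞 L)) = g • (I : Ideal (𝓞 L))) :
    classAct L g (ClassGroup.mk0 I) = ClassGroup.mk0 J := by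
  rw [classAct, descend_mk0]
  exact congrArg ClassGroup.mk0 (Subtype.ext h.symm)

variable (hunr : ∀ Q : Ideal (𝓞 L), Q ≠ ⊥ → Q.IsPrime → Q.inertia (L ≃ₐ[K] L) = ⊥)

/-- The product of all conjugates of an ideal. -/
def idealNorm (J : Ideal (𝓞 L)) : Ideal (𝓞 L) := ∏ g : (L ≃ₐ[K] L), g • J

theorem smul_idealNorm (h : (L ≃ₐ[K] L)) (J : Ideal (𝓞 L)) : h • idealNorm (K := K) J = idealNorm (K := K) J := by
  simp only [idealNorm]
  rw [Finset.smul_prod']
  exact Fintype.prod_equiv (Equiv.mulLeft h) _ _ fun g => (mul_smul h g J).symm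

theorem idealNorm_smul (h : (L ≃ₐ[K] L)) (J : Ideal (𝓞 L)) : idealNorm (K := K) (h • J) = idealNorm (K := K) J :=
  Fintype.prod_equiv (Equiv.mulRight h) _ _ fun g => (mul_smul g h J).symm

include hd hσ hunr in
/-- Ambiguous class bound: the kernel of capitulation is at least as big as `H¹` of the units. -/
theorem relIndex_le_card_ker :
    (unitEnd σ - 1).range.toAddSubgroup.relIndex
        (∑ i ∈ Finset.range p, unitEnd σ ^ i).ker.toAddSubgroup ≤
      Nat.card (ClassGroup.extendedHom (𝓞 K) (𝓞 L)).ker := by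
  set N := ∑ i ∈ Finset.range p, unitEnd σ ^ i
  -- Hilbert 90 on units
  have h90 : ∀ u : N.ker.toAddSubgroup, ∃ x : 𝓞 L, x ≠ 0 ∧
      σ • x = ((Additive.toMul (u : Additive (𝓞 L)ˣ) : (𝓞 L)ˣ) : 𝓞 L) * x := by
    intro u
    set w : (𝓞 L)ˣ := Additive.toMul (u : Additive (𝓞 L)ˣ)
    have hu : ∏ g : (L ≃ₐ[K] L), g • ((w⁻¹ : (𝓞 L)ˣ) : 𝓞 L) = 1 := by
      have h := unitNorm_apply hd σ hσ (-(u : Additive (𝓞 L)ˣ))
      rw [map_neg, show N (u : Additive (𝓞 L)ˣ) = 0 from u.2, neg_zero] at h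
      simpa [w] using h.symm
    have hy : ∏ g : (L ≃ₐ[K] L), g (algebraMap (𝓞 L) L ((w⁻¹ : (𝓞 L)ˣ) : 𝓞 L)) = 1 := by
      rw [← map_one (algebraMap (𝓞 L) L), ← hu, map_prod]
      rfl
    obtain ⟨z, hz0, hz⟩ := exists_mul_eq_self hd σ hσ hy
    obtain ⟨q, d, hd0, hq⟩ : ∃ (q : 𝓞 L) (d : 𝓞 K), d ≠ 0 ∧
        algebraMap (𝓞 L) L q = algebraMap (𝓞 K) L d * z := by
      obtain ⟨r, s, hs, hrs⟩ := IsFractionRing.div_surjective (A := 𝓞 L) z
      have hs0 : s ≠ 0 := nonZeroDivisors.ne_zero hs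
      obtain ⟨t, ht⟩ := Algebra.dvd_algebraMap_intNorm_self (A := 𝓞 K) (B := 𝓞 L) s
      refine ⟨r * t, Algebra.intNorm (𝓞 K) (𝓞 L) s, by simpa using hs0, ?_⟩
      have hs' : algebraMap (𝓞 L) L s ≠ 0 := by simpa using hs0
      rw [IsScalarTower.algebraMap_apply (𝓞 K) (𝓞 L) L, ht, ← hrs, map_mul, map_mul]
      field_simp
    have hq0 : q ≠ 0 := fun h => by
      rw [h, map_zero] at hq
      rcases mul_eq_zero.1 hq.symm with h' | h'
      · exact hd0 ((map_eq_zero_iff _ (FaithfulSMul.algebraMap_injective (𝓞 K) L)).1 h')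
      · exact hz0 h'
    refine ⟨q, hq0, ?_⟩
    have he' : ((w⁻¹ : (𝓞 L)ˣ) : 𝓞 L) * (σ • q) = q := by
      apply RingOfIntegers.coe_injective
      rw [map_mul]
      change _ * σ (algebraMap (𝓞 L) L q) = algebraMap (𝓞 L) L q
      rw [hq, map_mul, IsScalarTower.algebraMap_apply (𝓞 K) K L, AlgEquiv.commutes,
        mul_left_comm, hz]
    conv_rhs => rw [← he', ← mul_assoc, Units.mul_inv, one_mul]
  choose x hx0 hx using h90
  have hinv : ∀ u, ∀ g : (L ≃ₐ[K] L), g • Ideal.span {x u} = Ideal.span {x u} := fun u =>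
    invariant_of_smul_eq σ hσ (by
      rw [smul_span_singleton, hx u, mul_comm, Ideal.span_singleton_mul_right_unit (Units.isUnit _)])
  choose I hI using fun u => exists_eq_map_of_invariant hunr _ (by simpa using hx0 u) (hinv u)
  have hker : ∀ u, ClassGroup.mk0 (I u) ∈ (ClassGroup.extendedHom (𝓞 K) (𝓞 L)).ker := by
    intro u
    rw [MonoidHom.mem_ker, ClassGroup.extendedHom_mk0]
    refine (ClassGroup.mk0_eq_one_iff _).2 ?_
    rw [← hI u]
    exact ⟨⟨_, rfl⟩⟩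
  rw [AddSubgroup.relIndex, AddSubgroup.index_eq_card]
  refine Nat.card_le_card_of_injective
    (fun q => (⟨_, hker q.out⟩ : (ClassGroup.extendedHom (𝓞 K) (𝓞 L)).ker)) ?_
  intro q q' h
  replace h : ClassGroup.mk0 (I q.out) = ClassGroup.mk0 (I q'.out) := congrArg Subtype.val h
  rw [← QuotientAddGroup.out_eq' q, ← QuotientAddGroup.out_eq' q', QuotientAddGroup.eq_iff_sub_mem]
  generalize hu : Quotient.out q = u at h ⊢
  generalize hu' : Quotient.out q' = u' at h ⊢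
  obtain ⟨a, b, ha, hb, e⟩ := ClassGroup.mk0_eq_mk0_iff.1 h
  have e' := congrArg (Ideal.map (algebraMap (𝓞 K) (𝓞 L))) e
  rw [Ideal.map_mul, Ideal.map_mul, ← hI u, ← hI u', Ideal.map_span, Ideal.map_span,
    Set.image_singleton, Set.image_singleton, Ideal.span_singleton_mul_span_singleton,
    Ideal.span_singleton_mul_span_singleton, Ideal.span_singleton_eq_span_singleton] at e'
  obtain ⟨v, hv⟩ := e'
  have hv' := congrArg (σ • ·) hv
  simp only [smul_mul', smul_algebraMap, hx u, hx u'] at hv'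
  refine AddSubgroup.mem_addSubgroupOf.2 ⟨-Additive.ofMul v, ?_⟩
  have hAB : algebraMap (𝓞 K) (𝓞 L) a * x u * (v : 𝓞 L) ≠ 0 :=
    mul_ne_zero (mul_ne_zero ((map_ne_zero_iff _ (FaithfulSMul.algebraMap_injective _ _)).2 ha)
      (hx0 u)) v.ne_zero
  -- `u * σ v = v * u'`
  have key : ((Additive.toMul (u : Additive (𝓞 L)ˣ) : (𝓞 L)ˣ) : 𝓞 L) * (σ • (v : 𝓞 L)) =
      (v : 𝓞 L) * ((Additive.toMul (u' : Additive (𝓞 L)ˣ) : (𝓞 L)ˣ) : 𝓞 L) := by
    apply mul_left_cancel₀ hAB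
    calc _ = (v : 𝓞 L) * (algebraMap (𝓞 K) (𝓞 L) a *
          (((Additive.toMul (u : Additive (𝓞 L)ˣ) : (𝓞 L)ˣ) : 𝓞 L) * x u) * (σ • (v : 𝓞 L))) := by
          ring
      _ = (v : 𝓞 L) * (algebraMap (𝓞 K) (𝓞 L) b *
          (((Additive.toMul (u' : Additive (𝓞 L)ˣ) : (𝓞 L)ˣ) : 𝓞 L) * x u')) := by rw [hv']
      _ = _ := by rw [hv]; ring
  have key' : (u : Additive (𝓞 L)ˣ) + unitEnd σ (Additive.ofMul v) =
      Additive.ofMul v + (u' : Additive (𝓞 L)ˣ) :=
    Additive.toMul.injective (Units.ext key)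
  change (unitEnd σ - 1) (-Additive.ofMul v) = (u : Additive (𝓞 L)ˣ) - u'
  rw [map_neg, LinearMap.sub_apply, Module.End.one_apply, neg_sub, sub_eq_sub_iff_add_eq_add,
    key', add_comm]

include hd hσ hunr in
/-- Two fixed classes with the same obstruction differ by an extended class. -/
theorem class_div_mem_range (J₁ J₂ : (Ideal (𝓞 L))⁰) {a₁ b₁ a₂ b₂ : 𝓞 L}
    (ha₁ : a₁ ≠ 0) (_hb₁ : b₁ ≠ 0) (_ha₂ : a₂ ≠ 0) (hb₂ : b₂ ≠ 0)
    (hab₁ : Ideal.span {a₁} * (σ • (J₁ : Ideal (𝓞 L))) = Ideal.span {b₁} * J₁)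
    (hab₂ : Ideal.span {a₂} * (σ • (J₂ : Ideal (𝓞 L))) = Ideal.span {b₂} * J₂)
    (W₀ : (𝓞 L)ˣ) (hprod : ∏ g : (L ≃ₐ[K] L), g • (b₁ * a₂) =
      ∏ g : (L ≃ₐ[K] L), g • (a₁ * b₂ * (W₀ : 𝓞 L))) :
    ClassGroup.mk0 J₁ / ClassGroup.mk0 J₂ ∈ (ClassGroup.extendedHom (𝓞 K) (𝓞 L)).range := by
  classical
  set R := (ClassGroup.extendedHom (𝓞 K) (𝓞 L)).range with hR
  have hmem : ∀ M : (Ideal (𝓞 L))⁰, σ • (M : Ideal (𝓞 L)) = M → ClassGroup.mk0 M ∈ R := by
    intro M hM
    obtain ⟨I, hI⟩ := exists_eq_map_of_invariant hunr _ (nonZeroDivisors.coe_ne_zero M)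
      (invariant_of_smul_eq σ hσ hM)
    exact ⟨ClassGroup.mk0 I, by rw [ClassGroup.extendedHom_mk0]; exact congrArg _ (Subtype.ext hI.symm)⟩
  set W : 𝓞 L := (W₀ : 𝓞 L) with hW
  set y : L := (algebraMap (𝓞 L) L (b₁ * a₂)) / algebraMap (𝓞 L) L (a₁ * b₂ * W) with hy
  have hden : algebraMap (𝓞 L) L (a₁ * b₂ * W) ≠ 0 :=
    (map_ne_zero_iff _ RingOfIntegers.coe_injective).2
      (mul_ne_zero (mul_ne_zero ha₁ hb₂) (Units.ne_zero _))
  have hy1 : ∏ g : (L ≃ₐ[K] L), g y = 1 := by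
    rw [hy]
    simp only [map_div₀, Finset.prod_div_distrib]
    rw [div_eq_one_iff_eq (Finset.prod_ne_zero_iff.2 fun g _ => by
      rw [map_ne_zero]; exact hden)]
    have := congrArg (algebraMap (𝓞 L) L) hprod
    rw [map_prod, map_prod] at this
    exact this
  obtain ⟨z, hz0, hz⟩ := exists_mul_eq_self hd σ hσ hy1
  obtain ⟨r, s, hs, hrs⟩ := IsFractionRing.div_surjective (A := 𝓞 L) z
  have hs0 : s ≠ 0 := nonZeroDivisors.ne_zero hs
  have hr0 : r ≠ 0 := fun h => hz0 (by rw [← hrs, h, map_zero, zero_div])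
  have hcross : r * (σ • s) * (a₁ * b₂ * W) = (σ • r) * s * (b₁ * a₂) := by
    apply RingOfIntegers.coe_injective
    have hσs : σ (algebraMap (𝓞 L) L s) ≠ 0 := by rw [map_ne_zero]; simpa using hs0
    have hs' : algebraMap (𝓞 L) L s ≠ 0 := by simpa using hs0
    rw [hy, ← hrs, map_div₀, div_mul_div_comm, div_eq_div_iff (mul_ne_zero hden hσs) hs'] at hz
    simp only [map_mul] at hz ⊢
    change algebraMap (𝓞 L) L r * σ (algebraMap (𝓞 L) L s) * (algebraMap (𝓞 L) L a₁ * algebraMap (𝓞 L) L b₂ * algebraMap (𝓞 L) L W) = σ (algebraMap (𝓞 L) L r) * algebraMap (𝓞 L) L s * (algebraMap (𝓞 L) L b₁ * algebraMap (𝓞 L) L a₂)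
    linear_combination -hz
  -- the invariant ideal
  let Q' : Ideal (𝓞 L) := ∏ g ∈ Finset.univ.erase (1 : (L ≃ₐ[K] L)), g • (J₂ : Ideal (𝓞 L))
  have hQ' : (J₂ : Ideal (𝓞 L)) * Q' = idealNorm (K := K) (J₂ : Ideal (𝓞 L)) := by
    have := Finset.mul_prod_erase (Finset.univ : Finset (L ≃ₐ[K] L))
      (fun g => g • (J₂ : Ideal (𝓞 L))) (Finset.mem_univ 1)
    simpa [Q', idealNorm, one_smul] using this
  let T : Ideal (𝓞 L) := ∏ g ∈ Finset.univ.erase (1 : (L ≃ₐ[K] L)), g • Ideal.span {s}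
  have hT : Ideal.span {s} * T = idealNorm (K := K) (Ideal.span {s}) := by
    have := Finset.mul_prod_erase (Finset.univ : Finset (L ≃ₐ[K] L))
      (fun g => g • Ideal.span {s}) (Finset.mem_univ 1)
    simpa [idealNorm, one_smul] using this
  have hne : ∀ (g : (L ≃ₐ[K] L)) (I : Ideal (𝓞 L)), I ≠ 0 → g • I ≠ 0 := fun g I hI => by
    rw [Ideal.zero_eq_bot, ← Ideal.smul_bot g]
    exact fun h => hI (smul_left_cancel g h)
  have hspan0 : ∀ x : 𝓞 L, x ≠ 0 → Ideal.span {x} ≠ 0 := fun x hx => by simpa using hx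
  set M : Ideal (𝓞 L) := (J₁ : Ideal (𝓞 L)) * Q' * (Ideal.span {r} * T) with hM
  have hQne : Q' ≠ 0 := Finset.prod_ne_zero_iff.2 fun g _ => hne g _ (nonZeroDivisors.coe_ne_zero _)
  have hTne : T ≠ 0 := Finset.prod_ne_zero_iff.2 fun g _ => hne g _ (hspan0 s hs0)
  have hMne : M ≠ 0 := mul_ne_zero (mul_ne_zero (nonZeroDivisors.coe_ne_zero _) hQne)
    (mul_ne_zero (hspan0 r hr0) hTne)
  have hMfix : σ • M = M := by
    have hσQ : (σ • (J₂ : Ideal (𝓞 L))) * (σ • Q') = (J₂ : Ideal (𝓞 L)) * Q' := by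
      rw [← smul_ideal_mul, hQ', smul_idealNorm]
    have hσT : Ideal.span {σ • s} * (σ • T) = Ideal.span {s} * T := by
      rw [← smul_span_singleton, ← smul_ideal_mul, hT, smul_idealNorm]
    have hkey : Ideal.span {b₁ * a₂ * s * (σ • r)} = Ideal.span {a₁ * b₂ * r * (σ • s)} := by
      rw [show b₁ * a₂ * s * (σ • r) = a₁ * b₂ * r * (σ • s) * W by linear_combination -hcross]
      exact Ideal.span_singleton_mul_right_unit (Units.isUnit _) _
    simp only [← Ideal.span_singleton_mul_span_singleton] at hkey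
    have hX : Ideal.span {a₁} * Ideal.span {b₂} * (J₂ : Ideal (𝓞 L)) *
        Ideal.span {σ • s} ≠ 0 :=
      mul_ne_zero (mul_ne_zero (mul_ne_zero (hspan0 _ ha₁) (hspan0 _ hb₂))
        (nonZeroDivisors.coe_ne_zero _)) (hspan0 _ ((smul_ne_zero_iff_ne σ).2 hs0))
    apply mul_left_cancel₀ hX
    rw [hM, smul_ideal_mul, smul_ideal_mul, smul_ideal_mul, smul_span_singleton]
    calc _ = (Ideal.span {a₁} * (σ • (J₁ : Ideal (𝓞 L)))) *
            ((Ideal.span {b₂} * (J₂ : Ideal (𝓞 L))) * (σ • Q')) *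
            (Ideal.span {σ • s} * (σ • T)) * Ideal.span {σ • r} := by ring
      _ = (Ideal.span {b₁} * (J₁ : Ideal (𝓞 L))) *
            (Ideal.span {a₂} * ((σ • (J₂ : Ideal (𝓞 L))) * (σ • Q'))) *
            (Ideal.span {s} * T) * Ideal.span {σ • r} := by
            rw [hab₁, ← hab₂, hσT]; ring
      _ = (J₁ : Ideal (𝓞 L)) * (J₂ : Ideal (𝓞 L)) * Q' * T *
            (Ideal.span {b₁} * Ideal.span {a₂} * Ideal.span {s} * Ideal.span {σ • r}) := by
            rw [hσQ]; ring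
      _ = _ := by rw [hkey]; ring
  have hMR := hmem ⟨M, mem_nonZeroDivisors_of_ne_zero hMne⟩ hMfix
  -- compare classes
  have hQmem : ClassGroup.mk0 ⟨(J₂ : Ideal (𝓞 L)) * Q', mem_nonZeroDivisors_of_ne_zero
      (mul_ne_zero (nonZeroDivisors.coe_ne_zero _) hQne)⟩ ∈ R := by
    refine hmem _ ?_
    change σ • ((J₂ : Ideal (𝓞 L)) * Q') = (J₂ : Ideal (𝓞 L)) * Q'
    rw [hQ', smul_idealNorm]
  have hTmem : ClassGroup.mk0 (⟨Ideal.span {r} * T, mem_nonZeroDivisors_of_ne_zero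
      (mul_ne_zero (hspan0 r hr0) hTne)⟩ : (Ideal (𝓞 L))⁰) = 1 := by
    refine (ClassGroup.mk0_eq_one_iff _).2 ?_
    simp only [T, smul_span_singleton, Ideal.prod_span_singleton,
      Ideal.span_singleton_mul_span_singleton]
    exact ⟨⟨_, rfl⟩⟩
  let q : (Ideal (𝓞 L))⁰ := ⟨Q', mem_nonZeroDivisors_of_ne_zero hQne⟩
  have e1 : ClassGroup.mk0 (⟨M, mem_nonZeroDivisors_of_ne_zero hMne⟩ : (Ideal (𝓞 L))⁰) =
      ClassGroup.mk0 J₁ * ClassGroup.mk0 q := by
    rw [← mul_one (ClassGroup.mk0 (J₁) * ClassGroup.mk0 q), ← hTmem, ← map_mul,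
      ← map_mul]
    rfl
  have e2 : ClassGroup.mk0 J₂ * ClassGroup.mk0 q ∈ R := by
    rw [← map_mul]
    exact hQmem
  rw [e1] at hMR
  have := R.div_mem hMR e2
  rwa [mul_div_mul_right_eq_div] at this

include hd hσ in
/-- The norms have finite index in the fixed units. -/
theorem relIndex_unitNorm_ne_zero :
    (∑ i ∈ Finset.range p, unitEnd σ ^ i).range.toAddSubgroup.relIndex
        (unitEnd σ - 1).ker.toAddSubgroup ≠ 0 := by
  refine HerbrandRank.relIndex_range_ne_zero_of_smul hp.out fun x hx => ⟨x, ?_⟩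
  have hσx : unitEnd σ x = x := sub_eq_zero.1 (hx : (unitEnd σ - 1) x = 0)
  have hpow : ∀ i : ℕ, (unitEnd σ ^ i) x = x := fun i => by
    induction i with
    | zero => rfl
    | succ i ih => rw [pow_succ, Module.End.mul_apply, hσx, ih]
  simp [LinearMap.sum_apply, hpow]

include hd hσ hunr in
/-- The fixed classes are at most `h₀` times the extended classes. -/
theorem card_fixed_le :
    Nat.card {c : ClassGroup (𝓞 L) // classAct L σ c = c} ≤
      (∑ i ∈ Finset.range p, unitEnd σ ^ i).range.toAddSubgroup.relIndex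
          (unitEnd σ - 1).ker.toAddSubgroup *
        Nat.card (ClassGroup.extendedHom (𝓞 K) (𝓞 L)).range := by
  set N := ∑ i ∈ Finset.range p, unitEnd σ ^ i
  set R := (ClassGroup.extendedHom (𝓞 K) (𝓞 L)).range with hR
  -- representatives
  have hrep : ∀ c : {c : ClassGroup (𝓞 L) // classAct L σ c = c},
      ∃ (J : (Ideal (𝓞 L))⁰) (a b : 𝓞 L) (e : (unitEnd σ - 1).ker.toAddSubgroup),
        ClassGroup.mk0 J = c.1 ∧ a ≠ 0 ∧ b ≠ 0 ∧
        Ideal.span {a} * (σ • (J : Ideal (𝓞 L))) = Ideal.span {b} * J ∧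
        ∏ g : (L ≃ₐ[K] L), g • b = ((Additive.toMul (e : Additive (𝓞 L)ˣ) : (𝓞 L)ˣ) : 𝓞 L) * ∏ g : (L ≃ₐ[K] L), g • a := by
    rintro ⟨c, hc⟩
    obtain ⟨J, rfl⟩ := ClassGroup.mk0_surjective c
    have hJ' : σ • (J : Ideal (𝓞 L)) ≠ 0 := by
      rw [Ideal.zero_eq_bot, ← Ideal.smul_bot σ]
      exact fun h => nonZeroDivisors.coe_ne_zero J (smul_left_cancel σ h)
    rw [classAct_mk0 σ J ⟨_, mem_nonZeroDivisors_of_ne_zero hJ'⟩ rfl,
      ClassGroup.mk0_eq_mk0_iff] at hc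
    obtain ⟨a, b, ha, hb, e⟩ := hc
    have eN : idealNorm (K := K) (Ideal.span {a} * (σ • (J : Ideal (𝓞 L)))) =
        idealNorm (K := K) (Ideal.span {b} * (J : Ideal (𝓞 L))) := congrArg _ e
    have hmul : ∀ I I' : Ideal (𝓞 L), idealNorm (K := K) (I * I') =
        idealNorm (K := K) I * idealNorm (K := K) I' := fun I I' => by
      simp only [idealNorm, smul_ideal_mul, Finset.prod_mul_distrib]
    have hspan : ∀ y : 𝓞 L, idealNorm (K := K) (Ideal.span {y}) = Ideal.span {∏ g : (L ≃ₐ[K] L), g • y} := by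
      intro y
      simp only [idealNorm, smul_span_singleton]
      exact Ideal.prod_span_singleton _ _
    rw [hmul, hmul, idealNorm_smul, hspan, hspan] at eN
    have hJN : idealNorm (K := K) (J : Ideal (𝓞 L)) ≠ 0 := by
      rw [idealNorm, Finset.prod_ne_zero_iff]
      intro g _
      rw [Ideal.zero_eq_bot, ← Ideal.smul_bot g]
      exact fun h => nonZeroDivisors.coe_ne_zero J (smul_left_cancel g h)
    obtain ⟨v, hv⟩ := Ideal.span_singleton_eq_span_singleton.1 (mul_right_cancel₀ hJN eN)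
    have hfix : ∀ y : 𝓞 L, σ • ∏ g : (L ≃ₐ[K] L), g • y = ∏ g : (L ≃ₐ[K] L), g • y := fun y => by
      rw [Finset.smul_prod']
      exact Fintype.prod_equiv (Equiv.mulLeft σ) _ _ fun g => (mul_smul σ g y).symm
    have hna : ∏ g : (L ≃ₐ[K] L), g • a ≠ 0 :=
      Finset.prod_ne_zero_iff.2 fun g _ h => ha (by
        rw [← inv_smul_smul g a, h, smul_zero])
    have hve : Additive.ofMul v ∈ (unitEnd σ - 1).ker.toAddSubgroup := by
      refine (mem_ker_unitEnd_sub_one σ _).2 (mul_left_cancel₀ hna ?_)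
      have := congrArg (σ • ·) hv
      simp only [smul_mul', hfix] at this
      exact this.trans hv.symm
    exact ⟨J, a, b, ⟨_, hve⟩, rfl, ha, hb, e, hv.symm.trans (mul_comm _ _)⟩
  choose J a b e hJ ha hb hab hN using hrep
  let f : {c : ClassGroup (𝓞 L) // classAct L σ c = c} →
      (unitEnd σ - 1).ker.toAddSubgroup ⧸ N.range.toAddSubgroup.addSubgroupOf _ :=
    fun c => QuotientAddGroup.mk (e c)
  have hf : ∀ c c', f c = f c' → c.1 / c'.1 ∈ R := by
    intro c c' h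
    obtain ⟨w, hw⟩ : ((e c : Additive (𝓞 L)ˣ) - e c') ∈ N.range.toAddSubgroup :=
      AddSubgroup.mem_addSubgroupOf.1 ((QuotientAddGroup.eq_iff_sub_mem).1 h)
    have hee : ((Additive.toMul (e c : Additive (𝓞 L)ˣ) : (𝓞 L)ˣ) : 𝓞 L) =
        ((Additive.toMul (e c' : Additive (𝓞 L)ˣ) : (𝓞 L)ˣ) : 𝓞 L) *
          ∏ g : (L ≃ₐ[K] L), g • ((Additive.toMul w : (𝓞 L)ˣ) : 𝓞 L) := by
      rw [← unitNorm_apply hd σ hσ w, hw, ← Units.val_mul, ← toMul_add, add_sub_cancel]
    rw [← hJ c, ← hJ c']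
    refine class_div_mem_range hd σ hσ hunr (J c) (J c') (ha c) (hb c) (ha c') (hb c') (hab c) (hab c')
      (Additive.toMul w) ?_
    simp only [smul_mul', Finset.prod_mul_distrib, hN c, hN c', hee]
    ring
  classical
  let Q₀ := (unitEnd σ - 1).ker.toAddSubgroup ⧸ N.range.toAddSubgroup.addSubgroupOf
    (unitEnd σ - 1).ker.toAddSubgroup
  have : Finite Q₀ := @AddSubgroup.finite_quotient_of_finiteIndex _ _ _
    ⟨relIndex_unitNorm_ne_zero hd σ hσ⟩
  have key : Nat.card {c : ClassGroup (𝓞 L) // classAct L σ c = c} ≤ Nat.card (Q₀ × R) := by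
    let rep : Q₀ → ClassGroup (𝓞 L) := fun q => if h : ∃ c, f c = q then (h.choose).1 else 1
    have hrep' : ∀ c, c.1 / rep (f c) ∈ R := fun c => by
      have h : ∃ c', f c' = f c := ⟨c, rfl⟩
      simp only [rep, dif_pos h]
      exact hf c h.choose h.choose_spec.symm
    refine Nat.card_le_card_of_injective (fun c => (f c, (⟨_, hrep' c⟩ : R))) fun c c' h => ?_
    obtain ⟨h1, h2⟩ := Prod.ext_iff.1 h
    have h3 := congrArg Subtype.val h2
    simp only at h1 h3
    rw [h1] at h3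
    exact Subtype.ext (div_left_injective h3)
  rw [Nat.card_prod] at key
  rw [AddSubgroup.relIndex, AddSubgroup.index_eq_card]
  exact key

include hd hσ hunr in
/-- `#Cl_L^G * p ≤ h_K`. -/
theorem card_fixed_mul_le [hp : Fact p.Prime] [IsUnramifiedAtInfinitePlaces K L] :
    Nat.card {c : ClassGroup (𝓞 L) // classAct L σ c = c} * p ≤ Nat.card (ClassGroup (𝓞 K)) := by
  obtain ⟨h0, h1⟩ := units_herbrand hd σ hσ
  have hA := card_fixed_le hd σ hσ hunr
  have hB := relIndex_le_card_ker hd σ hσ hunr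
  rw [h1] at hB
  set ι := ClassGroup.extendedHom (𝓞 K) (𝓞 L)
  have hc : Nat.card ι.ker * Nat.card ι.range = Nat.card (ClassGroup (𝓞 K)) := by
    rw [← Subgroup.index_ker, Subgroup.card_mul_index]
  calc _ ≤ _ * Nat.card ι.range * p := Nat.mul_le_mul_right p hA
    _ = (p * _) * Nat.card ι.range := by ring
    _ ≤ Nat.card ι.ker * Nat.card ι.range := Nat.mul_le_mul_right _ hB
    _ = _ := hc

variable (K L) in
/-- The norm on class groups. -/
def classNorm : ClassGroup (𝓞 L) →* ClassGroup (𝓞 K) :=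
  descend
    (ClassGroup.mk0.comp
      { toFun := fun I => ⟨Ideal.relNorm (𝓞 K) (I : Ideal (𝓞 L)), mem_nonZeroDivisors_of_ne_zero
          (mt Ideal.relNorm_eq_bot_iff.1 (nonZeroDivisors.coe_ne_zero I))⟩
        map_one' := Subtype.ext (map_one (Ideal.relNorm (𝓞 K) : Ideal (𝓞 L) →*₀ _))
        map_mul' := fun I J => Subtype.ext
          (map_mul (Ideal.relNorm (𝓞 K) : Ideal (𝓞 L) →*₀ _) _ _) })
    (fun I hI => by
      obtain ⟨x, hx⟩ := hI.principal
      refine (ClassGroup.mk0_eq_one_iff _).2 ?_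
      rw [show (I : Ideal (𝓞 L)) = Ideal.span {x} from hx, Ideal.relNorm_singleton]
      exact ⟨⟨_, rfl⟩⟩)

theorem classNorm_mk0 (I : (Ideal (𝓞 L))⁰) (J : (Ideal (𝓞 K))⁰)
    (h : (J : Ideal (𝓞 K)) = Ideal.relNorm (𝓞 K) (I : Ideal (𝓞 L))) :
    classNorm K L (ClassGroup.mk0 I) = ClassGroup.mk0 J := by
  rw [classNorm, descend_mk0]
  exact congrArg ClassGroup.mk0 (Subtype.ext h.symm)

theorem classNorm_classAct (c : ClassGroup (𝓞 L)) :
    classNorm K L (classAct L σ c) = classNorm K L c := by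
  obtain ⟨J, rfl⟩ := ClassGroup.mk0_surjective c
  have hJ' : σ • (J : Ideal (𝓞 L)) ≠ 0 := by
    rw [Ideal.zero_eq_bot, ← Ideal.smul_bot σ]
    exact fun h => nonZeroDivisors.coe_ne_zero J (smul_left_cancel σ h)
  rw [classAct_mk0 σ J ⟨_, mem_nonZeroDivisors_of_ne_zero hJ'⟩ rfl]
  let N₀ : (Ideal (𝓞 K))⁰ := ⟨Ideal.relNorm (𝓞 K) (J : Ideal (𝓞 L)), mem_nonZeroDivisors_of_ne_zero
          (mt Ideal.relNorm_eq_bot_iff.1 (nonZeroDivisors.coe_ne_zero J))⟩
  rw [classNorm_mk0 J N₀ rfl, classNorm_mk0 _ N₀ ?_]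
  exact (Ideal.relNorm_smul (𝓞 K) σ (J : Ideal (𝓞 L))).symm

include hd in
theorem pow_mem_range_classNorm (c : ClassGroup (𝓞 K)) : c ^ p ∈ (classNorm K L).range := by
  obtain ⟨I, rfl⟩ := ClassGroup.mk0_surjective c
  refine ⟨ClassGroup.mk0 (ClassGroup.extendedIdeal (𝓞 K) (𝓞 L) I), ?_⟩
  rw [classNorm_mk0 _ (I ^ p), map_pow]
  rw [SubmonoidClass.coe_pow, Ideal.relNorm_algebraMap,
    ← IsFractionRing.finrank_eq (𝓞 K) K (𝓞 L) L, hd]

include hd hσ hunr in
/-- The norm classes form a proper subgroup. -/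
theorem range_classNorm_ne_top [hp : Fact p.Prime] [IsUnramifiedAtInfinitePlaces K L] :
    (classNorm K L).range ≠ ⊤ := by
  intro h
  let d : ClassGroup (𝓞 L) →* ClassGroup (𝓞 L) :=
    MonoidHom.mk' (fun c => classAct L σ c / c) fun a b => by
      rw [map_mul, mul_div_mul_comm]
  have hle : d.range ≤ (classNorm K L).ker := by
    rintro _ ⟨c, rfl⟩
    change classNorm K L (classAct L σ c / c) = 1
    rw [map_div, classNorm_classAct σ c, div_self']
  have h1 : Nat.card (classNorm K L).range ≤ d.range.index := by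
    rw [← Subgroup.index_ker]
    exact Nat.le_of_dvd (Nat.pos_of_ne_zero Subgroup.index_ne_zero_of_finite)
      (Subgroup.index_dvd_of_le hle)
  have h2 : d.range.index = Nat.card d.ker := by
    have e1 := Subgroup.card_mul_index d.range
    have e2 := Subgroup.card_mul_index d.ker
    rw [Subgroup.index_ker] at e2
    rw [← e2, mul_comm (Nat.card d.ker)] at e1
    exact Nat.eq_of_mul_eq_mul_left Nat.card_pos e1
  have h3 : Nat.card d.ker = Nat.card {c : ClassGroup (𝓞 L) // classAct L σ c = c} :=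
    Nat.card_congr (Equiv.subtypeEquivRight fun c => div_eq_one)
  rw [h2, h3, h, Subgroup.card_top] at h1
  have h4 := card_fixed_mul_le hd σ hσ hunr
  have h5 : 0 < Nat.card (ClassGroup (𝓞 K)) := Nat.card_pos
  have := hp.out.two_le
  nlinarith

end FirstIneq

open FirstIneq in
/-- First inequality for unramified cyclic extensions of prime degree: a nonzero class character
trivial on split primes. -/
theorem exists_character_split_le_ker {K L : Type*} [Field K] [NumberField K] [Field L]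
    [NumberField L] [Algebra K L] [IsGalois K L] [IsTotallyComplex K] {p : ℕ} [hp : Fact p.Prime]
    (hd : Module.finrank K L = p)
    (hunr : ∀ Q : Ideal (𝓞 L), Q ≠ ⊥ → Q.IsPrime → Q.inertia (L ≃ₐ[K] L) = ⊥) :
    ∃ ψ : Additive (ClassGroup (𝓞 K)) →+ ZMod p, ψ ≠ 0 ∧
      ∀ P : (Ideal (𝓞 K))⁰, (P : Ideal (𝓞 K)).IsPrime →
        ((P : Ideal (𝓞 K)).primesOver (𝓞 L)).ncard = p →
          ψ (Additive.ofMul (ClassGroup.mk0 P)) = 0 := by
  have hcard : Nat.card (L ≃ₐ[K] L) = p := by rw [IsGalois.card_aut_eq_finrank, hd]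
  have := isCyclic_of_prime_card hcard
  obtain ⟨σ, hσ⟩ := IsCyclic.exists_generator (α := L ≃ₐ[K] L)
  have : IsUnramifiedAtInfinitePlaces K L := ⟨fun w =>
    InfinitePlace.isUnramified_iff.2 (Or.inr (IsTotallyComplex.isComplex _))⟩
  set H : AddSubgroup (Additive (ClassGroup (𝓞 K))) := (classNorm K L).range.toAddSubgroup
  obtain ⟨v, hv⟩ : ∃ v : Additive (ClassGroup (𝓞 K)) ⧸ H, v ≠ 0 := by
    by_contra hall
    push Not at hall
    apply range_classNorm_ne_top hd σ hσ hunr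
    rw [eq_top_iff]
    intro c _
    exact (QuotientAddGroup.eq_zero_iff (N := H) (Additive.ofMul c)).1 (hall _)
  obtain ⟨f, hf⟩ := exists_addMonoidHom_zmod_ne_zero (p := p) (fun x => by
    obtain ⟨x, rfl⟩ := QuotientAddGroup.mk_surjective x
    rw [← QuotientAddGroup.mk_nsmul, QuotientAddGroup.eq_zero_iff]
    exact pow_mem_range_classNorm hd x.toMul) hv
  refine ⟨f.comp (QuotientAddGroup.mk' H), fun h => hf ?_, fun P hP hsplit => ?_⟩
  · obtain ⟨x, rfl⟩ := QuotientAddGroup.mk_surjective v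
    exact DFunLike.congr_fun h x
  have hPne : (P : Ideal (𝓞 K)) ≠ ⊥ := nonZeroDivisors.coe_ne_zero P
  have : (P : Ideal (𝓞 K)).IsMaximal := hP.isMaximal hPne
  obtain ⟨Q, hQm, hQo⟩ :=
    Ideal.exists_maximal_ideal_liesOver_of_isIntegral (S := 𝓞 L) (P : Ideal (𝓞 K))
  have hQne : Q ≠ ⊥ := Ideal.ne_bot_of_liesOver_of_ne_bot hPne Q
  have hf1 : Q.inertiaDeg (𝓞 K) = 1 := by
    have h := Ideal.ncard_primesOver_mul_ramificationIdxIn_mul_inertiaDegIn (P : Ideal (𝓞 K))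
      (𝓞 L) (L ≃ₐ[K] L)
    rw [hsplit, hcard, Ideal.inertiaDegIn_eq_inertiaDeg (P : Ideal (𝓞 K)) Q (L ≃ₐ[K] L)] at h
    exact Nat.eq_one_of_mul_eq_one_left (Nat.eq_of_mul_eq_mul_left hp.out.pos
      (h.trans (mul_one p).symm))
  have hmem : ClassGroup.mk0 P ∈ (classNorm K L).range := by
    refine ⟨ClassGroup.mk0 ⟨Q, mem_nonZeroDivisors_of_ne_zero hQne⟩, classNorm_mk0 _ _ ?_⟩
    rw [Ideal.relNorm_eq_pow_of_isMaximal Q (P : Ideal (𝓞 K)), hf1, pow_one]
  have h0 : ((Additive.ofMul (ClassGroup.mk0 P) : Additive (ClassGroup (𝓞 K))) :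
      Additive (ClassGroup (𝓞 K)) ⧸ H) = 0 := (QuotientAddGroup.eq_zero_iff _).2 hmem
  rw [AddMonoidHom.comp_apply, QuotientAddGroup.mk'_apply, h0, map_zero]

end Fermat.Agent.ClassField
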