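import Fermat.Agent.ClassField.LocalFundamentalClass
import Mathlib.FieldTheory.Galois.Infinite
import Mathlib.FieldTheory.Normal.Closure
import Mathlib.RingTheory.RootsOfUnity.Basic

/-!
# Roots of unity of order prime to `q`, inertia, unramified extensions
-/

set_option autoImplicit false
set_option linter.unusedSectionVars false

noncomputable section

namespace Fermat.Agent.ClassField.PadicFields

open LocalFundamental

variable {q : ℕ} [Fact q.Prime]

/-- Adjoining a root of unity of order prime to `q` does not change the ramification index, and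
the roots of the residue order lie in the field. -/
theorem exists_unramified_overfield (F : IntermediateField ℚ_[q] (PadicAlgCl q))
    [FiniteDimensional ℚ_[q] F] {n : ℕ} {ζ : PadicAlgCl q} (hn : 0 < n)
    (hζ : IsPrimitiveRoot ζ (q ^ n - 1)) (hf : resDeg F ∣ n) :
    ∃ (F' : IntermediateField ℚ_[q] (PadicAlgCl q)) (_ : FiniteDimensional ℚ_[q] F'),
      F ≤ F' ∧ ζ ∈ F' ∧ ramIdx F' = ramIdx F ∧ (n = resDeg F → F' ≤ F) := by
  classical
  set M : IntermediateField ℚ_[q] (PadicAlgCl q) := IntermediateField.adjoin ℚ_[q] {ζ}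
  have : FiniteDimensional ℚ_[q] M :=
    IntermediateField.adjoin.finiteDimensional (Algebra.IsIntegral.isIntegral _)
  have : FiniteDimensional ℚ_[q] (F ⊔ M : IntermediateField ℚ_[q] (PadicAlgCl q)) :=
    IntermediateField.finiteDimensional_sup F M
  have : IsGalois ℚ_[q] (PadicAlgCl q) := IsAlgClosure.isGalois ℚ_[q] (PadicAlgCl q)
  set E := IntermediateField.normalClosure ℚ_[q]
    (F ⊔ M : IntermediateField ℚ_[q] (PadicAlgCl q)) (PadicAlgCl q)
  have : FiniteDimensional ℚ_[q] E := normalClosure.is_finiteDimensional ℚ_[q] _ (PadicAlgCl q)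
  have : Normal ℚ_[q] E := normalClosure.normal ℚ_[q] _ (PadicAlgCl q)
  have : IsGalois ℚ_[q] E := ⟨⟩
  have hle : F ⊔ M ≤ E := IntermediateField.le_normalClosure _
  have hFE : F ≤ E := le_sup_left.trans hle
  have hmem : ζ ∈ E :=
    hle ((le_sup_right : M ≤ F ⊔ M) (IntermediateField.mem_adjoin_simple_self _ ζ))
  set H := (IntermediateField.restrict hFE).fixingSubgroup
  have hfix : fix E H = F := by
    rw [fix, IsGalois.fixedField_fixingSubgroup, IntermediateField.lift_restrict]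
  have key : ∀ (A B : IntermediateField ℚ_[q] (PadicAlgCl q)) (_ : FiniteDimensional ℚ_[q] A)
      (_ : FiniteDimensional ℚ_[q] B), A = B → ramIdx A = ramIdx B ∧ resDeg A = resDeg B := by
    rintro A B _ _ rfl; exact ⟨rfl, rfl⟩
  obtain ⟨hke, hkf⟩ := key _ _ inferInstance inferInstance hfix
  obtain ⟨he, -, hrel, -⟩ := frobExp_image E hn hζ hmem H (by rw [hkf]; exact hf)
  refine ⟨fix E (H ⊓ expKer E hn hζ hmem), inferInstance,
    hfix.symm.le.trans (fix_antitone E inf_le_left),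
    (mem_fix_iff E ⟨ζ, hmem⟩).2 fun g hg => Subtype.ext ?_, he.trans hke, fun hnf => ?_⟩
  · rw [frobExp_spec E hn hζ hmem g, (mem_expKer E hn hζ hmem).1 hg.2, pow_zero, pow_one]
  · have h1 : (expKer E hn hζ hmem).relIndex H = 1 := by
      rw [hrel, hkf, ← hnf, Nat.div_self hn]
    rw [inf_eq_left.2 (Subgroup.relIndex_eq_one.1 h1)]
    exact hfix.le

/-- `F` contains the roots of unity of its residue order. -/
theorem primitiveRoot_mem (F : IntermediateField ℚ_[q] (PadicAlgCl q))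
    [FiniteDimensional ℚ_[q] F] {ζ : PadicAlgCl q}
    (hζ : IsPrimitiveRoot ζ (q ^ resDeg F - 1)) : ζ ∈ F := by
  obtain ⟨F', _, -, h2, -, h4⟩ := exists_unramified_overfield F (resDeg_pos F) hζ dvd_rfl
  exact h4 rfl h2

theorem exists_primitiveRoot {n : ℕ} (hn : 0 < n) :
    ∃ ζ : PadicAlgCl q, IsPrimitiveRoot ζ (q ^ n - 1) := by
  have hN : q ^ n - 1 ≠ 0 := by
    have := Nat.one_lt_pow hn.ne' (Fact.out : q.Prime).one_lt
    omega
  have : NeZero ((q ^ n - 1 : ℕ) : PadicAlgCl q) := ⟨Nat.cast_ne_zero.2 hN⟩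
  exact HasEnoughRootsOfUnity.exists_primitiveRoot (PadicAlgCl q) (q ^ n - 1)

/-- Every integer of norm one is congruent to a root of unity of order prime to `q`. -/
theorem exists_root_norm_sub_lt {x : PadicAlgCl q} (hx : ‖x‖ = 1) :
    ∃ ρ : PadicAlgCl q, (∃ n : ℕ, 0 < n ∧ ρ ^ (q ^ n - 1) = 1) ∧ ‖x - ρ‖ < 1 := by
  classical
  set F := IntermediateField.adjoin ℚ_[q] {x}
  have : FiniteDimensional ℚ_[q] F :=
    IntermediateField.adjoin.finiteDimensional (Algebra.IsIntegral.isIntegral _)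
  have hxF : x ∈ F := IntermediateField.mem_adjoin_simple_self _ x
  set n := resDeg F with hndef
  have hn : 0 < n := resDeg_pos F
  have hqn : 1 < q ^ n := Nat.one_lt_pow hn.ne' (Fact.out : q.Prime).one_lt
  obtain ⟨ζ, hζ⟩ := exists_primitiveRoot (q := q) hn
  have hmem : ζ ∈ F := primitiveRoot_mem F hζ
  have hζ1 := norm_root_eq_one hn hζ
  have hint : ∀ i : ℕ, (⟨ζ, hmem⟩ : F) ^ i ∈ integers F := fun i => by
    rw [mem_integers, norm_def, SubmonoidClass.coe_pow, norm_pow, hζ1, one_pow]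
  let φ : Fin (q ^ n - 1) → {y : residueField F // y ≠ 0} := fun i =>
    ⟨IsLocalRing.residue (integers F) ⟨_, hint i⟩, by
      rw [Ne, IsLocalRing.residue_eq_zero_iff, mem_maximalIdeal_iff]
      simp [norm_def, hζ1]⟩
  have hinj : Function.Injective φ := fun i j h => by
    have h' := congrArg Subtype.val h
    simp only [φ, ← sub_eq_zero (b := IsLocalRing.residue _ _), ← map_sub,
      IsLocalRing.residue_eq_zero_iff, mem_maximalIdeal_iff] at h'
    have h2 : ‖ζ ^ (i : ℕ) - ζ ^ (j : ℕ)‖ < 1 := by simpa [norm_def] using h'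
    exact Fin.ext (hζ.pow_inj i.2 j.2 (pow_eq_pow_of_norm_sub_lt hn hζ
      (by rw [← pow_mul, mul_comm, pow_mul, hζ.pow_eq_one, one_pow])
      (by rw [← pow_mul, mul_comm, pow_mul, hζ.pow_eq_one, one_pow]) h2))
  have hbij : Function.Bijective φ := by
    have : Fintype (residueField F) := Fintype.ofFinite _
    refine (Nat.bijective_iff_injective_and_card φ).2 ⟨hinj, ?_⟩
    rw [Nat.card_fin, Nat.card_eq_fintype_card, Fintype.card_subtype_compl,
      Fintype.card_subtype_eq, ← Nat.card_eq_fintype_card, natCard_residueField']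
  have hxint : (⟨x, hxF⟩ : F) ∈ integers F := by
    rw [mem_integers, norm_def]; exact hx.le
  obtain ⟨i, hi⟩ := hbij.2 ⟨IsLocalRing.residue (integers F) ⟨_, hxint⟩, by
    rw [Ne, IsLocalRing.residue_eq_zero_iff, mem_maximalIdeal_iff, norm_def]
    exact fun h => h.ne hx⟩
  refine ⟨ζ ^ (i : ℕ), ⟨n, hn, by rw [← pow_mul, mul_comm, pow_mul, hζ.pow_eq_one, one_pow]⟩, ?_⟩
  have h' := congrArg Subtype.val hi
  simp only [φ, ← sub_eq_zero (b := IsLocalRing.residue _ _), ← map_sub,
    IsLocalRing.residue_eq_zero_iff, mem_maximalIdeal_iff] at h'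
  rw [norm_sub_rev]
  simpa [norm_def] using h'

/-- The field generated by the roots of unity of order prime to `q`. -/
def rootsField (q : ℕ) [Fact q.Prime] : IntermediateField ℚ_[q] (PadicAlgCl q) :=
  IntermediateField.adjoin ℚ_[q] {ρ | ∃ n : ℕ, 0 < n ∧ ρ ^ (q ^ n - 1) = 1}

/-- An automorphism fixing these roots of unity is in the inertia group. -/
theorem norm_apply_sub_lt_of_fix {τ : PadicAlgCl q ≃ₐ[ℚ_[q]] PadicAlgCl q}
    (hτ : τ ∈ (rootsField q).fixingSubgroup) {x : PadicAlgCl q} (hx : ‖x‖ ≤ 1) :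
    ‖τ x - x‖ < 1 := by
  have hiso : ∀ y : PadicAlgCl q, ‖τ y‖ = ‖y‖ := fun y => (spectralNorm_eq_of_equiv τ y).symm
  rcases hx.eq_or_lt with h | h
  · obtain ⟨ρ, hρ, hlt⟩ := exists_root_norm_sub_lt h
    have hfix : τ ρ = ρ := (IntermediateField.mem_fixingSubgroup_iff _ _).1 hτ ρ
      (IntermediateField.subset_adjoin _ _ hρ)
    have he : τ x - x = τ (x - ρ) - (x - ρ) := by rw [map_sub, hfix]; ring
    rw [he, sub_eq_add_neg]
    refine (IsUltrametricDist.norm_add_le_max _ _).trans_lt ?_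
    rw [norm_neg, hiso, max_self]; exact hlt
  · rw [sub_eq_add_neg]
    refine (IsUltrametricDist.norm_add_le_max _ _).trans_lt ?_
    rw [norm_neg, hiso, max_self]; exact h

/-- An extension fixed by the automorphisms fixing `F` and all roots of unity of order prime to
`q` is unramified. -/
theorem ramIdx_eq_of_fix (F F' : IntermediateField ℚ_[q] (PadicAlgCl q))
    [FiniteDimensional ℚ_[q] F] [FiniteDimensional ℚ_[q] F'] (hFF' : F ≤ F')
    (h : F.fixingSubgroup ⊓ (rootsField q).fixingSubgroup ≤ F'.fixingSubgroup) :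
    ramIdx F' = ramIdx F := by
  classical
  have : IsGalois ℚ_[q] (PadicAlgCl q) := IsAlgClosure.isGalois ℚ_[q] (PadicAlgCl q)
  set R := {ρ : PadicAlgCl q | ∃ n : ℕ, 0 < n ∧ ρ ^ (q ^ n - 1) = 1}
  have hle : F' ≤ IntermediateField.adjoin ℚ_[q] ((F : Set (PadicAlgCl q)) ∪ R) := by
    rw [IntermediateField.adjoin_union, IntermediateField.adjoin_self]
    rw [← InfiniteGalois.fixedField_fixingSubgroup F',
      ← InfiniteGalois.fixedField_fixingSubgroup (F ⊔ IntermediateField.adjoin ℚ_[q] R),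
      IntermediateField.fixingSubgroup_sup]
    exact fun x hx g => hx ⟨g, h g.2⟩
  -- finitely many roots suffice
  obtain ⟨s, hs⟩ : ∃ s : Finset (PadicAlgCl q), IntermediateField.adjoin ℚ_[q] (↑s : Set _) = F' := by
    obtain ⟨α, hα⟩ := Field.exists_primitive_element ℚ_[q] F'
    refine ⟨{(α : PadicAlgCl q)}, ?_⟩
    have h1 := congrArg IntermediateField.lift hα
    rw [IntermediateField.lift_adjoin_simple, IntermediateField.lift_top] at h1
    rw [Finset.coe_singleton]
    exact h1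
  have hfin : ∀ x ∈ s, ∃ T : Finset (PadicAlgCl q), (↑T : Set (PadicAlgCl q)) ⊆ (F : Set _) ∪ R ∧
      x ∈ IntermediateField.adjoin ℚ_[q] (↑T : Set (PadicAlgCl q)) := fun x hx =>
    IntermediateField.exists_finset_of_mem_adjoin
      (hle (hs ▸ IntermediateField.subset_adjoin _ _ hx))
  choose T hT hTx using hfin
  let roots : Finset (PadicAlgCl q) := (s.attach.biUnion fun x => T x.1 x.2).filter (· ∈ R)
  have hroots : ∀ ρ ∈ roots, ∃ n : ℕ, 0 < n ∧ ρ ^ (q ^ n - 1) = 1 := fun ρ hρ =>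
    (Finset.mem_filter.1 hρ).2
  choose deg hdeg0 hdeg using hroots
  set n := resDeg F * ∏ ρ ∈ roots.attach, deg ρ.1 ρ.2
  have hn : 0 < n := Nat.mul_pos (resDeg_pos F) (Finset.prod_pos fun ρ _ => hdeg0 _ _)
  obtain ⟨ζ, hζ⟩ := exists_primitiveRoot (q := q) hn
  obtain ⟨F'', hF'', hF1, hζ'', he, -⟩ := exists_unramified_overfield F hn hζ (Dvd.intro _ rfl)
  have hsub : F' ≤ F'' := by
    rw [← hs, IntermediateField.adjoin_le_iff]
    intro x hx
    refine IntermediateField.adjoin_le_iff.2 (fun y hy => ?_) (hTx x hx)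
    rcases hT x hx hy with hyF | hyR
    · exact hF1 hyF
    · have hyr : y ∈ roots :=
        Finset.mem_filter.2 ⟨Finset.mem_biUnion.2 ⟨⟨x, hx⟩, Finset.mem_attach _ _, hy⟩, hyR⟩
      have hdvd : deg y hyr ∣ n := Dvd.dvd.mul_left
        (Finset.dvd_prod_of_mem (fun ρ : roots => deg ρ.1 ρ.2) (Finset.mem_attach _ ⟨y, hyr⟩)) _
      have hy1 : y ^ (q ^ n - 1) = 1 := by
        obtain ⟨c, hc⟩ := Nat.pow_sub_one_dvd_pow_sub_one q hdvd
        rw [hc, pow_mul, hdeg, one_pow]
      have : NeZero (q ^ n - 1) := ⟨by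
        have := Nat.one_lt_pow hn.ne' (Fact.out : q.Prime).one_lt
        omega⟩
      obtain ⟨i, -, hi⟩ := hζ.eq_pow_of_pow_eq_one hy1
      exact hi ▸ pow_mem hζ'' i
  refine le_antisymm ?_ (Nat.le_of_dvd (ramIdx_pos F') (ramIdx_dvd hFF'))
  have := Nat.le_of_dvd (ramIdx_pos F'') (ramIdx_dvd hsub)
  omega

end Fermat.Agent.ClassField.PadicFields
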