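import Mathlib.NumberTheory.Padics.Complex
import Mathlib.NumberTheory.Padics.RingHoms
import Mathlib.NumberTheory.Padics.ProperSpace
import Mathlib.Analysis.Normed.Module.FiniteDimension
import Mathlib.RingTheory.Valuation.ValuationSubring
import Mathlib.RingTheory.LocalRing.ResidueField.Basic
import Mathlib.Topology.Algebra.OpenSubgroup
import Mathlib.Topology.MetricSpace.Ultra.Pi
import Mathlib.FieldTheory.Finite.Basic

/-!
# Finite extensions of `ℚ_q` inside `PadicAlgCl q`: uniformisers, `e`, `f`, residue fields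
-/

set_option autoImplicit false
set_option linter.unusedSectionVars false

namespace Fermat.Agent.ClassField.PadicFields

open Finset

variable {q : ℕ} [Fact q.Prime]

noncomputable instance (F : IntermediateField ℚ_[q] (PadicAlgCl q)) : NontriviallyNormedField F :=
  { (SubfieldClass.toNormedField F) with
    non_trivial := by
      obtain ⟨x, hx⟩ := NormedField.exists_one_lt_norm ℚ_[q]
      exact ⟨algebraMap ℚ_[q] F x, by
        show 1 < ‖algebraMap ℚ_[q] (PadicAlgCl q) x‖
        rwa [norm_algebraMap']⟩ }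

instance (F : IntermediateField ℚ_[q] (PadicAlgCl q)) : IsUltrametricDist F :=
  IsUltrametricDist.subtype _

instance properSpace (F : IntermediateField ℚ_[q] (PadicAlgCl q)) [FiniteDimensional ℚ_[q] F] :
    ProperSpace F :=
  FiniteDimensional.proper ℚ_[q] F

theorem norm_def {F : IntermediateField ℚ_[q] (PadicAlgCl q)} (x : F) :
    ‖x‖ = ‖(x : PadicAlgCl q)‖ := rfl

/-- Algebraically conjugate elements have the same norm. -/
theorem norm_algHom {F : IntermediateField ℚ_[q] (PadicAlgCl q)} (φ : F →ₐ[ℚ_[q]] PadicAlgCl q)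
    (x : F) : ‖φ x‖ = ‖x‖ := by
  rw [norm_def, ← PadicAlgCl.spectralNorm_eq, ← PadicAlgCl.spectralNorm_eq, spectralNorm,
    spectralNorm, minpoly.algHom_eq φ φ.injective]
  exact congrArg _ (minpoly.algHom_eq F.val F.val.injective x).symm

/-- A root of unity of order prime to `q` close to `1` is `1`. -/
theorem eq_one_of_pow_eq_one {x : PadicAlgCl q} {m : ℕ} (hm : ¬ q ∣ m) (hx : x ^ m = 1)
    (h : ‖x - 1‖ < 1) : x = 1 := by
  have hx1 : ‖x‖ ≤ 1 := by
    calc ‖x‖ = ‖(x - 1) + 1‖ := by rw [sub_add_cancel]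
      _ ≤ max ‖x - 1‖ ‖(1 : PadicAlgCl q)‖ := IsUltrametricDist.norm_add_le_max _ _
      _ ≤ 1 := by rw [norm_one]; exact max_le h.le le_rfl
  have hpow : ∀ i : ℕ, ‖x ^ i - 1‖ ≤ ‖x - 1‖ := fun i => by
    induction i with
    | zero => simp
    | succ i ih =>
      rw [show x ^ (i + 1) - 1 = x * (x ^ i - 1) + (x - 1) by ring]
      refine (IsUltrametricDist.norm_add_le_max _ _).trans (max_le ?_ le_rfl)
      rw [norm_mul]
      exact le_trans (mul_le_of_le_one_left (norm_nonneg _) hx1) ih
  have hnm : ‖(m : PadicAlgCl q)‖ = 1 := by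
    rw [← map_natCast (algebraMap ℚ_[q] (PadicAlgCl q)), norm_algebraMap',
      Padic.norm_natCast_eq_one_iff]
    exact (Fact.out : q.Prime).coprime_iff_not_dvd.2 hm
  have hsum : ∑ i ∈ range m, x ^ i ≠ 0 := by
    intro h0
    have h1 : ∑ i ∈ range m, (x ^ i - 1) = -(m : PadicAlgCl q) := by
      rw [sum_sub_distrib, h0]; simp
    have h2 : ‖∑ i ∈ range m, (x ^ i - 1)‖ ≤ ‖x - 1‖ :=
      IsUltrametricDist.norm_sum_le_of_forall_le_of_nonneg (norm_nonneg _) fun i _ => hpow i
    rw [h1, norm_neg, hnm] at h2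
    exact absurd h2 (not_le.2 h)
  have := geom_sum_mul x m
  rw [hx, sub_self] at this
  exact sub_eq_zero.1 ((mul_eq_zero.1 this).resolve_left hsum)

variable (F : IntermediateField ℚ_[q] (PadicAlgCl q))

/-- The integers of `F`. -/
noncomputable abbrev integers : ValuationSubring F :=
  (NormedField.valuation (K := F)).valuationSubring

theorem mem_integers {x : F} : x ∈ integers F ↔ ‖x‖ ≤ 1 := Iff.rfl

theorem isUnit_integers_iff (x : integers F) : IsUnit x ↔ ‖(x : F)‖ = 1 := by
  constructor
  · rintro ⟨u, rfl⟩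
    have h : ((u : integers F) : F) * ((u⁻¹ : (integers F)ˣ) : integers F) = 1 := by
      rw [← MulMemClass.coe_mul, Units.mul_inv]; rfl
    have h' := congrArg norm h
    rw [norm_mul, norm_one] at h'
    refine le_antisymm u.1.2 ?_
    rw [← h']
    exact mul_le_of_le_one_right (norm_nonneg _) (u⁻¹).1.2
  · intro h
    have h0 : (x : F) ≠ 0 := norm_ne_zero_iff.1 (h.trans_ne one_ne_zero)
    have hi : (x : F)⁻¹ ∈ integers F := by rw [mem_integers, norm_inv, h, inv_one]
    exact IsUnit.of_mul_eq_one ⟨_, hi⟩ (Subtype.ext (mul_inv_cancel₀ h0))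

theorem mem_maximalIdeal_iff (x : integers F) :
    x ∈ IsLocalRing.maximalIdeal (integers F) ↔ ‖(x : F)‖ < 1 := by
  rw [IsLocalRing.mem_maximalIdeal, mem_nonunits_iff, isUnit_integers_iff]
  exact ⟨fun h => lt_of_le_of_ne x.2 h, fun h => h.ne⟩

/-- The residue field of `F`. -/
abbrev residueField : Type := IsLocalRing.ResidueField (integers F)

theorem norm_q : ‖(q : F)‖ = (q : ℝ)⁻¹ := by
  rw [← map_natCast (algebraMap ℚ_[q] F)]
  exact (norm_algebraMap' F (q : ℚ_[q])).trans Padic.norm_p

theorem norm_q_pos : 0 < ‖(q : F)‖ := by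
  rw [norm_q]; exact inv_pos.2 (Nat.cast_pos.2 (Fact.out : q.Prime).pos)

theorem norm_q_lt_one : ‖(q : F)‖ < 1 := by
  rw [norm_q]; exact inv_lt_one_of_one_lt₀ (Nat.one_lt_cast.2 (Fact.out : q.Prime).one_lt)

variable [FiniteDimensional ℚ_[q] F]

theorem exists_max_norm_lt_one :
    ∃ π : F, 0 < ‖π‖ ∧ ‖π‖ < 1 ∧ ∀ x : F, ‖x‖ < 1 → ‖x‖ ≤ ‖π‖ := by
  have hc : IsCompact (Metric.ball (0 : F) 1) :=
    (isCompact_closedBall (0 : F) 1).of_isClosed_subset
      (IsUltrametricDist.isClopen_ball 0 1).isClosed Metric.ball_subset_closedBall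
  obtain ⟨π, hπ, hmax⟩ := hc.exists_isMaxOn ⟨0, by simp⟩ continuous_norm.continuousOn
  refine ⟨π, ?_, by simpa using hπ, fun x hx => hmax (by simpa using hx)⟩
  exact (norm_q_pos F).trans_le (hmax (show (q : F) ∈ Metric.ball 0 1 by
    simpa using norm_q_lt_one F))

/-- A uniformiser. -/
noncomputable def uniformizer : F := (exists_max_norm_lt_one F).choose

theorem norm_uniformizer_pos : 0 < ‖uniformizer F‖ := (exists_max_norm_lt_one F).choose_spec.1

theorem norm_uniformizer_lt_one : ‖uniformizer F‖ < 1 := (exists_max_norm_lt_one F).choose_spec.2.1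

theorem norm_le_norm_uniformizer {x : F} (hx : ‖x‖ < 1) : ‖x‖ ≤ ‖uniformizer F‖ :=
  (exists_max_norm_lt_one F).choose_spec.2.2 x hx

theorem uniformizer_ne_zero : uniformizer F ≠ 0 := norm_pos_iff.1 (norm_uniformizer_pos F)

theorem exists_norm_eq_zpow {x : F} (hx : x ≠ 0) : ∃ i : ℤ, ‖x‖ = ‖uniformizer F‖ ^ i := by
  have h0 := norm_uniformizer_pos F
  obtain ⟨i, hi1, hi2⟩ := exists_mem_Ico_zpow (norm_pos_iff.2 hx)
    ((one_lt_inv₀ h0).2 (norm_uniformizer_lt_one F))
  rw [inv_zpow, ← zpow_neg] at hi1 hi2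
  rw [neg_add, zpow_add₀ h0.ne', zpow_neg_one] at hi2
  refine ⟨-i, ?_⟩
  by_contra hne
  have hlt : ‖uniformizer F‖ ^ (-i) < ‖x‖ := lt_of_le_of_ne hi1 (Ne.symm hne)
  -- the quotient would have norm strictly between `‖π‖` and `1`
  have hy : ‖x * uniformizer F ^ (i + 1)‖ < 1 := by
    rw [norm_mul, norm_zpow]
    calc ‖x‖ * ‖uniformizer F‖ ^ (i + 1)
        < (‖uniformizer F‖ ^ (-i) * ‖uniformizer F‖⁻¹) * ‖uniformizer F‖ ^ (i + 1) :=
          mul_lt_mul_of_pos_right hi2 (zpow_pos h0 _)
      _ = 1 := by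
          rw [← zpow_neg_one, ← zpow_add₀ h0.ne', ← zpow_add₀ h0.ne',
            show -i + -1 + (i + 1) = 0 by ring, zpow_zero]
  have h := norm_le_norm_uniformizer F hy
  rw [norm_mul, norm_zpow] at h
  refine absurd h (not_le.2 ?_)
  calc ‖uniformizer F‖ = ‖uniformizer F‖ ^ (-i) * ‖uniformizer F‖ ^ (i + 1) := by
        rw [← zpow_add₀ h0.ne']; norm_num
    _ < _ := mul_lt_mul_of_pos_right hlt (zpow_pos h0 _)

theorem exists_ramificationIdx : ∃ e : ℕ, 0 < e ∧ ‖(q : F)‖ = ‖uniformizer F‖ ^ e := by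
  obtain ⟨i, hi⟩ := exists_norm_eq_zpow F (norm_pos_iff.1 (norm_q_pos F))
  have hpos : 0 < i := by
    by_contra hle
    have := norm_q_lt_one F
    rw [hi] at this
    exact absurd (one_le_zpow_of_nonpos₀ (norm_uniformizer_pos F)
      (norm_uniformizer_lt_one F).le (not_lt.1 hle)) (not_le.2 this)
  refine ⟨i.toNat, by omega, ?_⟩
  rw [hi, ← zpow_natCast, Int.toNat_of_nonneg hpos.le]

/-- The ramification index. -/
noncomputable def ramIdx : ℕ := (exists_ramificationIdx F).choose

theorem ramIdx_pos : 0 < ramIdx F := (exists_ramificationIdx F).choose_spec.1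

theorem norm_q_eq : ‖(q : F)‖ = ‖uniformizer F‖ ^ ramIdx F :=
  (exists_ramificationIdx F).choose_spec.2

theorem zpow_norm_uniformizer_inj {i j : ℤ}
    (h : ‖uniformizer F‖ ^ i = ‖uniformizer F‖ ^ j) : i = j :=
  zpow_right_injective₀ (norm_uniformizer_pos F) (norm_uniformizer_lt_one F).ne h

/-- The closed ball as an additive subgroup. -/
def ball (r : ℝ) (hr : 0 ≤ r) : AddSubgroup F where
  carrier := {x | ‖x‖ ≤ r}
  zero_mem' := by simpa using hr
  add_mem' := fun {a b} ha hb =>
    show ‖a + b‖ ≤ r from (IsUltrametricDist.norm_add_le_max a b).trans (max_le ha hb)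
  neg_mem' := fun {a} ha => show ‖-a‖ ≤ r by rw [norm_neg]; exact ha

theorem map_mul_ball {a : F} (ha : a ≠ 0) (r : ℝ) (hr : 0 ≤ r) :
    (ball F r hr).map (AddMonoidHom.mulLeft a) =
      ball F (‖a‖ * r) (mul_nonneg (norm_nonneg _) hr) := by
  ext y
  constructor
  · rintro ⟨x, hx, rfl⟩
    exact (norm_mul a x).trans_le (mul_le_mul_of_nonneg_left hx (norm_nonneg _))
  · intro hy
    refine ⟨a⁻¹ * y, ?_, mul_inv_cancel_left₀ ha y⟩
    show ‖a⁻¹ * y‖ ≤ r
    rw [norm_mul, norm_inv, inv_mul_le_iff₀ (norm_pos_iff.2 ha)]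
    exact hy

/-- The residue cardinality. -/
noncomputable def residueCard : ℕ :=
  (ball F ‖uniformizer F‖ (norm_nonneg _)).relIndex (ball F 1 zero_le_one)

theorem natCard_residueField : Nat.card (residueField F) = residueCard F := by
  have h : (ball F ‖uniformizer F‖ (norm_nonneg _)).addSubgroupOf
      (integers F).toSubring.toAddSubgroup =
      (IsLocalRing.maximalIdeal (integers F)).toAddSubgroup := by
    ext x
    rw [AddSubgroup.mem_addSubgroupOf, Submodule.mem_toAddSubgroup, mem_maximalIdeal_iff]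
    exact ⟨fun h => h.trans_lt (norm_uniformizer_lt_one F), norm_le_norm_uniformizer F⟩
  have h1 : ball F 1 zero_le_one = (integers F).toSubring.toAddSubgroup := rfl
  rw [residueCard, h1, AddSubgroup.relIndex, h]
  rfl

theorem ball_congr {r s : ℝ} {hr : 0 ≤ r} {hs : 0 ≤ s} (h : r = s) :
    ball F r hr = ball F s hs := by
  subst h; rfl

theorem relIndex_ball_pow (i : ℕ) :
    (ball F (‖uniformizer F‖ ^ i) (pow_nonneg (norm_nonneg _) i)).relIndex
      (ball F 1 zero_le_one) = residueCard F ^ i := by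
  induction i with
  | zero => rw [ball_congr F (pow_zero _) (hs := zero_le_one), AddSubgroup.relIndex_self, pow_zero]
  | succ i ih =>
    have hle : ball F (‖uniformizer F‖ ^ (i + 1)) (pow_nonneg (norm_nonneg _) _) ≤
        ball F (‖uniformizer F‖ ^ i) (pow_nonneg (norm_nonneg _) _) := fun x hx =>
      le_trans hx (pow_le_pow_of_le_one (norm_nonneg _) (norm_uniformizer_lt_one F).le i.le_succ)
    have hle2 : ball F (‖uniformizer F‖ ^ i) (pow_nonneg (norm_nonneg _) _) ≤
        ball F 1 zero_le_one := fun x hx =>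
      le_trans hx (pow_le_one₀ (norm_nonneg _) (norm_uniformizer_lt_one F).le)
    rw [← AddSubgroup.relIndex_mul_relIndex _ _ _ hle hle2, ih]
    conv_rhs => rw [pow_succ']
    congr 1
    have hne : uniformizer F ^ i ≠ 0 := pow_ne_zero _ (uniformizer_ne_zero F)
    conv_rhs => rw [residueCard, ← AddSubgroup.relIndex_map_map_of_injective _ _
      (f := AddMonoidHom.mulLeft (uniformizer F ^ i)) (mul_right_injective₀ hne),
      map_mul_ball F hne, map_mul_ball F hne]
    congr 1 <;> apply ball_congr <;> simp [pow_succ]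

theorem relIndex_ne_zero_of_isCompact {A B : AddSubgroup F} (hA : IsCompact (A : Set F))
    (hB : IsOpen (B : Set F)) : B.relIndex A ≠ 0 := by
  have : CompactSpace A := isCompact_iff_compactSpace.1 hA
  have hopen : IsOpen ((B.addSubgroupOf A : AddSubgroup A) : Set A) :=
    hB.preimage continuous_subtype_val
  have : Finite (A ⧸ B.addSubgroupOf A) := AddSubgroup.quotient_finite_of_isOpen _ hopen
  exact AddSubgroup.index_ne_zero_of_finite

/-- `[A : q A]` is the same for all compact open subgroups. -/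
theorem relIndex_mul_eq (A B : AddSubgroup F) (hA : IsCompact (A : Set F)) (hB : IsCompact (B : Set F))
    (hAo : IsOpen (A : Set F)) (hBo : IsOpen (B : Set F))
    (hqA : A.map (AddMonoidHom.mulLeft (q : F)) ≤ A)
    (hqB : B.map (AddMonoidHom.mulLeft (q : F)) ≤ B) :
    (A.map (AddMonoidHom.mulLeft (q : F))).relIndex A =
      (B.map (AddMonoidHom.mulLeft (q : F))).relIndex B := by
  have key : ∀ A B : AddSubgroup F, IsCompact (A : Set F) → IsOpen (A : Set F) →
      IsOpen (B : Set F) → A.map (AddMonoidHom.mulLeft (q : F)) ≤ A →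
      B.map (AddMonoidHom.mulLeft (q : F)) ≤ B →
      (A.map (AddMonoidHom.mulLeft (q : F))).relIndex A =
        ((A ⊓ B).map (AddMonoidHom.mulLeft (q : F))).relIndex (A ⊓ B) := by
    intro A B hA hAo hBo hqA hqB
    set m := AddMonoidHom.mulLeft (q : F) with hm
    set C := A ⊓ B with hC
    have hCA : C.relIndex A ≠ 0 :=
      relIndex_ne_zero_of_isCompact F hA (hAo.inter hBo)
    have hqC : C.map m ≤ C :=
      le_inf ((AddSubgroup.map_mono inf_le_left).trans hqA)
        ((AddSubgroup.map_mono inf_le_right).trans hqB)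
    have hinj : Function.Injective m :=
      mul_right_injective₀ (norm_pos_iff.1 (norm_q_pos F))
    have e1 := AddSubgroup.relIndex_mul_relIndex (C.map m) (A.map m) A
      (AddSubgroup.map_mono inf_le_left) hqA
    have e2 := AddSubgroup.relIndex_mul_relIndex (C.map m) C A hqC inf_le_left
    rw [AddSubgroup.relIndex_map_map_of_injective _ _ hinj] at e1
    rw [← e1, mul_comm] at e2
    exact (mul_left_cancel₀ hCA e2).symm
  rw [key A B hA hAo hBo hqA hqB, inf_comm, key B A hB hBo hAo hqB hqA]

/-- `Q ^ e = q ^ [F : ℚ_q]`. -/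
theorem residueCard_pow_ramIdx :
    residueCard F ^ ramIdx F = q ^ Module.finrank ℚ_[q] F := by
  classical
  set n := Module.finrank ℚ_[q] F
  let b := (Module.finBasis ℚ_[q] F).equivFun.toContinuousLinearEquiv
  let ψ : (Fin n → ℤ_[q]) →+ F :=
    { toFun := fun v => b.symm fun i => (v i : ℚ_[q])
      map_zero' := by
        rw [← b.symm.map_zero]
        exact congrArg b.symm (funext fun i => PadicInt.coe_zero)
      map_add' := fun v w => by
        rw [← b.symm.map_add]
        exact congrArg b.symm (funext fun i => PadicInt.coe_add _ _) }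
  have hψ : Function.Injective ψ := fun v w h =>
    funext fun i => Subtype.ext (congrFun (b.symm.injective h) i)
  have hset : (ψ.range : Set F) = b ⁻¹' Metric.closedBall 0 1 := by
    ext x
    constructor
    · rintro ⟨v, rfl⟩
      simp only [Set.mem_preimage, Metric.mem_closedBall, dist_zero_right]
      show ‖b (b.symm fun i => (v i : ℚ_[q]))‖ ≤ 1
      rw [b.apply_symm_apply]
      exact (pi_norm_le_iff_of_nonneg zero_le_one).2 fun i => (v i).2
    · intro hx
      simp only [Set.mem_preimage, Metric.mem_closedBall, dist_zero_right] at hx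
      exact ⟨fun i => ⟨b x i, (norm_le_pi_norm _ i).trans hx⟩, b.symm_apply_apply x⟩
  have hΛc : IsCompact (ψ.range : Set F) := by
    rw [hset, ← ContinuousLinearEquiv.image_symm_eq_preimage]
    exact (isCompact_closedBall _ _).image b.symm.continuous
  have hΛo : IsOpen (ψ.range : Set F) := by
    rw [hset]
    exact (IsUltrametricDist.isClopen_closedBall _ one_ne_zero).isOpen.preimage b.continuous
  have hOc : IsCompact ((ball F 1 zero_le_one : AddSubgroup F) : Set F) := by
    have : ((ball F 1 zero_le_one : AddSubgroup F) : Set F) = Metric.closedBall 0 1 := by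
      ext x; simp [ball]
    rw [this]; exact isCompact_closedBall _ _
  have hOo : IsOpen ((ball F 1 zero_le_one : AddSubgroup F) : Set F) := by
    have : ((ball F 1 zero_le_one : AddSubgroup F) : Set F) = Metric.closedBall 0 1 := by
      ext x; simp [ball]
    rw [this]; exact (IsUltrametricDist.isClopen_closedBall _ one_ne_zero).isOpen
  have hq0 : (q : F) ≠ 0 := norm_pos_iff.1 (norm_q_pos F)
  have hqO : (ball F 1 zero_le_one).map (AddMonoidHom.mulLeft (q : F)) ≤ ball F 1 zero_le_one := by
    rintro _ ⟨x, hx, rfl⟩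
    exact (norm_mul _ _).trans_le (mul_le_one₀ (norm_q_lt_one F).le (norm_nonneg _) hx)
  have hmul : ∀ v, (q : F) * ψ v = ψ (q • v) := fun v => by rw [map_nsmul, nsmul_eq_mul]
  have hqΛ : ψ.range.map (AddMonoidHom.mulLeft (q : F)) ≤ ψ.range := by
    rintro _ ⟨_, ⟨v, rfl⟩, rfl⟩
    exact ⟨q • v, (hmul v).symm⟩
  have h := relIndex_mul_eq F _ _ hOc hΛc hOo hΛo hqO hqΛ
  have hO : (ball F 1 zero_le_one).map (AddMonoidHom.mulLeft (q : F)) =
      ball F (‖uniformizer F‖ ^ ramIdx F) (pow_nonneg (norm_nonneg _) _) := by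
    rw [map_mul_ball F hq0]
    exact ball_congr F (by rw [mul_one, norm_q_eq])
  rw [hO, relIndex_ball_pow] at h
  rw [h]
  -- the lattice side
  let red : (Fin n → ℤ_[q]) →+ (Fin n → ZMod q) :=
    (PadicInt.toZMod (p := q)).toAddMonoidHom.compLeft (Fin n)
  have hred : Function.Surjective red := fun v => by
    choose w hw using fun i => ZMod.ringHom_surjective (PadicInt.toZMod (p := q)) (v i)
    exact ⟨w, funext hw⟩
  have hker : ψ.range.map (AddMonoidHom.mulLeft (q : F)) = red.ker.map ψ := by
    have hkq : ∀ x : ℤ_[q], PadicInt.toZMod x = 0 ↔ (q : ℤ_[q]) ∣ x := fun x => by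
      rw [← RingHom.mem_ker, PadicInt.ker_toZMod, PadicInt.maximalIdeal_eq_span_p,
        Ideal.mem_span_singleton]
    ext x
    constructor
    · rintro ⟨_, ⟨v, rfl⟩, rfl⟩
      refine ⟨q • v, ?_, (hmul v).symm⟩
      exact funext fun i => (hkq _).2 ⟨v i, by simp⟩
    · rintro ⟨v, hv, rfl⟩
      choose w hw using fun i => (hkq (v i)).1 (congrFun hv i)
      refine ⟨ψ w, ⟨w, rfl⟩, (hmul w).trans (congrArg ψ ?_)⟩
      funext i; rw [hw i]; simp
  rw [hker, AddMonoidHom.range_eq_map, AddSubgroup.relIndex_map_map_of_injective _ _ hψ,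
    AddSubgroup.relIndex_top_right, AddSubgroup.index_ker, AddMonoidHom.range_eq_top.2 hred,
    AddSubgroup.card_top]
  simp

/-- The residue degree. -/
noncomputable def resDeg : ℕ := Nat.log q (residueCard F)

theorem residueCard_eq : residueCard F = q ^ resDeg F := by
  have hq : q.Prime := Fact.out
  have hdvd : residueCard F ∣ q ^ Module.finrank ℚ_[q] F := by
    rw [← residueCard_pow_ramIdx]; exact dvd_pow_self _ (ramIdx_pos F).ne'
  obtain ⟨i, -, hi⟩ := (Nat.dvd_prime_pow hq).1 hdvd
  rw [resDeg, hi, Nat.log_pow hq.one_lt]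

theorem ramIdx_mul_resDeg : ramIdx F * resDeg F = Module.finrank ℚ_[q] F := by
  have h := residueCard_pow_ramIdx F
  rw [residueCard_eq, ← pow_mul, mul_comm] at h
  exact Nat.pow_right_injective (Fact.out : q.Prime).two_le h

theorem resDeg_pos : 0 < resDeg F := by
  have h := ramIdx_mul_resDeg F
  rcases Nat.eq_zero_or_pos (resDeg F) with h0 | h0
  · rw [h0, mul_zero] at h; exact absurd h.symm Module.finrank_pos.ne'
  · exact h0

instance finite_residueField : Finite (residueField F) :=
  Nat.finite_of_card_ne_zero (by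
    rw [natCard_residueField, residueCard_eq]
    exact pow_ne_zero _ (Fact.out : q.Prime).ne_zero)

theorem natCard_residueField' : Nat.card (residueField F) = q ^ resDeg F := by
  rw [natCard_residueField, residueCard_eq]

section extension

variable {F} {F' : IntermediateField ℚ_[q] (PadicAlgCl q)} (hFF' : F ≤ F')

theorem norm_inclusion (x : F) : ‖IntermediateField.inclusion hFF' x‖ = ‖x‖ := rfl

/-- The inclusion of integers. -/
noncomputable def integersMap : integers F →+* integers F' where
  toFun x := ⟨IntermediateField.inclusion hFF' x,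
    (mem_integers F').2 (((norm_inclusion hFF' x).trans_le ((mem_integers F).1 x.2)))⟩
  map_one' := Subtype.ext (map_one (IntermediateField.inclusion hFF'))
  map_mul' _ _ := Subtype.ext (map_mul (IntermediateField.inclusion hFF') _ _)
  map_zero' := Subtype.ext (map_zero (IntermediateField.inclusion hFF'))
  map_add' _ _ := Subtype.ext (map_add (IntermediateField.inclusion hFF') _ _)

theorem coe_integersMap (x : integers F) :
    ((integersMap hFF' x : integers F') : F') = IntermediateField.inclusion hFF' (x : F) := rfl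

instance isLocalHom_integersMap : IsLocalHom (integersMap hFF') where
  map_nonunit x hx := by
    rw [isUnit_integers_iff] at hx ⊢
    rw [coe_integersMap, norm_inclusion] at hx
    exact hx

/-- The map of residue fields. -/
noncomputable def residueMap : residueField F →+* residueField F' :=
  IsLocalRing.ResidueField.map (integersMap hFF')

include hFF' in
theorem ramIdx_dvd [FiniteDimensional ℚ_[q] F'] : ramIdx F ∣ ramIdx F' := by
  have hne : IntermediateField.inclusion hFF' (uniformizer F) ≠ 0 :=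
    (map_ne_zero _).2 (uniformizer_ne_zero F)
  obtain ⟨i, hi⟩ := exists_norm_eq_zpow F' hne
  have hn : ‖IntermediateField.inclusion hFF' (uniformizer F)‖ = ‖uniformizer F‖ := rfl
  have h : ‖uniformizer F'‖ ^ (i * ramIdx F) = ‖uniformizer F'‖ ^ (ramIdx F' : ℤ) := by
    rw [zpow_mul, ← hi, hn, zpow_natCast, zpow_natCast, ← norm_q_eq, ← norm_q_eq, norm_q, norm_q]
  exact Int.natCast_dvd_natCast.1 ⟨i, by rw [← zpow_norm_uniformizer_inj F' h, mul_comm]⟩

end extension

end Fermat.Agent.ClassField.PadicFields
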