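import Mathlib.GroupTheory.Index
import Mathlib.GroupTheory.IndexNSmul
import Mathlib.RingTheory.Polynomial.Cyclotomic.Expand
import Mathlib.LinearAlgebra.FreeModule.PID
import Mathlib.LinearAlgebra.Dimension.RankNullity
import Mathlib.GroupTheory.FiniteAbelian.Basic

/-!
# Herbrand quotient of a finitely generated abelian group with an automorphism of prime order

For `σ` with `σ ^ p = 1` on a finitely generated abelian group `M` of rank `r`, with fixed part of
rank `r₀`, the indices `h₀ = [ker (σ - 1) : N M]` and `h₁ = [ker N : (σ - 1) M]` satisfy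
`h₁ ^ (p - 1) * p ^ (p * r₀) = h₀ ^ (p - 1) * p ^ r`.
-/

set_option autoImplicit false

open Module Polynomial Finset

namespace Fermat.Agent.ClassField.HerbrandRank

section index

variable {A : Type*} [AddCommGroup A]

theorem index_map_eq (f : A →+ A) (B : AddSubgroup A) :
    B.relIndex f.ker * (B.map f).relIndex f.range = B.index := by
  rw [AddMonoidHom.range_eq_map, AddSubgroup.relIndex_map_map, top_sup_eq,
    AddSubgroup.relIndex_top_right, ← AddSubgroup.relIndex_sup_right,
    ← AddSubgroup.relIndex_top_right B, ← AddSubgroup.relIndex_top_right (B ⊔ f.ker)]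
  rw [sup_comm f.ker B]
  exact AddSubgroup.relIndex_mul_relIndex B (B ⊔ f.ker) ⊤ le_sup_left le_top

theorem cross_mul (f g : A →+ A) (hfg : ∀ x, f (g x) = 0) (hgf : ∀ x, g (f x) = 0)
    (B : AddSubgroup A) (hfB : B.map f ≤ B) (hgB : B.map g ≤ B) (hB : B.index ≠ 0) :
    g.range.relIndex f.ker * (B.map f).relIndex (B ⊓ g.ker) =
      (B.map g).relIndex (B ⊓ f.ker) * f.range.relIndex g.ker := by
  have key : ∀ (f g : A →+ A), (∀ x, f (g x) = 0) → B.map g ≤ B →
      (B.map g).relIndex g.range * g.range.relIndex f.ker =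
        (B.map g).relIndex (B ⊓ f.ker) * B.relIndex f.ker := by
    intro f g h hg
    have h1 : g.range ≤ f.ker := by rintro _ ⟨x, rfl⟩; exact h x
    have h3 : B.map g ≤ g.range := by rintro _ ⟨x, -, rfl⟩; exact ⟨x, rfl⟩
    have h2 : B.map g ≤ B ⊓ f.ker := le_inf hg (h3.trans h1)
    rw [AddSubgroup.relIndex_mul_relIndex _ _ _ h3 h1,
      ← AddSubgroup.inf_relIndex_right B f.ker,
      AddSubgroup.relIndex_mul_relIndex _ _ _ h2 inf_le_right]
  have e1 := key f g hfg hgB
  have e2 := key g f hgf hfB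
  have i1 := index_map_eq f B
  have i2 := index_map_eq g B
  set a := g.range.relIndex f.ker
  set b := f.range.relIndex g.ker
  set a' := (B.map g).relIndex (B ⊓ f.ker)
  set b' := (B.map f).relIndex (B ⊓ g.ker)
  set v := (B.map g).relIndex g.range
  set w := (B.map f).relIndex f.range
  set u := B.relIndex f.ker
  set s := B.relIndex g.ker
  apply mul_left_cancel₀ hB
  calc B.index * (a * b') = (v * a) * (s * b') := by rw [← i2]; ring
    _ = (a' * u) * (w * b) := by rw [e1, e2]; ring
    _ = B.index * (a' * b) := by rw [← i1]; ring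

end index

variable {M : Type*} [AddCommGroup M]

/-- A subgroup containing a nonzero multiple of everything has full rank. -/
theorem finrank_eq_of_smul_mem [Module.Finite ℤ M] (N : Submodule ℤ M) {n : ℤ} (hn : n ≠ 0)
    (h : ∀ x, n • x ∈ N) : finrank ℤ N = finrank ℤ M := by
  rw [← Submodule.finrank_quotient_add_finrank N]
  suffices finrank ℤ (M ⧸ N) = 0 by omega
  rw [Module.finrank_eq_zero_iff]
  intro x
  obtain ⟨x, rfl⟩ := N.mkQ_surjective x
  exact ⟨n, hn, by rw [← map_smul]; exact (Submodule.Quotient.mk_eq_zero _).2 (h x)⟩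

theorem finrank_eq_of_smul_mem' [Module.Finite ℤ M] {N N' : Submodule ℤ M} (hle : N ≤ N') {n : ℤ}
    (hn : n ≠ 0) (h : ∀ x ∈ N', n • x ∈ N) : finrank ℤ N = finrank ℤ N' := by
  rw [← (Submodule.comapSubtypeEquivOfLe hle).finrank_eq]
  exact finrank_eq_of_smul_mem _ hn fun x => h x x.2

/-- `(X - 1) ^ (p - 1)` is `p` times a unit modulo the `p`-th cyclotomic polynomial. -/
theorem exists_geom_sum_eq (p : ℕ) [hp : Fact p.Prime] :
    ∃ w v : ℤ[X], ∑ i ∈ range p, (X : ℤ[X]) ^ i = (X - 1) ^ (p - 1) + C (p : ℤ) * w ∧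
      w = 1 + (X - 1) * v := by
  have hdvd : C (p : ℤ) ∣ ∑ i ∈ range p, (X : ℤ[X]) ^ i - (X - 1) ^ (p - 1) := by
    rw [← cyclotomic_prime ℤ p, C_dvd_iff_dvd_coeff]
    intro i
    rw [← ZMod.intCast_zmod_eq_zero_iff_dvd, ← eq_intCast (Int.castRingHom (ZMod p)), ← coeff_map]
    rw [Polynomial.map_sub, map_cyclotomic, Polynomial.map_pow, Polynomial.map_sub, map_X,
      Polynomial.map_one]
    have h1 : ¬ p ∣ 1 := hp.out.not_dvd_one
    have := cyclotomic_mul_prime_eq_pow_of_not_dvd (ZMod p) (p := p) h1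
    rw [one_mul, cyclotomic_one] at this
    rw [this, sub_self, coeff_zero]
  obtain ⟨w, hw⟩ := hdvd
  refine ⟨w, ?_⟩
  have hw1 : w.eval 1 = 1 := by
    have hev := congrArg (eval 1) hw
    have h1 : (p - 1) ≠ 0 := by have := hp.out.two_le; omega
    simp [eval_finsetSum, zero_pow h1] at hev
    have hp0 : (p : ℤ) ≠ 0 := Int.natCast_ne_zero.2 hp.out.ne_zero
    exact mul_left_cancel₀ hp0 (by linarith)
  obtain ⟨v, hv⟩ : X - C (1 : ℤ) ∣ w - 1 := dvd_iff_isRoot.2 (by simp [hw1])
  refine ⟨v, by linear_combination hw, ?_⟩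
  rw [map_one] at hv
  linear_combination hv

/-- On a torsion free module killed by `1 + σ + ⋯ + σ ^ (p - 1)`, `[C : (σ - 1) C] ^ (p - 1) =
p ^ rank C`. -/
theorem index_range_sub_one_pow {C : Type*} [AddCommGroup C] [Module.Finite ℤ C]
    [Module.Free ℤ C] (p : ℕ) [hp : Fact p.Prime] (σ : Module.End ℤ C)
    (hσ : ∑ i ∈ range p, σ ^ i = 0) :
    (σ - 1).range.toAddSubgroup.index ^ (p - 1) = p ^ finrank ℤ C := by
  obtain ⟨w, v, h, hwv⟩ := exists_geom_sum_eq p
  have h' := congrArg (aeval σ) h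
  simp only [map_sum, map_pow, aeval_X, map_add, map_sub, map_one, map_mul,
    map_natCast] at h'
  rw [hσ] at h'
  have hwv' := congrArg (aeval σ) hwv
  simp only [map_add, map_sub, map_one, map_mul, aeval_X] at hwv'
  set g := σ - 1
  set v' := aeval σ v
  have hgv : Commute g v' := by
    have := (Commute.all ((X : ℤ[X]) - 1) v).map (aeval σ)
    simpa [g, v'] using this
  rw [hwv'] at h'
  have hg1 : g ^ (p - 1) = -((p : Module.End ℤ C) * (1 + g * v')) := eq_neg_of_add_eq_zero_left h'.symm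
  have hpc : ∀ a : Module.End ℤ C, (p : Module.End ℤ C) * a = a * (p : Module.End ℤ C) :=
    fun a => (Nat.cast_commute p a).eq
  have key : ∀ k, k ≤ p - 1 → ∃ a, (p : Module.End ℤ C) = g ^ k * a := by
    intro k
    induction k with
    | zero => exact fun _ => ⟨p, by simp⟩
    | succ k ih =>
      intro hk
      obtain ⟨a, ha⟩ := ih (by omega)
      refine ⟨-g ^ (p - 1 - (k + 1)) - v' * a, ?_⟩
      have e1 : g ^ (k + 1) * g ^ (p - 1 - (k + 1)) = g ^ (p - 1) := by
        rw [← pow_add]; congr 1; omega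
      have e2 : g ^ (k + 1) * (v' * a) = (p : Module.End ℤ C) * (g * v') := by
        rw [← mul_assoc, pow_succ', mul_assoc g, (hgv.pow_left k).eq, ← mul_assoc, mul_assoc _ (g ^ k) a,
          ← ha, ← hpc]
      rw [mul_sub, mul_neg, e1, e2, hg1, mul_add, mul_one]
      abel
  have hrange : (g ^ (p - 1)).range.toAddSubgroup = (nsmulAddMonoidHom (α := C) p).range := by
    ext x
    constructor
    · rintro ⟨y, rfl⟩
      refine ⟨-((1 + g * v') y), ?_⟩
      rw [hg1]
      simp [Module.End.natCast_apply]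
    · rintro ⟨y, rfl⟩
      obtain ⟨a, ha⟩ := key _ le_rfl
      refine ⟨a y, ?_⟩
      rw [← Module.End.mul_apply, ← ha]
      simp [Module.End.natCast_apply]
  have hinj : Function.Injective g := by
    rw [injective_iff_map_eq_zero]
    intro x hx
    have hσx : σ x = x := by simpa [g, sub_eq_zero] using hx
    have hpow : ∀ i : ℕ, (σ ^ i) x = x := fun i => by
      induction i with
      | zero => rfl
      | succ i ih => rw [pow_succ, Module.End.mul_apply, hσx, ih]
    have hp0 : (p : ℤ) • x = 0 := by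
      simpa [hpow] using LinearMap.congr_fun hσ x
    exact (smul_eq_zero.1 hp0).resolve_left (Int.natCast_ne_zero.2 hp.out.ne_zero)
  have hpow : ∀ k, (g ^ k).range.toAddSubgroup.index = g.range.toAddSubgroup.index ^ k := by
    intro k
    induction k with
    | zero => simp [Module.End.one_eq_id]
    | succ k ih =>
      have e : (g ^ (k + 1)).range.toAddSubgroup =
          (g ^ k).range.toAddSubgroup.map g.toAddMonoidHom := by
        rw [pow_succ', Module.End.mul_eq_comp, LinearMap.range_comp]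
        rfl
      rw [e, AddSubgroup.index_map, (AddMonoidHom.ker_eq_bot_iff _).2 hinj, sup_bot_eq, ih,
        pow_succ]
      rfl
  rw [← hpow, hrange, AddSubgroup.index_range_nsmul]

theorem relIndex_range_ne_zero_of_smul {A B : AddSubgroup M} [Module.Finite ℤ M] {n : ℕ}
    (hn : n ≠ 0) (h : ∀ x ∈ B, n • x ∈ A) : A.relIndex B ≠ 0 := by
  have : Module.Finite ℤ B := inferInstanceAs (Module.Finite ℤ B.toIntSubmodule)
  rw [AddSubgroup.relIndex, AddSubgroup.index_eq_card]
  have : Finite (B ⧸ A.addSubgroupOf B) := by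
    have : AddGroup.FG B := Module.Finite.iff_addGroup_fg.1 inferInstance
    refine AddCommGroup.finite_of_fg_isAddTorsion _ fun x => ?_
    obtain ⟨x, rfl⟩ := QuotientAddGroup.mk_surjective x
    refine isOfFinAddOrder_iff_nsmul_eq_zero.2 ⟨n, Nat.pos_of_ne_zero hn, ?_⟩
    rw [← QuotientAddGroup.mk_nsmul, QuotientAddGroup.eq_zero_iff]
    exact h x x.2
  exact Nat.card_pos.ne'

/-- The Herbrand quotient formula in terms of ranks. -/
theorem herbrand_rank [Module.Finite ℤ M] (p : ℕ) [hp : Fact p.Prime] (σ : Module.End ℤ M)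
    (hσ : σ ^ p = 1) :
    ((∑ i ∈ range p, σ ^ i).range.toAddSubgroup.relIndex (σ - 1).ker.toAddSubgroup ≠ 0) ∧
    ((σ - 1).range.toAddSubgroup.relIndex (∑ i ∈ range p, σ ^ i).ker.toAddSubgroup) ^ (p - 1) *
        p ^ (p * finrank ℤ (σ - 1).ker) =
      ((∑ i ∈ range p, σ ^ i).range.toAddSubgroup.relIndex (σ - 1).ker.toAddSubgroup) ^ (p - 1) *
        p ^ finrank ℤ M := by
  set N := ∑ i ∈ range p, σ ^ i with hN
  set g := σ - 1 with hgdef
  have hgN : g * N = 0 := by rw [mul_geom_sum, hσ, sub_self]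
  have hNg : N * g = 0 := by rw [geom_sum_mul, hσ, sub_self]
  have hσg : Commute σ g := (Commute.refl σ).sub_right (Commute.one_right σ)
  have hσN : Commute σ N := Commute.sum_right _ _ _ fun i _ => Commute.self_pow σ i
  have hfix : ∀ x ∈ g.ker, N x = p • x := by
    intro x hx
    have hσx : σ x = x := by simpa [g, sub_eq_zero] using hx
    have hpow : ∀ i : ℕ, (σ ^ i) x = x := fun i => by
      induction i with
      | zero => rfl
      | succ i ih => rw [pow_succ, Module.End.mul_apply, hσx, ih]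
    simp [N, LinearMap.sum_apply, hpow]
  -- a torsion free full rank stable subgroup
  have : Finite (Submodule.torsion ℤ M) := Module.finite_of_fg_torsion _ (Submodule.torsion_isTorsion)
  set m := Nat.card (Submodule.torsion ℤ M)
  have hm : m ≠ 0 := Nat.card_pos.ne'
  have hmt : ∀ x : M, x ∈ Submodule.torsion ℤ M → m • x = 0 := fun x hx => by
    have := card_nsmul_eq_zero' (x := (⟨x, hx⟩ : Submodule.torsion ℤ M))
    exact congrArg Subtype.val this
  set F : Submodule ℤ M := LinearMap.range ((m : ℤ) • (LinearMap.id : M →ₗ[ℤ] M)) with hF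
  have memF : ∀ x : M, m • x ∈ F := fun x => ⟨x, by simp⟩
  have hFf : ∀ φ : Module.End ℤ M, ∀ x ∈ F, φ x ∈ F := by
    rintro φ _ ⟨y, rfl⟩
    exact ⟨φ y, by simp⟩
  have : IsTorsionFree ℤ F := by
    refine Module.IsTorsionFree.mk fun n hn => ?_
    intro x₁ x₂ he
    rw [← sub_eq_zero]
    replace he : n • (x₁ - x₂) = 0 := by rw [smul_sub]; exact sub_eq_zero.2 he
    generalize x₁ - x₂ = x at he
    have hnx := he
    by_contra hc2
    have hc : n ≠ 0 ∧ x ≠ 0 := ⟨hn.ne_zero, hc2⟩
    obtain ⟨y, hy⟩ := x.2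
    have hy' : y ∈ Submodule.torsion ℤ M :=
      ⟨⟨n * (m : ℤ), mem_nonZeroDivisors_of_ne_zero
        (mul_ne_zero hc.1 (Int.natCast_ne_zero.2 hm))⟩, by
          change (n * (m : ℤ)) • y = 0
          rw [mul_smul]
          have := congrArg Subtype.val hnx
          simpa [← hy] using this⟩
    exact hc.2 (Subtype.ext (by rw [← hy]; simpa using hmt y hy'))
  have : Module.Finite ℤ F := Module.Finite.of_fg (IsNoetherian.noetherian F)
  set B₀ := F ⊓ g.ker with hB₀
  set B₁ := F ⊓ N.ker with hB₁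
  set B := B₀ ⊔ B₁ with hB
  have hpB : ∀ x ∈ F, p • x ∈ B := by
    intro x hx
    have h0 : N x ∈ B₀ := ⟨hFf N x hx, by
      change g (N x) = 0
      rw [← Module.End.mul_apply, hgN]; rfl⟩
    have h1 : p • x - N x ∈ B₁ := ⟨F.sub_mem (nsmul_mem hx p) (hFf N x hx), by
      change N (p • x - N x) = 0
      rw [map_sub, map_nsmul, hfix (N x) (by change g (N x) = 0; rw [← Module.End.mul_apply, hgN]; rfl),
        sub_self]⟩
    simpa using Submodule.add_mem_sup h0 h1
  have hBi : B.toAddSubgroup.index ≠ 0 := by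
    rw [← AddSubgroup.relIndex_top_right]
    refine relIndex_range_ne_zero_of_smul (n := p * m) (mul_ne_zero hp.out.ne_zero hm) fun x _ => ?_
    rw [mul_smul]
    exact hpB _ (memF x)
  -- intersections
  have hdisj : ∀ x, x ∈ F → g x = 0 → N x = 0 → x = 0 := by
    intro x hx h0 h1
    rw [hfix x h0] at h1
    have : (p : ℤ) • (⟨x, hx⟩ : F) = 0 := Subtype.ext (by simpa using h1)
    exact congrArg Subtype.val ((smul_eq_zero.1 this).resolve_left
      (Int.natCast_ne_zero.2 hp.out.ne_zero))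
  have hBg : B ⊓ g.ker = B₀ := by
    refine le_antisymm ?_ (le_inf le_sup_left inf_le_right)
    rintro x ⟨hx, hgx⟩
    obtain ⟨a, ha, b, hb, rfl⟩ := Submodule.mem_sup.1 hx
    have hgb : g b = 0 := by
      have : g (a + b) = 0 := hgx
      rwa [map_add, show g a = 0 from ha.2, zero_add] at this
    rw [hdisj b hb.1 hgb hb.2, add_zero]
    exact ha
  have hBN : B ⊓ N.ker = B₁ := by
    refine le_antisymm ?_ (le_inf le_sup_right inf_le_right)
    rintro x ⟨hx, hNx⟩
    obtain ⟨a, ha, b, hb, rfl⟩ := Submodule.mem_sup.1 hx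
    have hNa : N a = 0 := by
      have : N (a + b) = 0 := hNx
      rwa [map_add, show N b = 0 from hb.2, add_zero] at this
    rw [hdisj a ha.1 ha.2 hNa, zero_add]
    exact hb
  have hgB₁ : ∀ x ∈ B₁, g x ∈ B₁ := fun x hx => ⟨hFf g x hx.1, by
    change N (g x) = 0
    rw [← Module.End.mul_apply, hNg]; rfl⟩
  have hmapg : B.toAddSubgroup.map g.toAddMonoidHom = B₁.toAddSubgroup.map g.toAddMonoidHom := by
    refine le_antisymm ?_ (AddSubgroup.map_mono fun x hx => le_sup_right (a := B₀) hx)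
    rintro _ ⟨x, hx, rfl⟩
    obtain ⟨a, ha, b, hb, rfl⟩ := Submodule.mem_sup.1 hx
    exact ⟨b, hb, by simp [show g a = 0 from ha.2]⟩
  have hmapN : B.toAddSubgroup.map N.toAddMonoidHom =
      B₀.toAddSubgroup.map (nsmulAddMonoidHom p) := by
    ext y
    constructor
    · rintro ⟨x, hx, rfl⟩
      obtain ⟨a, ha, b, hb, rfl⟩ := Submodule.mem_sup.1 hx
      exact ⟨a, ha, by simp [show N b = 0 from hb.2, hfix a ha.2]⟩
    · rintro ⟨a, ha, rfl⟩
      exact ⟨a, Submodule.mem_sup_left ha, by simp [hfix a ha.2]⟩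
  -- ranks
  have hr0 : finrank ℤ B₀ = finrank ℤ g.ker :=
    finrank_eq_of_smul_mem' inf_le_right (Int.natCast_ne_zero.2 hm) fun x hx =>
      ⟨by rw [natCast_zsmul]; exact memF x, g.ker.smul_mem _ hx⟩
  have hrF : finrank ℤ F = finrank ℤ M :=
    finrank_eq_of_smul_mem F (Int.natCast_ne_zero.2 hm) fun x => by
      rw [natCast_zsmul]; exact memF x
  have hr1 : finrank ℤ B₁ + finrank ℤ B₀ = finrank ℤ F := by
    let ψ : F →ₗ[ℤ] M := N.comp F.subtype
    have e1 : finrank ℤ (LinearMap.ker ψ) = finrank ℤ B₁ := by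
      have : LinearMap.ker ψ = B₁.comap F.subtype := by
        ext x; simp [ψ, B₁]
      rw [this, (Submodule.comapSubtypeEquivOfLe inf_le_left).finrank_eq]
    have e2 : finrank ℤ (LinearMap.range ψ) = finrank ℤ B₀ := by
      refine finrank_eq_of_smul_mem' ?_ (Int.natCast_ne_zero.2 hp.out.ne_zero) fun x hx =>
        ⟨⟨x, hx.1⟩, by simpa [ψ] using hfix x hx.2⟩
      rintro _ ⟨x, rfl⟩
      exact ⟨hFf N x x.2, by
        change g (N x) = 0
        rw [← Module.End.mul_apply, hgN]; rfl⟩
    have e3 := Submodule.finrank_quotient_add_finrank (LinearMap.ker ψ)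
    rw [ψ.quotKerEquivRange.finrank_eq, e1, e2] at e3
    omega
  have hfree : ∀ S : Submodule ℤ M, S ≤ F → IsTorsionFree ℤ S := fun S hS =>
    Function.Injective.moduleIsTorsionFree (Submodule.inclusion hS)
      (Submodule.inclusion_injective hS) fun r x => map_smul _ r x
  have := hfree B₀ inf_le_left
  have := hfree B₁ inf_le_left
  have : Module.Finite ℤ B₀ := Module.Finite.of_fg (IsNoetherian.noetherian _)
  have : Module.Finite ℤ B₁ := Module.Finite.of_fg (IsNoetherian.noetherian _)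
  have : Module.Free ℤ B₀ := inferInstance
  have : Module.Free ℤ B₁ := inferInstance
  -- the two local indices
  have hi0 : (B₀.toAddSubgroup.map (nsmulAddMonoidHom p)).relIndex B₀.toAddSubgroup =
      p ^ finrank ℤ B₀ := by
    rw [← AddSubgroup.index_range_nsmul (M := B₀) p, AddSubgroup.relIndex,
      AddSubgroup.addSubgroupOf_map_nsmulAddMonoidHom_eq_range]
  let τ : Module.End ℤ B₁ := σ.restrict (p := B₁) (q := B₁) (fun x hx => ⟨hFf σ x hx.1, by
    change N (σ x) = 0
    rw [← Module.End.mul_apply, ← hσN.eq, Module.End.mul_apply, show N x = 0 from hx.2, map_zero]⟩)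
  have hτpow : ∀ (i : ℕ) (x : B₁), (((τ ^ i) x : B₁) : M) = (σ ^ i) (x : M) := fun i => by
    induction i with
    | zero => intro x; rfl
    | succ i ih => intro x; rw [pow_succ, pow_succ, Module.End.mul_apply, ih]; rfl
  have hτN : ∑ i ∈ range p, τ ^ i = 0 := by
    refine LinearMap.ext fun x => Subtype.ext ?_
    have : N (x : M) = 0 := x.2.2
    simpa [N, LinearMap.sum_apply, hτpow] using this
  have hi1 : (B₁.toAddSubgroup.map g.toAddMonoidHom).relIndex B₁.toAddSubgroup =
      (τ - 1).range.toAddSubgroup.index := by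
    rw [AddSubgroup.relIndex]
    congr 1
    ext x
    constructor
    · rintro ⟨y, hy, hyx⟩
      exact ⟨⟨y, hy⟩, Subtype.ext hyx⟩
    · rintro ⟨y, rfl⟩
      exact ⟨y, y.2, rfl⟩
  -- conclude
  have hNk : N.toAddMonoidHom.ker = N.ker.toAddSubgroup := rfl
  have hcross := cross_mul g.toAddMonoidHom N.toAddMonoidHom
    (fun x => by change (g * N) x = 0; rw [hgN]; rfl)
    (fun x => by change (N * g) x = 0; rw [hNg]; rfl) B.toAddSubgroup
    (by rw [hmapg]; rintro _ ⟨x, hx, rfl⟩; exact le_sup_right (a := B₀) (hgB₁ x hx))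
    (by rw [hmapN]; rintro _ ⟨x, hx, rfl⟩; exact nsmul_mem (Submodule.mem_sup_left hx) p)
    hBi
  rw [hmapg, hmapN] at hcross
  have hg' : B.toAddSubgroup ⊓ g.toAddMonoidHom.ker = B₀.toAddSubgroup := by
    rw [← hBg]; rfl
  have hN' : B.toAddSubgroup ⊓ N.toAddMonoidHom.ker = B₁.toAddSubgroup := by
    rw [← hBN]; rfl
  rw [hg', hN', hi0, hi1, hr0] at hcross
  have h0ne : N.range.toAddSubgroup.relIndex g.ker.toAddSubgroup ≠ 0 :=
    relIndex_range_ne_zero_of_smul hp.out.ne_zero fun x hx => ⟨x, hfix x hx⟩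
  refine ⟨h0ne, ?_⟩
  have hX := index_range_sub_one_pow p τ hτN
  have hc : g.range.toAddSubgroup.relIndex N.ker.toAddSubgroup * p ^ finrank ℤ g.ker =
      N.range.toAddSubgroup.relIndex g.ker.toAddSubgroup * (τ - 1).range.toAddSubgroup.index := by
    rw [mul_comm (g.range.toAddSubgroup.relIndex _)]
    exact hcross.symm
  have hc' := congrArg (· ^ (p - 1)) hc
  simp only [mul_pow, hX, ← pow_mul] at hc'
  rw [← hrF, ← hr1, hr0]
  have e : p * finrank ℤ g.ker = finrank ℤ g.ker * (p - 1) + finrank ℤ g.ker := by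
    have := hp.out.one_le
    conv_lhs => rw [show p = (p - 1) + 1 by omega]
    ring
  rw [e, pow_add, pow_add, ← mul_assoc, hc']
  ring

end Fermat.Agent.ClassField.HerbrandRank
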