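import Fermat.Agent.ClassField.Herbrand
import Mathlib.FieldTheory.Galois.NormalBasis
import Mathlib.RepresentationTheory.Homological.GroupCohomology.Hilbert90
import Mathlib.Analysis.Normed.Module.FiniteDimension
import Mathlib.Topology.MetricSpace.Ultra.Pi
import Mathlib.Data.ZMod.QuotientGroup
import Mathlib.Analysis.Normed.Group.Ultra

/-!
# The local norm index

For a cyclic extension `L/K` of a locally compact ultrametric field, the norm subgroup of `Kˣ`
has index `[L : K]`.
-/

set_option autoImplicit false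
set_option linter.unusedSectionVars false

namespace Fermat.Agent.ClassField.LocalNormIndex

open Finset

variable {K L : Type} [NontriviallyNormedField K] [ProperSpace K] [IsUltrametricDist K]
  [NormedField L] [NormedAlgebra K L] [FiniteDimensional K L] [IsGalois K L]

section coord

variable (K L)

noncomputable def coordEquiv : L ≃L[K] (Gal(L/K) → K) :=
  (IsGalois.normalBasis K L).equivFun.toContinuousLinearEquiv

noncomputable def basisElt (g : Gal(L/K)) : L := IsGalois.normalBasis K L g

end coord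

variable (K) in
noncomputable def coord (x : L) : ℝ := ‖coordEquiv K L x‖

theorem sum_coord (x : L) : ∑ g, coordEquiv K L x g • basisElt K L g = x :=
  (IsGalois.normalBasis K L).sum_equivFun x

theorem basisElt_mul (g h : Gal(L/K)) : g (basisElt K L h) = basisElt K L (g * h) := by
  simp only [basisElt]
  rw [IsGalois.normalBasis_apply h, IsGalois.normalBasis_apply (g * h)]
  rfl

theorem coordEquiv_sum (c : Gal(L/K) → K) :
    coordEquiv K L (∑ g, c g • basisElt K L g) = c := by
  have h := sum_coord (K := K) (L := L) ((coordEquiv K L).symm c)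
  rw [(coordEquiv K L).apply_symm_apply] at h
  rw [h, (coordEquiv K L).apply_symm_apply]

theorem coordEquiv_gal (g : Gal(L/K)) (x : L) (h : Gal(L/K)) :
    coordEquiv K L (g x) h = coordEquiv K L x (g⁻¹ * h) := by
  have key : g x = ∑ h, coordEquiv K L x (g⁻¹ * h) • basisElt K L h := by
    conv_lhs => rw [← sum_coord (K := K) x]
    rw [map_sum]
    simp only [map_smul, basisElt_mul]
    exact Fintype.sum_equiv (Equiv.mulLeft g) _ _ fun h => by simp
  rw [key, coordEquiv_sum]

theorem coord_gal (g : Gal(L/K)) (x : L) : coord K (g x) = coord K x := by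
  apply le_antisymm <;> refine (pi_norm_le_iff_of_nonneg (norm_nonneg _)).2 fun h => ?_
  · rw [coordEquiv_gal]; exact norm_le_pi_norm _ _
  · have := coordEquiv_gal g x (g * h)
    rw [inv_mul_cancel_left] at this
    rw [← this]; exact norm_le_pi_norm _ _

theorem coord_add (x y : L) : coord K (x + y) ≤ max (coord K x) (coord K y) := by
  simp only [coord, map_add]; exact IsUltrametricDist.norm_add_le_max _ _

theorem coord_neg (x : L) : coord K (-x) = coord K x := by simp [coord]

theorem coord_sub (x y : L) : coord K (x - y) ≤ max (coord K x) (coord K y) := by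
  simpa [sub_eq_add_neg, coord_neg] using coord_add (K := K) x (-y)

theorem coord_nonneg (x : L) : 0 ≤ coord K x := norm_nonneg _

theorem coord_smul (a : K) (x : L) : coord K (a • x) = ‖a‖ * coord K x := by
  simp [coord, norm_smul]

theorem coord_zero : coord K (0 : L) = 0 := by simp [coord]

theorem coord_sum_le {ι : Type*} (s : Finset ι) (f : ι → L) {r : ℝ} (hr : 0 ≤ r)
    (h : ∀ i ∈ s, coord K (f i) ≤ r) : coord K (∑ i ∈ s, f i) ≤ r := by
  classical
  induction s using Finset.induction_on with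
  | empty => simpa [coord_zero] using hr
  | @insert a t ha ih =>
    rw [Finset.sum_insert ha]
    exact (coord_add _ _).trans (max_le (h a (mem_insert_self a t))
      (ih fun i hi => h i (mem_insert_of_mem hi)))

variable (K L) in
noncomputable def mulConst : ℝ :=
  ∑ g, ∑ h, coord K (basisElt K L g * basisElt K L h) + 1

theorem mulConst_pos : 0 < mulConst K L :=
  add_pos_of_nonneg_of_pos (sum_nonneg fun _ _ => sum_nonneg fun _ _ => coord_nonneg _) one_pos

theorem coord_mul (x y : L) : coord K (x * y) ≤ mulConst K L * coord K x * coord K y := by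
  have hxy : x * y = ∑ g, ∑ h, (coordEquiv K L x g * coordEquiv K L y h) •
      (basisElt K L g * basisElt K L h) := by
    conv_lhs => rw [← sum_coord (K := K) x, ← sum_coord (K := K) y, sum_mul_sum]
    simp only [smul_mul_smul_comm]
  rw [hxy, coord, map_sum, mulConst, add_mul, add_mul, one_mul, sum_mul, sum_mul]
  refine le_add_of_le_of_nonneg ((norm_sum_le _ _).trans (sum_le_sum fun g _ => ?_))
    (mul_nonneg (coord_nonneg x) (coord_nonneg y))
  rw [map_sum, sum_mul, sum_mul]
  refine (norm_sum_le _ _).trans (sum_le_sum fun h _ => ?_)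
  rw [map_smul, norm_smul, norm_mul, mul_assoc (coord K _), mul_comm]
  exact mul_le_mul_of_nonneg_left
    (mul_le_mul (norm_le_pi_norm _ _) (norm_le_pi_norm _ _) (norm_nonneg _) (coord_nonneg _))
    (coord_nonneg _)

section units

variable (K L)

/-- `u ↦ g u`. -/
noncomputable def galUnits (g : Gal(L/K)) : Lˣ →* Lˣ := Units.map (g : L →* L)

/-- `u ↦ g u / u`. -/
noncomputable def diffHom (g : Gal(L/K)) : Lˣ →* Lˣ := galUnits K L g / MonoidHom.id _

/-- `u ↦ ∏ g, g u`. -/
noncomputable def normHom : Lˣ →* Lˣ := ∏ g : Gal(L/K), galUnits K L g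

theorem val_galUnits (g : Gal(L/K)) (u : Lˣ) : ((galUnits K L g u : Lˣ) : L) = g u := rfl

theorem val_diffHom (g : Gal(L/K)) (u : Lˣ) :
    ((diffHom K L g u : Lˣ) : L) = g u * (u : L)⁻¹ := by
  simp [diffHom, div_eq_mul_inv, val_galUnits]

theorem normHom_apply (u : Lˣ) : normHom K L u = ∏ g : Gal(L/K), galUnits K L g u :=
  MonoidHom.finsetProd_apply _ _ _

theorem val_normHom (u : Lˣ) : ((normHom K L u : Lˣ) : L) = ∏ g : Gal(L/K), g (u : L) := by
  rw [normHom_apply, Units.coe_prod]; rfl

theorem val_normHom_eq_norm (u : Lˣ) :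
    ((normHom K L u : Lˣ) : L) = algebraMap K L (Algebra.norm K (u : L)) := by
  rw [val_normHom, Algebra.norm_eq_prod_automorphisms]

variable {K L}

theorem galUnits_normHom (g : Gal(L/K)) (u : Lˣ) :
    galUnits K L g (normHom K L u) = normHom K L u := by
  ext; rw [val_galUnits, val_normHom_eq_norm, AlgEquiv.commutes]

theorem diffHom_normHom (g : Gal(L/K)) (u : Lˣ) : diffHom K L g (normHom K L u) = 1 := by
  simp [diffHom, galUnits_normHom]

theorem normHom_galUnits (g : Gal(L/K)) (u : Lˣ) :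
    normHom K L (galUnits K L g u) = normHom K L u := by
  simp only [normHom_apply]
  refine Fintype.prod_equiv (Equiv.mulRight g) _ _ fun h => ?_
  ext; simp [val_galUnits]

theorem normHom_diffHom (g : Gal(L/K)) (u : Lˣ) : normHom K L (diffHom K L g u) = 1 := by
  simp [diffHom, normHom_galUnits]

end units

theorem coord_gal_sub_one (g : Gal(L/K)) (x : L) : coord K (g x - 1) = coord K (x - 1) := by
  rw [← coord_gal g (x - 1)]; simp

theorem fixed_of_generator {σ : Gal(L/K)} (hσ : ∀ g, g ∈ Subgroup.zpowers σ) {x : L}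
    (hx : σ x = x) (g : Gal(L/K)) : g x = x := by
  obtain ⟨i, rfl⟩ := Subgroup.mem_zpowers_iff.1 (hσ g)
  exact MulAction.mem_stabilizer_iff.1
    (zpow_mem (K := MulAction.stabilizer (Gal(L/K)) x) (show σ • x = x from hx) i)

theorem isCompact_coord_ball (r : ℝ) : IsCompact {x : L | coord K (x - 1) ≤ r} := by
  have := (isCompact_closedBall (coordEquiv K L (1 : L)) r).image (coordEquiv K L).symm.continuous
  convert this using 1
  rw [ContinuousLinearEquiv.image_symm_eq_preimage]
  ext x
  simp [coord, dist_eq_norm, map_sub]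

theorem continuous_gal (g : Gal(L/K)) : Continuous fun x : L => g x :=
  g.toLinearMap.continuous_of_finiteDimensional

section principal

variable {r : ℝ} (hr0 : 0 ≤ r) (hr : mulConst K L * r < 1)
include hr0 hr

theorem coord_mul_sub_one {x y : L} {s : ℝ} (hx : coord K (x - 1) ≤ s)
    (hy : coord K (y - 1) ≤ s) (hsr : s ≤ r) : coord K (x * y - 1) ≤ s := by
  have hs := (coord_nonneg _).trans hx
  have h : x * y - 1 = (x - 1) + (y - 1) + (x - 1) * (y - 1) := by ring
  rw [h]
  refine (coord_add _ _).trans (max_le ((coord_add _ _).trans (max_le hx hy)) ?_)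
  calc _ ≤ mulConst K L * coord K (x - 1) * coord K (y - 1) := coord_mul _ _
    _ ≤ mulConst K L * r * s :=
        mul_le_mul (mul_le_mul_of_nonneg_left (hx.trans hsr) mulConst_pos.le) hy (coord_nonneg _)
          (mul_nonneg mulConst_pos.le hr0)
    _ ≤ s := mul_le_of_le_one_left hs hr.le

theorem coord_inv_sub_one {x : L} (hx0 : x ≠ 0) {s : ℝ} (hx : coord K (x - 1) ≤ s)
    (hsr : s ≤ r) : coord K (x⁻¹ - 1) ≤ s := by
  by_contra hlt
  rw [not_le] at hlt
  have h : x⁻¹ - 1 = -(x - 1) - (x - 1) * (x⁻¹ - 1) := by field_simp; ring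
  have hpos : 0 < coord K (x⁻¹ - 1) := ((coord_nonneg _).trans hx).trans_lt hlt
  have h3 := coord_sub (K := K) (-(x - 1)) ((x - 1) * (x⁻¹ - 1))
  rw [← h, coord_neg] at h3
  rcases le_max_iff.1 h3 with h4 | h4
  · exact absurd (h4.trans hx) (not_le.2 hlt)
  · refine absurd (h4.trans (coord_mul _ _)) (not_le.2 ?_)
    exact mul_lt_of_lt_one_left hpos
      ((mul_le_mul_of_nonneg_left (hx.trans hsr) mulConst_pos.le).trans_lt hr)

theorem ne_zero_of_coord_sub_one {x : L} (hx : coord K (x - 1) ≤ r) : x ≠ 0 := by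
  rintro rfl
  have h1 : coord K (1 : L) ≤ r := by simpa [coord_neg] using hx
  have hpos : 0 < coord K (1 : L) := by
    simp [coord]
  have h2 := coord_mul (K := K) (1 : L) 1
  rw [one_mul] at h2
  refine absurd h2 (not_le.2 ?_)
  exact mul_lt_of_lt_one_left hpos
    ((mul_le_mul_of_nonneg_left h1 mulConst_pos.le).trans_lt hr)

variable (K L) in
/-- `1 + {coord ≤ r}`. -/
noncomputable def principal : Subgroup Lˣ where
  carrier := {u | coord K ((u : L) - 1) ≤ r}
  one_mem' := by simpa [coord_zero] using hr0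
  mul_mem' := fun {a b} ha hb => by
    simpa using coord_mul_sub_one hr0 hr ha hb le_rfl
  inv_mem' := fun {a} ha => by
    simpa using coord_inv_sub_one hr0 hr a.ne_zero ha le_rfl

theorem mem_principal {u : Lˣ} : u ∈ principal K L hr0 hr ↔ coord K ((u : L) - 1) ≤ r := Iff.rfl

theorem coord_prod_sub_one_sub_sum {ι : Type*} (t : Finset ι) (f : ι → L) {s : ℝ}
    (hs : 0 ≤ s) (hsr : s ≤ r) (hf : ∀ i ∈ t, coord K (f i - 1) ≤ s) :
    coord K (∏ i ∈ t, f i - 1) ≤ s ∧
      coord K (∏ i ∈ t, f i - 1 - ∑ i ∈ t, (f i - 1)) ≤ mulConst K L * r * s := by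
  classical
  have hnn : 0 ≤ mulConst K L * r * s := mul_nonneg (mul_nonneg mulConst_pos.le hr0) hs
  induction t using Finset.induction_on with
  | empty => simpa [coord_zero] using And.intro hs hnn
  | @insert a t ha ih =>
    obtain ⟨h1, h2⟩ := ih fun i hi => hf i (mem_insert_of_mem hi)
    have ha' := hf a (mem_insert_self a t)
    rw [prod_insert ha, sum_insert ha]
    refine ⟨coord_mul_sub_one hr0 hr ha' h1 hsr, ?_⟩
    have h : f a * ∏ i ∈ t, f i - 1 - (f a - 1 + ∑ i ∈ t, (f i - 1)) =
        (f a - 1) * (∏ i ∈ t, f i - 1) + (∏ i ∈ t, f i - 1 - ∑ i ∈ t, (f i - 1)) := by ring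
    rw [h]
    refine (coord_add _ _).trans (max_le ((coord_mul _ _).trans ?_) h2)
    exact mul_le_mul (mul_le_mul_of_nonneg_left (ha'.trans hsr) mulConst_pos.le) h1
      (coord_nonneg _) (mul_nonneg mulConst_pos.le hr0)

/-- One step of the successive approximation: replace a linear approximation by a unit one. -/
theorem coord_div_sub_one_le {x y : L} (hy0 : y ≠ 0) {s ε : ℝ} (hε : 0 ≤ ε)
    (hy : coord K (y - 1) ≤ s) (hsr : s ≤ r) (hxy : coord K (x - y) ≤ ε) :
    coord K (x * y⁻¹ - 1) ≤ ε := by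
  have h : x * y⁻¹ - 1 = (x - y) + (x - y) * (y⁻¹ - 1) := by field_simp; ring
  rw [h]
  refine (coord_add _ _).trans (max_le hxy ((coord_mul _ _).trans ?_))
  calc _ ≤ mulConst K L * ε * r :=
        mul_le_mul (mul_le_mul_of_nonneg_left hxy mulConst_pos.le)
          ((coord_inv_sub_one hr0 hr hy0 hy hsr).trans hsr) (coord_nonneg _)
          (mul_nonneg mulConst_pos.le hε)
    _ = mulConst K L * r * ε := by ring
    _ ≤ ε := mul_le_of_le_one_left hε hr.le

theorem norm_step {σ : Gal(L/K)} (hσ : ∀ g, g ∈ Subgroup.zpowers σ) (u : Lˣ) {s : ℝ}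
    (hsr : s ≤ r) (hu : coord K ((u : L) - 1) ≤ s) (hfix : diffHom K L σ u = 1) :
    ∃ y : Lˣ, y ∈ principal K L hr0 hr ∧
      coord K (((u * (normHom K L y)⁻¹ : Lˣ) : L) - 1) ≤ mulConst K L * r * s := by
  have hs : 0 ≤ s := (coord_nonneg _).trans hu
  set m : L := (u : L) - 1 with hm
  have hσu : σ (u : L) = u := by
    have := congrArg (fun w : Lˣ => (w : L)) hfix
    simp only [val_diffHom, Units.val_one] at this
    field_simp at this
    exact this
  have hgm : ∀ g : Gal(L/K), g m = m :=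
    fixed_of_generator hσ (by rw [hm, map_sub, map_one, hσu])
  have hconst : ∀ g, coordEquiv K L m g = coordEquiv K L m 1 := fun g => by
    conv_lhs => rw [← hgm g]
    rw [coordEquiv_gal, inv_mul_cancel]
  set z : L := coordEquiv K L m 1 • basisElt K L 1 with hz
  have hsum : ∑ g : Gal(L/K), g z = m := by
    conv_rhs => rw [← sum_coord (K := K) m]
    exact sum_congr rfl fun g _ => by rw [hz, map_smul, basisElt_mul, mul_one, hconst g]
  have hzc : coord K z ≤ s := by
    rw [hz, coord_smul]
    refine le_trans (mul_le_of_le_one_right (norm_nonneg _) ?_) ((norm_le_pi_norm _ 1).trans hu)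
    refine (pi_norm_le_iff_of_nonneg zero_le_one).2 fun g => ?_
    classical
    have : coordEquiv K L (basisElt K L 1) g = if (1 : Gal(L/K)) = g then 1 else 0 :=
      (IsGalois.normalBasis K L).equivFun_self 1 g
    rw [this]; split <;> simp
  have hy1 : coord K (1 + z - 1) ≤ s := by rwa [add_sub_cancel_left]
  let y : Lˣ := Units.mk0 (1 + z) (ne_zero_of_coord_sub_one hr0 hr (hy1.trans hsr))
  refine ⟨y, hy1.trans hsr, ?_⟩
  obtain ⟨hN1, hN2⟩ := coord_prod_sub_one_sub_sum hr0 hr (univ : Finset (Gal(L/K)))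
    (fun g => g (1 + z)) hs hsr (fun g _ => by rwa [coord_gal_sub_one])
  rw [Units.val_mul, Units.val_inv_eq_inv_val, val_normHom]
  refine coord_div_sub_one_le hr0 hr (prod_ne_zero_iff.2 fun g _ =>
    (map_ne_zero _).2 y.ne_zero) (mul_nonneg (mul_nonneg mulConst_pos.le hr0) hs) hN1 hsr ?_
  have hlin : ∑ g : Gal(L/K), (g (1 + z) - 1) = (u : L) - 1 := by
    simpa [map_add] using hsum
  rw [hlin] at hN2
  rw [← coord_neg]
  convert hN2 using 2
  simp only [y, Units.val_mk0]; ring

theorem diff_step {σ : Gal(L/K)} (hσ : ∀ g, g ∈ Subgroup.zpowers σ) (u : Lˣ) {s : ℝ}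
    (hsr : s ≤ r) (hu : coord K ((u : L) - 1) ≤ s) (hN : normHom K L u = 1) :
    ∃ y : Lˣ, y ∈ principal K L hr0 hr ∧
      coord K (((u * (diffHom K L σ y)⁻¹ : Lˣ) : L) - 1) ≤ mulConst K L * r * s := by
  have hs : 0 ≤ s := (coord_nonneg _).trans hu
  have hCrs : 0 ≤ mulConst K L * r * s := mul_nonneg (mul_nonneg mulConst_pos.le hr0) hs
  set m : L := (u : L) - 1 with hm
  set c := coordEquiv K L m with hc
  have hb1 : ∀ g : Gal(L/K), coord K (basisElt K L g) ≤ 1 := fun g => by
    refine (pi_norm_le_iff_of_nonneg zero_le_one).2 fun h => ?_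
    classical
    have : coordEquiv K L (basisElt K L g) h = if g = h then 1 else 0 :=
      (IsGalois.normalBasis K L).equivFun_self g h
    rw [this]; split <;> simp
  have hex : ∀ g : Gal(L/K), ∃ i : ℕ, σ ^ i = g := fun g =>
    (Submonoid.mem_powers_iff g σ).1 (mem_powers_iff_mem_zpowers.2 (hσ g))
  choose idx hidx using hex
  let w : Gal(L/K) → L := fun g => ∑ j ∈ range (idx g), basisElt K L (σ ^ j)
  have hw : ∀ g, σ (w g) - w g = basisElt K L g - basisElt K L 1 := fun g => by
    simp only [w, map_sum, basisElt_mul, ← pow_succ', ← sum_sub_distrib]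
    rw [sum_range_sub fun j => basisElt K L (σ ^ j), hidx, pow_zero]
  set W : L := ∑ g, c g • w g with hW
  have hWc : coord K W ≤ s := coord_sum_le _ _ hs fun g _ => by
    rw [coord_smul]
    refine le_trans (mul_le_of_le_one_right (norm_nonneg _) ?_) ((norm_le_pi_norm _ g).trans hu)
    exact coord_sum_le _ _ zero_le_one fun j _ => hb1 _
  have hsplit : m = (σ W - W) + (∑ g, c g) • basisElt K L 1 := by
    have : σ W - W = ∑ g, c g • (basisElt K L g - basisElt K L 1) := by
      simp only [hW, map_sum, map_smul, ← sum_sub_distrib, ← smul_sub, hw]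
    rw [this, sum_smul, ← sum_add_distrib]
    conv_lhs => rw [← sum_coord (K := K) m]
    exact sum_congr rfl fun g _ => by rw [← hc]; module
  have htr : ‖∑ g, c g‖ ≤ mulConst K L * r * s := by
    obtain ⟨-, hN2⟩ := coord_prod_sub_one_sub_sum hr0 hr (univ : Finset (Gal(L/K)))
      (fun g => g (u : L)) hs hsr (fun g _ => by rwa [coord_gal_sub_one])
    rw [← val_normHom, hN, Units.val_one, sub_self, zero_sub, coord_neg] at hN2
    refine le_trans (le_of_eq ?_) ((norm_le_pi_norm _ (1 : Gal(L/K))).trans hN2)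
    congr 1
    rw [map_sum, Finset.sum_apply]
    refine Fintype.sum_equiv (Equiv.inv _) _ _ fun g => ?_
    have : (g⁻¹ : Gal(L/K)) (u : L) - 1 = g⁻¹ m := by rw [hm, map_sub, map_one]
    rw [Equiv.inv_apply, this, coordEquiv_gal, inv_inv, mul_one]
  have hy1 : coord K (1 + W - 1) ≤ s := by rwa [add_sub_cancel_left]
  let y : Lˣ := Units.mk0 (1 + W) (ne_zero_of_coord_sub_one hr0 hr (hy1.trans hsr))
  refine ⟨y, hy1.trans hsr, ?_⟩
  have hyi := coord_inv_sub_one hr0 hr y.ne_zero hy1 hsr
  rw [Units.val_mul, Units.val_inv_eq_inv_val, val_diffHom]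
  have hσy : coord K (σ (y : L) * (y : L)⁻¹ - 1) ≤ s :=
    coord_mul_sub_one hr0 hr (by rwa [coord_gal_sub_one]) hyi hsr
  refine coord_div_sub_one_le hr0 hr
    (mul_ne_zero ((map_ne_zero _).2 y.ne_zero) (inv_ne_zero y.ne_zero)) hCrs hσy hsr ?_
  have hdiff : coord K (σ W - W) ≤ s :=
    (coord_sub _ _).trans (max_le (by rwa [coord_gal]) hWc)
  have h : (u : L) - σ (y : L) * (y : L)⁻¹ =
      (∑ g, c g) • basisElt K L 1 - (σ W - W) * ((y : L)⁻¹ - 1) := by
    have h1 : (u : L) = 1 + ((σ W - W) + (∑ g, c g) • basisElt K L 1) := by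
      rw [← hsplit, hm]; ring
    have h2 : σ (y : L) * (y : L)⁻¹ = 1 + (σ W - W) * (y : L)⁻¹ := by
      have := y.ne_zero
      simp only [y, Units.val_mk0, map_add, map_one] at this ⊢
      field_simp; ring
    rw [h1, h2]; ring
  rw [h]
  refine (coord_sub _ _).trans (max_le ?_ ((coord_mul _ _).trans ?_))
  · rw [coord_smul]
    exact (mul_le_of_le_one_right (norm_nonneg _) (hb1 1)).trans htr
  · exact (mul_le_mul (mul_le_mul_of_nonneg_left hdiff mulConst_pos.le) (hyi.trans hsr)
      (coord_nonneg _) (mul_nonneg mulConst_pos.le hs)).trans_eq (by ring)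

/-- Successive approximation: a homomorphism which approximately surjects onto its target
inside the principal units does so exactly. -/
theorem surj_of_step (F f : Lˣ →* Lˣ) (hFf : ∀ y, F (f y) = 1) (φ : L → L)
    (hφ : ∀ v ∈ principal K L hr0 hr, φ v = ((f v : Lˣ) : L))
    (hφc : ContinuousOn φ {x : L | coord K (x - 1) ≤ r})
    (hstep : ∀ (u : Lˣ) (s : ℝ), s ≤ r → coord K ((u : L) - 1) ≤ s → F u = 1 →
      ∃ y : Lˣ, y ∈ principal K L hr0 hr ∧
        coord K (((u * (f y)⁻¹ : Lˣ) : L) - 1) ≤ mulConst K L * r * s)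
    {u : Lˣ} (hu : u ∈ principal K L hr0 hr) (hFu : F u = 1) :
    u ∈ (principal K L hr0 hr).map f := by
  have hq0 : 0 ≤ mulConst K L * r := mul_nonneg mulConst_pos.le hr0
  have approx : ∀ k : ℕ, ∃ y ∈ principal K L hr0 hr,
      coord K (((u * (f y)⁻¹ : Lˣ) : L) - 1) ≤ r * (mulConst K L * r) ^ k := by
    intro k
    induction k with
    | zero => exact ⟨1, one_mem _, by simpa using (mem_principal hr0 hr).1 hu⟩
    | succ k ih =>
      obtain ⟨y, hy, hyk⟩ := ih
      have hle : r * (mulConst K L * r) ^ k ≤ r :=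
        mul_le_of_le_one_right hr0 (pow_le_one₀ hq0 hr.le)
      obtain ⟨y', hy', h'⟩ := hstep _ _ hle hyk (by simp [hFu, hFf])
      refine ⟨y * y', mul_mem hy hy', ?_⟩
      rw [map_mul, mul_inv, ← mul_assoc]
      exact h'.trans_eq (by ring)
  choose y hy hyk using approx
  have himg : IsCompact (φ '' {x : L | coord K (x - 1) ≤ r}) :=
    (isCompact_coord_ball r).image_of_continuousOn hφc
  have hlim : Filter.Tendsto (fun k => ((u * (f (y k))⁻¹ : Lˣ) : L)) Filter.atTop (nhds 1) := by
    have h0 : Filter.Tendsto (fun k => coordEquiv K L (((u * (f (y k))⁻¹ : Lˣ) : L) - 1))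
        Filter.atTop (nhds 0) :=
      squeeze_zero_norm hyk (by
        simpa using (tendsto_pow_atTop_nhds_zero_of_lt_one hq0 hr).const_mul r)
    have h1 := ((coordEquiv K L).symm.continuous.tendsto 0).comp h0
    simpa [Function.comp_def] using h1.add_const 1
  have hlim2 : Filter.Tendsto (fun k => φ (y k)) Filter.atTop (nhds (u : L)) := by
    have := ((hlim.inv₀ one_ne_zero).const_mul (u : L))
    rw [inv_one, mul_one] at this
    refine this.congr fun k => ?_
    rw [hφ _ (hy k), Units.val_mul, Units.val_inv_eq_inv_val, mul_inv, inv_inv,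
      mul_inv_cancel_left₀ u.ne_zero]
  obtain ⟨x, hx, hxu⟩ := himg.isClosed.mem_of_tendsto hlim2
    (Filter.Eventually.of_forall fun k => ⟨_, hy k, rfl⟩)
  exact ⟨Units.mk0 x (ne_zero_of_coord_sub_one hr0 hr hx), hx,
    Units.ext ((hφ (Units.mk0 x _) hx).symm.trans hxu)⟩

theorem ker_diff_inf_principal {σ : Gal(L/K)} (hσ : ∀ g, g ∈ Subgroup.zpowers σ) :
    principal K L hr0 hr ⊓ (diffHom K L σ).ker ≤ (principal K L hr0 hr).map (normHom K L) := by
  rintro u ⟨hu, hfu⟩
  exact surj_of_step hr0 hr (diffHom K L σ) (normHom K L) (diffHom_normHom σ)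
    (fun x => ∏ g : Gal(L/K), g x) (fun v _ => (val_normHom K L v).symm)
    (continuous_finsetProd _ fun g _ => continuous_gal g).continuousOn
    (fun v s => norm_step hr0 hr hσ v) hu hfu

theorem ker_norm_inf_principal {σ : Gal(L/K)} (hσ : ∀ g, g ∈ Subgroup.zpowers σ) :
    principal K L hr0 hr ⊓ (normHom K L).ker ≤ (principal K L hr0 hr).map (diffHom K L σ) := by
  rintro u ⟨hu, hNu⟩
  exact surj_of_step hr0 hr (normHom K L) (diffHom K L σ) (normHom_diffHom σ)
    (fun x => σ x * x⁻¹) (fun v _ => (val_diffHom K L σ v).symm)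
    ((continuous_gal σ).continuousOn.mul
      (continuousOn_inv₀.mono fun x hx => ne_zero_of_coord_sub_one hr0 hr hx))
    (fun v s => diff_step hr0 hr hσ v) hu hNu

theorem galUnits_mem_principal (g : Gal(L/K)) {u : Lˣ} (hu : u ∈ principal K L hr0 hr) :
    galUnits K L g u ∈ principal K L hr0 hr := by
  rw [mem_principal, val_galUnits, coord_gal_sub_one]; exact hu

theorem norm_eq_one_of_mem_principal {u : Lˣ} (hu : u ∈ principal K L hr0 hr) :
    ‖(u : L)‖ = 1 := by
  obtain ⟨M, hM⟩ := (isCompact_coord_ball (K := K) (L := L) r).isBounded.exists_norm_le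
  have key : ∀ v ∈ principal K L hr0 hr, ‖(v : L)‖ ≤ 1 := by
    intro v hv
    by_contra hlt
    obtain ⟨k, hk⟩ := pow_unbounded_of_one_lt M (not_le.1 hlt)
    have := hM ((v ^ k : Lˣ) : L) (pow_mem hv k)
    rw [Units.val_pow_eq_pow_val, norm_pow] at this
    exact absurd this (not_le.2 hk)
  refine le_antisymm (key u hu) ?_
  have := key u⁻¹ (inv_mem hu)
  rw [Units.val_inv_eq_inv_val, norm_inv] at this
  exact (inv_le_one₀ (norm_pos_iff.2 u.ne_zero)).1 this

end principal

theorem relIndex_zpowers_pow {A : Type*} [CommGroup A] {a : A}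
    (ha : ∀ i : ℤ, a ^ i = 1 → i = 0) (n : ℕ) :
    (Subgroup.zpowers (a ^ n)).relIndex (Subgroup.zpowers a) = n := by
  let φ : Multiplicative ℤ →* A := zpowersHom A a
  have hφ : Function.Injective φ := (injective_iff_map_eq_one φ).2 fun x hx => ha x.toAdd hx
  have h1 : Subgroup.zpowers a = (Subgroup.zpowers (Multiplicative.ofAdd (1 : ℤ))).map φ := by
    rw [MonoidHom.map_zpowers]; simp [φ, zpowersHom_apply]
  have h2 : Subgroup.zpowers (a ^ n) = (Subgroup.zpowers (Multiplicative.ofAdd (n : ℤ))).map φ := by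
    rw [MonoidHom.map_zpowers]; simp [φ, zpowersHom_apply]
  rw [h1, h2, Subgroup.relIndex_map_map_of_injective _ _ hφ]
  have h3 : Subgroup.zpowers (Multiplicative.ofAdd (1 : ℤ)) = ⊤ :=
    eq_top_iff.2 fun x _ => ⟨x.toAdd, by
      show Multiplicative.ofAdd (1 : ℤ) ^ x.toAdd = x
      rw [← ofAdd_zsmul, smul_eq_mul, mul_one]; rfl⟩
  have h4 : Subgroup.zpowers (Multiplicative.ofAdd (n : ℤ)) =
      AddSubgroup.toSubgroup (AddSubgroup.zmultiples (n : ℤ)) := by
    ext x; rfl
  rw [h3, Subgroup.relIndex_top_right, h4, AddSubgroup.index_toSubgroup, Int.index_zmultiples,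
    Int.natAbs_natCast]

variable (K L) in
/-- The local norm index for a cyclic extension. -/
theorem index_norm_range [IsCyclic Gal(L/K)] :
    (Units.map (Algebra.norm K : L →* K)).range.index = Module.finrank K L := by
  classical
  obtain ⟨σ, hσ⟩ := IsCyclic.exists_generator (α := Gal(L/K))
  have : ProperSpace L := FiniteDimensional.proper K L
  obtain ⟨π, hπ0, hπ1⟩ := NormedField.exists_norm_lt_one K
  set r : ℝ := 1 / (2 * mulConst K L) with hrdef
  have hrpos : 0 < r := div_pos one_pos (mul_pos two_pos mulConst_pos)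
  have hr : mulConst K L * r < 1 := by
    rw [hrdef]; field_simp [(mulConst_pos (K := K) (L := L)).ne']; norm_num
  set B := principal K L hrpos.le hr
  set ι : Kˣ →* Lˣ := Units.map (algebraMap K L : K →* L) with hι
  have hιinj : Function.Injective ι := Units.map_injective (algebraMap K L).injective
  let p : Kˣ := Units.mk0 π (norm_pos_iff.1 hπ0)
  have hnorm : ∀ i : ℤ, ‖((ι p ^ i : Lˣ) : L)‖ = ‖π‖ ^ i := fun i => by
    rw [Units.val_zpow_eq_zpow_val, norm_zpow]
    congr 1
    exact norm_algebraMap' L π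
  have hinf : ∀ i : ℤ, ι p ^ i ∈ B → i = 0 := fun i hi => by
    have := norm_eq_one_of_mem_principal hrpos.le hr hi
    rw [hnorm] at this
    exact (zpow_eq_one_iff_right₀ hπ0.le hπ1.ne).1 this
  have hσι : ∀ (g : Gal(L/K)) (a : Kˣ), galUnits K L g (ι a) = ι a := fun g a =>
    Units.ext (g.commutes (a : K))
  set f := diffHom K L σ
  set N := normHom K L
  have hfι : ∀ i : ℤ, f (ι p ^ i) = 1 := fun i => by
    rw [map_zpow]; simp [f, diffHom, hσι]
  have hn : Fintype.card Gal(L/K) = Module.finrank K L := by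
    rw [← Nat.card_eq_fintype_card, IsGalois.card_aut_eq_finrank]
  have hNι : ∀ i : ℤ, N (ι p ^ i) = (ι p ^ Module.finrank K L) ^ i := fun i => by
    rw [map_zpow]; congr 1
    simp [N, normHom_apply, hσι, hn]
  have hfB : B.map f ≤ B := Subgroup.map_le_iff_le_comap.2 fun u hu => by
    simpa [f, diffHom] using div_mem (galUnits_mem_principal hrpos.le hr σ hu) hu
  have hNB : B.map N ≤ B := Subgroup.map_le_iff_le_comap.2 fun u hu => by
    rw [Subgroup.mem_comap]
    simpa [N, normHom_apply] using prod_mem fun g _ => galUnits_mem_principal hrpos.le hr g hu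
  set A := Subgroup.zpowers (ι p) ⊔ B with hA
  have hmapf : A.map f = B.map f := by
    rw [hA, Subgroup.map_sup, MonoidHom.map_zpowers]
    have : f (ι p) = 1 := by simpa using hfι 1
    rw [this, Subgroup.zpowers_one_eq_bot, bot_sup_eq]
  have hmapN : A.map N = Subgroup.zpowers (ι p ^ Module.finrank K L) ⊔ B.map N := by
    rw [hA, Subgroup.map_sup, MonoidHom.map_zpowers]
    congr 2
    simpa using hNι 1
  have hkf : A ⊓ f.ker = Subgroup.zpowers (ι p) ⊔ B.map N := by
    refine le_antisymm ?_ (le_inf (sup_le_sup_left hNB _) (sup_le ?_ ?_))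
    · rintro u ⟨hu, hfu⟩
      obtain ⟨a, ⟨i, rfl⟩, b, hb, rfl⟩ := Subgroup.mem_sup.1 hu
      refine Subgroup.mul_mem_sup ⟨i, rfl⟩ (ker_diff_inf_principal hrpos.le hr hσ ⟨hb, ?_⟩)
      have hfu' : f (ι p ^ i * b) = 1 := hfu
      rw [map_mul, hfι, one_mul] at hfu'
      exact hfu'
    · rw [Subgroup.zpowers_le]; simpa using hfι 1
    · rw [Subgroup.map_le_iff_le_comap]
      exact fun u _ => diffHom_normHom σ u
  have hkN : A ⊓ N.ker = B.map f := by
    refine le_antisymm ?_ (le_inf (hfB.trans le_sup_right) ?_)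
    · rintro u ⟨hu, hNu⟩
      obtain ⟨a, ⟨i, rfl⟩, b, hb, rfl⟩ := Subgroup.mem_sup.1 hu
      have hNu' : N (ι p ^ i * b) = 1 := hNu
      rw [map_mul, hNι, ← zpow_natCast, ← zpow_mul] at hNu'
      have hNb : N b ∈ B := hNB ⟨b, hb, rfl⟩
      have h0 : (Module.finrank K L : ℤ) * i = 0 := hinf _ (by
        rw [eq_inv_of_mul_eq_one_left hNu']; exact inv_mem hNb)
      have hi : i = 0 := (mul_eq_zero.1 h0).resolve_left
        (Int.natCast_ne_zero.2 Module.finrank_pos.ne')
      subst hi
      simp only [mul_zero, zpow_zero, one_mul] at hNu' ⊢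
      exact ker_norm_inf_principal hrpos.le hr hσ ⟨hb, hNu'⟩
    · rw [Subgroup.map_le_iff_le_comap]
      exact fun u _ => normHom_diffHom σ u
  -- finite index
  have hfin : A.index ≠ 0 := by
    let T : Set L := {x | ‖π‖ ≤ ‖x‖ ∧ ‖x‖ ≤ 1}
    have hT : IsCompact T := (isCompact_closedBall (0 : L) 1).of_isClosed_subset
      ((isClosed_le continuous_const continuous_norm).inter
        (isClosed_le continuous_norm continuous_const))
      (fun x hx => by simpa using hx.2)
    have hTne : ∀ x : T, (x : L) ≠ 0 := fun x => norm_pos_iff.1 (hπ0.trans_le x.2.1)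
    let U : T → Set L := fun x => {y | coord K (y * (x : L)⁻¹ - 1) < r}
    have hUo : ∀ x, IsOpen (U x) := fun x => isOpen_lt
      (((coordEquiv K L).continuous.comp (by fun_prop)).norm) continuous_const
    have hcov : T ⊆ ⋃ x, U x := fun x hx => Set.mem_iUnion.2 ⟨⟨x, hx⟩, by
      have : coord K (x * x⁻¹ - 1) < r := by
        rw [mul_inv_cancel₀ (hTne ⟨x, hx⟩), sub_self, coord_zero]; exact hrpos
      exact this⟩
    obtain ⟨F, hF⟩ := hT.elim_finite_subcover U hUo hcov
    have : Finite (Lˣ ⧸ A) := by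
      refine Finite.of_surjective
        (fun x : F => (QuotientGroup.mk (Units.mk0 ((x : T) : L) (hTne x.1)) : Lˣ ⧸ A)) ?_
      intro q
      obtain ⟨u, rfl⟩ := QuotientGroup.mk_surjective q
      obtain ⟨k, hk1, hk2⟩ := exists_mem_Ioc_zpow (norm_pos_iff.2 u.ne_zero)
        ((one_lt_inv₀ hπ0).2 hπ1)
      set v : Lˣ := ι p ^ (k + 1) * u with hv
      have hvT : (v : L) ∈ T := by
        have hn' : ‖(v : L)‖ = ‖π‖ ^ (k + 1) * ‖(u : L)‖ := by
          rw [hv, Units.val_mul, norm_mul, hnorm]
        have hp : ∀ j : ℤ, (‖π‖⁻¹) ^ j * ‖π‖ ^ j = 1 := fun j => by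
          rw [← mul_zpow, inv_mul_cancel₀ hπ0.ne', one_zpow]
        refine ⟨?_, ?_⟩
        · rw [hn', zpow_add₀ hπ0.ne', zpow_one]
          calc ‖π‖ = ‖π‖ * ((‖π‖⁻¹) ^ k * ‖π‖ ^ k) := by rw [hp, mul_one]
            _ ≤ ‖π‖ * (‖(u : L)‖ * ‖π‖ ^ k) := by
                exact mul_le_mul_of_nonneg_left
                  (mul_le_mul_of_nonneg_right hk1.le (zpow_nonneg hπ0.le _)) hπ0.le
            _ = _ := by ring
        · rw [hn', ← hp (k + 1), mul_comm]
          exact mul_le_mul_of_nonneg_right hk2 (zpow_nonneg hπ0.le _)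
      obtain ⟨x, hxF, hxv⟩ := Set.mem_iUnion₂.1 (hF hvT)
      refine ⟨⟨x, hxF⟩, QuotientGroup.eq.2 ?_⟩
      have hb : (Units.mk0 (x : L) (hTne x))⁻¹ * v ∈ B := by
        rw [mem_principal, Units.val_mul, Units.val_inv_eq_inv_val, Units.val_mk0, mul_comm]
        exact le_of_lt hxv
      have he : (Units.mk0 (x : L) (hTne x))⁻¹ * u =
          (ι p ^ (k + 1))⁻¹ * ((Units.mk0 (x : L) (hTne x))⁻¹ * v) := by
        rw [hv, mul_left_comm _ (ι p ^ (k + 1)) u, inv_mul_cancel_left]
      rw [he]
      exact Subgroup.mul_mem_sup (inv_mem ⟨k + 1, rfl⟩) hb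
    exact Subgroup.index_ne_zero_of_finite
  -- Hilbert 90
  have h90 : N.ker ≤ f.range := fun u hu => by
    have h1 : Algebra.norm K (u : L) = 1 := by
      apply (algebraMap K L).injective
      rw [← val_normHom_eq_norm, MonoidHom.mem_ker.1 hu, Units.val_one, map_one]
    obtain ⟨y, hy⟩ := groupCohomology.exists_div_of_norm_eq_one hσ h1
    refine ⟨y⁻¹, Units.ext ?_⟩
    rw [val_diffHom, Units.val_inv_eq_inv_val, map_inv₀, inv_inv, ← hy, div_eq_mul_inv, mul_comm]
  have key := herbrand_cross_mul f N (diffHom_normHom σ) (normHom_diffHom σ) A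
    (hmapf.trans_le (hfB.trans le_sup_right))
    (hmapN.trans_le (sup_le ((Subgroup.zpowers_le.2 (pow_mem (Subgroup.mem_zpowers _) _)).trans
      le_sup_left) (hNB.trans le_sup_right))) hfin
  rw [hmapf, hkN, Subgroup.relIndex_self, mul_one, hmapN, hkf,
    Subgroup.relIndex_eq_one.2 h90, mul_one] at key
  have hrel : (Subgroup.zpowers (ι p ^ Module.finrank K L) ⊔ B.map N).relIndex
      (Subgroup.zpowers (ι p) ⊔ B.map N) = Module.finrank K L := by
    have hsup : Subgroup.zpowers (ι p) ⊔ B.map N =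
        Subgroup.zpowers (ι p) ⊔ (Subgroup.zpowers (ι p ^ Module.finrank K L) ⊔ B.map N) := by
      rw [← sup_assoc, sup_eq_left.2 (Subgroup.zpowers_le.2
        (pow_mem (Subgroup.mem_zpowers (ι p)) (Module.finrank K L)))]
    rw [hsup, Subgroup.relIndex_sup_right, ← Subgroup.inf_relIndex_right]
    have hint : (Subgroup.zpowers (ι p ^ Module.finrank K L) ⊔ B.map N) ⊓ Subgroup.zpowers (ι p) =
        Subgroup.zpowers (ι p ^ Module.finrank K L) := by
      refine le_antisymm ?_ (le_inf le_sup_left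
        (Subgroup.zpowers_le.2 (pow_mem (Subgroup.mem_zpowers _) _)))
      rintro u ⟨hu, j, hj⟩
      obtain ⟨a, ⟨i, rfl⟩, b, hb, rfl⟩ := Subgroup.mem_sup.1 hu
      refine ⟨i, ?_⟩
      have hb' : b = ι p ^ (j - (Module.finrank K L : ℤ) * i) := by
        have hj' : ι p ^ j = (ι p ^ Module.finrank K L) ^ i * b := hj
        rw [zpow_sub, zpow_mul, zpow_natCast, hj', mul_comm _ b]
        simp
      have h0 := hinf _ (hb' ▸ hNB hb)
      rw [h0, zpow_zero] at hb'
      simp [hb']
    rw [hint]
    exact relIndex_zpowers_pow (fun i hi => hinf i (hi ▸ one_mem _)) _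
  rw [hrel] at key
  rw [← key]
  -- transfer to `Kˣ`
  have hr1 : f.ker = (⊤ : Subgroup Kˣ).map ι := by
    refine le_antisymm (fun u hu => ?_) ?_
    · have hσu : σ (u : L) = u := by
        have := congrArg (fun w : Lˣ => (w : L)) (MonoidHom.mem_ker.1 hu)
        simp only [f, val_diffHom, Units.val_one] at this
        field_simp at this
        exact this
      have : (u : L) ∈ Set.range (algebraMap K L) :=
        (IsGalois.mem_range_algebraMap_iff_fixed (u : L)).2 fun g => fixed_of_generator hσ hσu g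
      obtain ⟨a, ha⟩ := this
      exact ⟨Units.mk0 a (by rintro rfl; exact u.ne_zero (by rw [← ha, map_zero])),
        trivial, Units.ext ha⟩
    · rintro _ ⟨a, -, rfl⟩
      simp [f, diffHom, hσι]
  have hr2 : N.range = (Units.map (Algebra.norm K : L →* K)).range.map ι := by
    rw [MonoidHom.map_range]
    congr 1
    ext u
    exact val_normHom_eq_norm K L u
  rw [hr1, hr2, Subgroup.relIndex_map_map_of_injective _ _ hιinj, Subgroup.relIndex_top_right]

end Fermat.Agent.ClassField.LocalNormIndex
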