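import Fermat.Agent.ClassField.PadicFields
import Fermat.Agent.ClassField.LocalNormIndex

/-!
# Norms of units in unramified extensions, and norm indices, inside `PadicAlgCl q`
-/

set_option autoImplicit false
set_option linter.unusedSectionVars false

noncomputable section

namespace Fermat.Agent.ClassField.PadicFields

variable {q : ℕ} [Fact q.Prime] {F F' : IntermediateField ℚ_[q] (PadicAlgCl q)}
  [FiniteDimensional ℚ_[q] F] [FiniteDimensional ℚ_[q] F'] (h : F ≤ F')

/-- The normed algebra structure of an intermediate extension. -/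
@[instance_reducible]
def extNormedAlgebra : NormedAlgebra F (IntermediateField.extendScalars h) :=
  { (inferInstance : Algebra F (IntermediateField.extendScalars h)) with
    norm_smul_le := fun x y => (norm_mul (x : PadicAlgCl q) (y : PadicAlgCl q)).le }

theorem finiteDimensional_extendScalars :
    FiniteDimensional F (IntermediateField.extendScalars h) := by
  have : FiniteDimensional ℚ_[q] (IntermediateField.extendScalars h) :=
    (inferInstance : FiniteDimensional ℚ_[q] F')
  exact FiniteDimensional.right ℚ_[q] F _

theorem index_norm_range_ext [IsGalois F (IntermediateField.extendScalars h)]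
    [IsCyclic Gal(IntermediateField.extendScalars h/F)] :
    (Units.map (Algebra.norm F : IntermediateField.extendScalars h →* F)).range.index =
      Module.finrank F (IntermediateField.extendScalars h) := by
  have := finiteDimensional_extendScalars h
  let _ := extNormedAlgebra h
  exact LocalNormIndex.index_norm_range F (IntermediateField.extendScalars h)

theorem norm_algebraNorm [IsGalois F (IntermediateField.extendScalars h)]
    (y : IntermediateField.extendScalars h) :
    ‖(Algebra.norm F y : F)‖ =
      ‖(y : PadicAlgCl q)‖ ^ Module.finrank F (IntermediateField.extendScalars h) := by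
  have := finiteDimensional_extendScalars h
  have h1 := congrArg (fun z : IntermediateField.extendScalars h => ‖(z : PadicAlgCl q)‖)
    (Algebra.norm_eq_prod_automorphisms F y)
  rw [norm_def, show ((Algebra.norm F y : F) : PadicAlgCl q) = ((algebraMap F
    (IntermediateField.extendScalars h) (Algebra.norm F y)) : PadicAlgCl q) from rfl, h1]
  push_cast
  rw [norm_prod, ← IsGalois.card_aut_eq_finrank, Nat.card_eq_fintype_card, ← Finset.card_univ,
    ← Finset.prod_const]
  refine Finset.prod_congr rfl fun g _ => ?_
  let φ : F' →ₐ[ℚ_[q]] PadicAlgCl q :=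
    ((IntermediateField.extendScalars h).val.comp g.toAlgHom).restrictScalars ℚ_[q]
  exact norm_algHom φ ⟨y.1, y.2⟩

/-- In an unramified cyclic extension every unit is the norm of a unit. -/
theorem exists_norm_eq_of_norm_one [IsGalois F (IntermediateField.extendScalars h)]
    [IsCyclic Gal(IntermediateField.extendScalars h/F)] (he : ramIdx F' = ramIdx F)
    {u : F} (hu : ‖u‖ = 1) :
    ∃ y : IntermediateField.extendScalars h, ‖(y : PadicAlgCl q)‖ = 1 ∧ Algebra.norm F y = u := by
  classical
  set d := Module.finrank F (IntermediateField.extendScalars h) with hd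
  have := finiteDimensional_extendScalars h
  have hd0 : 0 < d := Module.finrank_pos
  have hv : ∀ x : Fˣ, ∃ i : ℤ, ‖(x : F)‖ = ‖uniformizer F‖ ^ i :=
    fun x => exists_norm_eq_zpow F x.ne_zero
  choose v hv using hv
  let vh : Fˣ →* Multiplicative ℤ := MonoidHom.mk' (fun x => Multiplicative.ofAdd (v x)) fun a b => by
    refine congrArg Multiplicative.ofAdd (zpow_norm_uniformizer_inj F ?_)
    simp only [toAdd_ofAdd]
    rw [← hv, zpow_add₀ (norm_uniformizer_pos F).ne', ← hv, ← hv, Units.val_mul, norm_mul]
  have hvs : Function.Surjective vh := fun i => by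
    refine ⟨Units.mk0 (uniformizer F) (uniformizer_ne_zero F) ^ i.toAdd, ?_⟩
    refine congrArg Multiplicative.ofAdd (zpow_norm_uniformizer_inj F ?_)
    rw [← hv, Units.val_zpow_eq_zpow_val, norm_zpow]; rfl
  set R := (Units.map (Algebra.norm F : IntermediateField.extendScalars h →* F)).range
  set S := (AddSubgroup.toSubgroup (AddSubgroup.zmultiples (d : ℤ))).comap vh
  have hS : S.index = d := by
    rw [Subgroup.index_comap_of_surjective _ hvs, AddSubgroup.index_toSubgroup,
      Int.index_zmultiples, Int.natAbs_natCast]
  have hR : R.index = d := index_norm_range_ext h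
  have hunif : ‖uniformizer F'‖ = ‖uniformizer F‖ := by
    obtain ⟨i, hi⟩ := exists_norm_eq_zpow F' (x := IntermediateField.inclusion h (uniformizer F))
      ((map_ne_zero _).2 (uniformizer_ne_zero F))
    rw [norm_inclusion] at hi
    have h' := zpow_norm_uniformizer_inj F' (i := i * ramIdx F) (j := ramIdx F') (by
      rw [zpow_mul, ← hi, zpow_natCast, zpow_natCast, ← norm_q_eq, ← norm_q_eq, norm_q, norm_q])
    rw [he] at h'
    rw [hi, mul_right_cancel₀ (Int.natCast_ne_zero.2 (ramIdx_pos F).ne') (h'.trans (one_mul _).symm),
      zpow_one]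
  have hRS : R ≤ S := by
    rintro x ⟨y, rfl⟩
    obtain ⟨j, hj⟩ := exists_norm_eq_zpow F' (x := ⟨(y : IntermediateField.extendScalars h).1,
      (y : IntermediateField.extendScalars h).2⟩) fun h0 => y.ne_zero
        (Subtype.ext (congrArg (fun z : F' => (z : PadicAlgCl q)) h0))
    show Multiplicative.toAdd (vh _) ∈ AddSubgroup.zmultiples (d : ℤ)
    refine AddSubgroup.mem_zmultiples_iff.2 ⟨j, zpow_norm_uniformizer_inj F ?_⟩
    show _ = ‖uniformizer F‖ ^ v _
    rw [← hv, Units.coe_map, norm_algebraNorm h,
      show ‖((y : IntermediateField.extendScalars h) : PadicAlgCl q)‖ = _ from hj, hunif,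
      smul_eq_mul, zpow_mul, zpow_natCast]
  have hSR : S ≤ R := by
    have h1 := Subgroup.relIndex_mul_index hRS
    rw [hS, hR] at h1
    exact Subgroup.relIndex_eq_one.1 (Nat.eq_of_mul_eq_mul_right hd0 (h1.trans (one_mul d).symm))
  have hu0 : u ≠ 0 := norm_ne_zero_iff.1 (hu.trans_ne one_ne_zero)
  have huS : Units.mk0 u hu0 ∈ S := by
    show Multiplicative.toAdd (vh _) ∈ AddSubgroup.zmultiples (d : ℤ)
    refine AddSubgroup.mem_zmultiples_iff.2 ⟨0, zpow_norm_uniformizer_inj F ?_⟩
    show _ = ‖uniformizer F‖ ^ v _
    rw [← hv, zero_smul, zpow_zero]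
    exact hu.symm
  obtain ⟨y, hy⟩ := hSR huS
  have hy' : Algebra.norm F (y : IntermediateField.extendScalars h) = u := congrArg Units.val hy
  refine ⟨y, ?_, hy'⟩
  have h1 := norm_algebraNorm h (y : IntermediateField.extendScalars h)
  rw [hy', hu] at h1
  exact (pow_eq_one_iff_of_nonneg (norm_nonneg _) hd0.ne').1 h1.symm

end Fermat.Agent.ClassField.PadicFields
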