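import Mathlib.GroupTheory.Index
import Mathlib.Tactic.Ring

/-! Index form of the Herbrand quotient for a pair of annihilating endomorphisms. -/

set_option autoImplicit false

namespace Fermat.Agent.ClassField

open Subgroup

variable {A : Type*} [CommGroup A]

theorem index_eq_inf_ker_mul_map (f : A →* A) (B : Subgroup A) :
    B.relIndex f.ker * (B.map f).relIndex f.range = B.index := by
  rw [MonoidHom.range_eq_map, relIndex_map_map, top_sup_eq, relIndex_top_right,
    ← relIndex_sup_right, ← relIndex_top_right B, ← relIndex_top_right (B ⊔ f.ker)]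
  rw [sup_comm f.ker B]
  exact relIndex_mul_relIndex B (B ⊔ f.ker) ⊤ le_sup_left le_top

/-- Invariance of the Herbrand quotient under passing to a finite index stable subgroup. -/
theorem herbrand_cross_mul (f g : A →* A) (hfg : ∀ x, f (g x) = 1) (hgf : ∀ x, g (f x) = 1)
    (B : Subgroup A) (hfB : B.map f ≤ B) (hgB : B.map g ≤ B) (hB : B.index ≠ 0) :
    g.range.relIndex f.ker * (B.map f).relIndex (B ⊓ g.ker) =
      (B.map g).relIndex (B ⊓ f.ker) * f.range.relIndex g.ker := by
  have key : ∀ (f g : A →* A), (∀ x, f (g x) = 1) → B.map g ≤ B →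
      (B.map g).relIndex g.range * g.range.relIndex f.ker =
        (B.map g).relIndex (B ⊓ f.ker) * B.relIndex f.ker := by
    intro f g h hg
    have h1 : g.range ≤ f.ker := by rintro _ ⟨x, rfl⟩; exact h x
    have h2 : B.map g ≤ B ⊓ f.ker := le_inf hg ((map_le_range g B).trans h1)
    rw [relIndex_mul_relIndex _ _ _ (map_le_range g B) h1,
      ← inf_relIndex_right B f.ker, relIndex_mul_relIndex _ _ _ h2 inf_le_right]
  have e1 := key f g hfg hgB
  have e2 := key g f hgf hfB
  have i1 := index_eq_inf_ker_mul_map f B
  have i2 := index_eq_inf_ker_mul_map g B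
  set a := g.range.relIndex f.ker
  set b := f.range.relIndex g.ker
  set a' := (B.map g).relIndex (B ⊓ f.ker)
  set b' := (B.map f).relIndex (B ⊓ g.ker)
  set v := (B.map g).relIndex g.range
  set w := (B.map f).relIndex f.range
  set u := B.relIndex f.ker
  set s := B.relIndex g.ker
  apply mul_left_cancel₀ hB
  calc B.index * (a * b') = (v * a) * (s * b') := by rw [← i2]; ring
    _ = (a' * u) * (w * b) := by rw [e1, e2]; ring
    _ = B.index * (a' * b) := by rw [← i1]; ring

end Fermat.Agent.ClassField
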