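import Fermat.Agent.ClassField.PadicFields
import Mathlib.RingTheory.RootsOfUnity.PrimitiveRoots
import Mathlib.FieldTheory.Finite.GaloisField

/-!
# Roots of unity of order prime to `q` in finite extensions of `ℚ_q`

The two facts giving the theory of unramified extensions: automorphisms act on such roots of unity
through powers of the residue Frobenius, and adjoining them does not change the ramification index.
-/

set_option autoImplicit false
set_option linter.unusedSectionVars false

namespace Fermat.Agent.ClassField.PadicFields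

variable {q : ℕ} [Fact q.Prime] {n : ℕ} {ζ : PadicAlgCl q}

theorem not_dvd_pow_sub_one (hn : 0 < n) : ¬ q ∣ q ^ n - 1 := fun h => by
  have h1 : 1 ≤ q ^ n := Nat.one_le_pow _ _ (Fact.out : q.Prime).pos
  have h2 : q ∣ q ^ n - (q ^ n - 1) := Nat.dvd_sub (dvd_pow_self q hn.ne') h
  rw [show q ^ n - (q ^ n - 1) = 1 by omega] at h2
  exact (Fact.out : q.Prime).one_lt.not_ge (Nat.le_of_dvd one_pos h2)

theorem norm_root_eq_one (hn : 0 < n) (hζ : IsPrimitiveRoot ζ (q ^ n - 1)) : ‖ζ‖ = 1 := by
  have hN : q ^ n - 1 ≠ 0 := by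
    have := Nat.one_lt_pow hn.ne' (Fact.out : q.Prime).one_lt
    omega
  have h := congrArg norm hζ.pow_eq_one
  rw [norm_pow, norm_one] at h
  exact (pow_eq_one_iff_of_nonneg (norm_nonneg _) hN).1 h

/-- Congruent powers of `ζ` are equal. -/
theorem pow_eq_pow_of_norm_sub_lt (hn : 0 < n) (hζ : IsPrimitiveRoot ζ (q ^ n - 1))
    {x y : PadicAlgCl q} (hx : x ^ (q ^ n - 1) = 1) (hy : y ^ (q ^ n - 1) = 1)
    (h : ‖x - y‖ < 1) : x = y := by
  have hN : q ^ n - 1 ≠ 0 := by
    have := Nat.one_lt_pow hn.ne' (Fact.out : q.Prime).one_lt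
    omega
  have hy1 : ‖y‖ = 1 := by
    have h' := congrArg norm hy
    rw [norm_pow, norm_one] at h'
    exact (pow_eq_one_iff_of_nonneg (norm_nonneg _) hN).1 h'
  have hy0 : y ≠ 0 := norm_ne_zero_iff.1 (hy1.trans_ne one_ne_zero)
  have h' : x / y = 1 := eq_one_of_pow_eq_one (not_dvd_pow_sub_one hn)
    (by rw [div_pow, hx, hy, div_one])
    (by rwa [div_sub_one hy0, norm_div, hy1, div_one])
  exact (div_eq_one_iff_eq hy0).1 h'

variable (E : IntermediateField ℚ_[q] (PadicAlgCl q)) [FiniteDimensional ℚ_[q] E]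

/-- A field containing a primitive `(q ^ n - 1)`-th root of unity has residue degree `≥ n`. -/
theorem le_resDeg (hn : 0 < n) (hζ : IsPrimitiveRoot ζ (q ^ n - 1)) (hmem : ζ ∈ E) :
    n ≤ resDeg E := by
  have hqn : 1 < q ^ n := Nat.one_lt_pow hn.ne' (Fact.out : q.Prime).one_lt
  have hint : ∀ i : ℕ, (⟨ζ, hmem⟩ : E) ^ i ∈ integers E := fun i => by
    rw [mem_integers, norm_def, SubmonoidClass.coe_pow, norm_pow, norm_root_eq_one hn hζ, one_pow]
  let φ : Option (Fin (q ^ n - 1)) → residueField E := fun o =>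
    o.elim 0 fun i => IsLocalRing.residue (integers E) ⟨_, hint i⟩
  have hne : ∀ i : ℕ, IsLocalRing.residue (integers E) ⟨_, hint i⟩ ≠ 0 := fun i => by
    rw [Ne, IsLocalRing.residue_eq_zero_iff, mem_maximalIdeal_iff]
    simp only [norm_def, SubmonoidClass.coe_pow, norm_pow, norm_root_eq_one hn hζ, one_pow,
      lt_self_iff_false, not_false_eq_true]
  have hinj : Function.Injective φ := by
    rintro (_ | i) (_ | j) h
    · rfl
    · exact absurd h.symm (hne j)
    · exact absurd h (hne i)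
    · simp only [φ, Option.elim_some, ← sub_eq_zero (b := IsLocalRing.residue _ _), ← map_sub,
        IsLocalRing.residue_eq_zero_iff, mem_maximalIdeal_iff] at h
      have h' : ‖ζ ^ (i : ℕ) - ζ ^ (j : ℕ)‖ < 1 := by simpa [norm_def] using h
      have e := pow_eq_pow_of_norm_sub_lt hn hζ
        (by rw [← pow_mul, mul_comm, pow_mul, hζ.pow_eq_one, one_pow])
        (by rw [← pow_mul, mul_comm, pow_mul, hζ.pow_eq_one, one_pow]) h'
      exact congrArg some (Fin.ext (hζ.pow_inj i.2 j.2 e))
  have h := Nat.card_le_card_of_injective φ hinj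
  rw [natCard_residueField', Finite.card_option, Nat.card_fin, Nat.sub_add_cancel hqn.le] at h
  exact (Nat.pow_le_pow_iff_right (Fact.out : q.Prime).one_lt).1 h

/-- An automorphism of `E` restricted to the integers. -/
noncomputable def integersAut (g : E ≃ₐ[ℚ_[q]] E) : integers E →+* integers E where
  toFun x := ⟨g x, (mem_integers E).2 ((norm_algHom (E.val.comp g.toAlgHom) (x : E)).trans_le
    ((mem_integers E).1 x.2))⟩
  map_one' := Subtype.ext (map_one g)
  map_mul' _ _ := Subtype.ext (map_mul g _ _)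
  map_zero' := Subtype.ext (map_zero g)
  map_add' _ _ := Subtype.ext (map_add g _ _)

theorem coe_integersAut (g : E ≃ₐ[ℚ_[q]] E) (x : integers E) :
    ((integersAut E g x : integers E) : E) = g x := rfl

instance (g : E ≃ₐ[ℚ_[q]] E) : IsLocalHom (integersAut E g) where
  map_nonunit x hx := by
    rw [isUnit_integers_iff] at hx ⊢
    rw [coe_integersAut] at hx
    exact (norm_algHom (E.val.comp g.toAlgHom) (x : E)).symm.trans hx

/-- An automorphism fixing `F` acts on `ζ` by a power of the Frobenius of `F`. -/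
theorem exists_eq_pow_of_fixing {F : IntermediateField ℚ_[q] (PadicAlgCl q)}
    [FiniteDimensional ℚ_[q] F] (hFE : F ≤ E) (hn : 0 < n)
    (hζ : IsPrimitiveRoot ζ (q ^ n - 1)) (hmem : ζ ∈ E) (hf : resDeg F ∣ n)
    (g : E ≃ₐ[ℚ_[q]] E) (hg : ∀ x : E, (x : PadicAlgCl q) ∈ F → g x = x) :
    ∃ i < n / resDeg F, (g ⟨ζ, hmem⟩ : PadicAlgCl q) = ζ ^ q ^ (resDeg F * i) := by
  classical
  let : Algebra (residueField F) (residueField E) := (residueMap hFE).toAlgebra
  have : Fintype (residueField F) := Fintype.ofFinite _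
  let gbar : residueField E →+* residueField E := IsLocalRing.ResidueField.map (integersAut E g)
  let gA : residueField E →ₐ[residueField F] residueField E :=
    { gbar with
      commutes' := fun r => by
        obtain ⟨y, rfl⟩ := IsLocalRing.residue_surjective r
        change gbar (IsLocalRing.residue (integers E) (integersMap hFE y)) =
          IsLocalRing.residue (integers E) (integersMap hFE y)
        rw [IsLocalRing.ResidueField.map_residue]
        congr 1
        exact Subtype.ext (hg _ (y : F).2) }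
  let ge := AlgEquiv.ofBijective gA
    (Finite.injective_iff_bijective.1 (RingHom.injective gA.toRingHom))
  obtain ⟨i, hi⟩ :=
    (FiniteField.bijective_frobeniusAlgEquivOfAlgebraic_pow (residueField F) (residueField E)).2 ge
  have hz : (⟨ζ, hmem⟩ : E) ∈ integers E := by
    rw [mem_integers, norm_def, norm_root_eq_one hn hζ]
  set z : integers E := ⟨_, hz⟩
  have key : IsLocalRing.residue (integers E) (integersAut E g z) =
      IsLocalRing.residue (integers E) (z ^ q ^ (resDeg F * (i : ℕ))) := by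
    have h1 : gbar (IsLocalRing.residue (integers E) z) = ge (IsLocalRing.residue (integers E) z) :=
      rfl
    rw [IsLocalRing.ResidueField.map_residue] at h1
    rw [h1, ← hi, map_pow, AlgEquiv.coe_pow,
      FiniteField.coe_frobeniusAlgEquivOfAlgebraic_iterate, ← Nat.card_eq_fintype_card,
      natCard_residueField', pow_mul]
  rw [← sub_eq_zero, ← map_sub, IsLocalRing.residue_eq_zero_iff, mem_maximalIdeal_iff] at key
  have hlt : ‖(g ⟨ζ, hmem⟩ : PadicAlgCl q) - ζ ^ q ^ (resDeg F * (i : ℕ))‖ < 1 := by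
    simpa [norm_def, z, coe_integersAut] using key
  have hroot : (g ⟨ζ, hmem⟩ : PadicAlgCl q) ^ (q ^ n - 1) = 1 := by
    rw [← SubmonoidClass.coe_pow, ← map_pow,
      show (⟨ζ, hmem⟩ : E) ^ (q ^ n - 1) = 1 from Subtype.ext (by simpa using hζ.pow_eq_one),
      map_one]
    rfl
  have e := pow_eq_pow_of_norm_sub_lt hn hζ hroot
    (by rw [← pow_mul, mul_comm, pow_mul, hζ.pow_eq_one, one_pow]) hlt
  have hm : 0 < n / resDeg F := Nat.div_pos (Nat.le_of_dvd hn hf) (resDeg_pos F)
  refine ⟨(i : ℕ) % (n / resDeg F), Nat.mod_lt _ hm, e.trans ?_⟩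
  have hqn : (q ^ resDeg F) ^ (n / resDeg F) ≡ 1 [MOD q ^ n - 1] := by
    rw [← pow_mul, Nat.mul_div_cancel' hf]
    exact ((Nat.modEq_iff_dvd' (Nat.one_le_pow _ _ (Fact.out : q.Prime).pos)).2 dvd_rfl).symm
  refine pow_eq_pow_of_modEq ?_ hζ.pow_eq_one
  rw [pow_mul, pow_mul]
  conv_lhs => rw [← Nat.div_add_mod (i : ℕ) (n / resDeg F), pow_add, pow_mul _ (n / resDeg F)]
  simpa using (hqn.pow ((i : ℕ) / (n / resDeg F))).mul_right
    ((q ^ resDeg F) ^ ((i : ℕ) % (n / resDeg F)))

/-- Adjoining `ζ` is unramified: the degree bound forces equal ramification indices. -/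
theorem ramIdx_eq_of_finrank_le {F : IntermediateField ℚ_[q] (PadicAlgCl q)}
    [FiniteDimensional ℚ_[q] F] (hFE : F ≤ E) (hn : 0 < n)
    (hζ : IsPrimitiveRoot ζ (q ^ n - 1)) (hmem : ζ ∈ E) (hf : resDeg F ∣ n)
    (hdeg : Module.finrank ℚ_[q] E ≤ Module.finrank ℚ_[q] F * (n / resDeg F)) :
    ramIdx E = ramIdx F ∧ resDeg E = n ∧
      Module.finrank ℚ_[q] E = Module.finrank ℚ_[q] F * (n / resDeg F) := by
  rw [← ramIdx_mul_resDeg E, ← ramIdx_mul_resDeg F, mul_assoc, Nat.mul_div_cancel' hf] at hdeg ⊢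
  have h1 : ramIdx F ≤ ramIdx E := Nat.le_of_dvd (ramIdx_pos E) (ramIdx_dvd hFE)
  have h2 := le_resDeg E hn hζ hmem
  have h3 : ramIdx E = ramIdx F := by
    refine le_antisymm ?_ h1
    by_contra hlt
    exact absurd hdeg (not_le.2 ((Nat.mul_lt_mul_of_lt_of_le (not_le.1 hlt) h2 (resDeg_pos E))))
  rw [h3] at hdeg ⊢
  have h4 : resDeg E = n := le_antisymm (Nat.le_of_mul_le_mul_left hdeg (ramIdx_pos F)) h2
  exact ⟨rfl, h4, by rw [h4]⟩

end Fermat.Agent.ClassField.PadicFields
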