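import Mathlib

/-! Prime sums from bounded L-series. -/

set_option autoImplicit false

noncomputable section

open scoped NumberField nonZeroDivisors Topology
open IsDedekindDomain NumberField Filter

namespace Fermat.Agent.ClassField

namespace PrimeSum

/-- A finite product of geometric series. -/
lemma hasSum_prod_geometric (n : ℕ) : ∀ (a : Fin n → ℂ), (∀ i, ‖a i‖ < 1) →
    Summable (fun e : Fin n → ℕ => ‖∏ i, a i ^ e i‖) ∧
      HasSum (fun e : Fin n → ℕ => ∏ i, a i ^ e i) (∏ i, (1 - a i)⁻¹) := by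
  induction n with
  | zero =>
    intro a _
    refine ⟨Summable.of_finite, ?_⟩
    simpa using hasSum_fintype (fun e : Fin 0 → ℕ => ∏ i, a i ^ e i)
  | succ n ih =>
    intro a ha
    obtain ⟨h1, h2⟩ := ih (fun i => a i.succ) fun i => ha _
    let F : ℕ → ℂ := fun k => a 0 ^ k
    let G : (Fin n → ℕ) → ℂ := fun x => ∏ i : Fin n, a i.succ ^ x i
    have hF : HasSum F (1 - a 0)⁻¹ := hasSum_geometric_of_norm_lt_one (ha 0)
    have hFn : Summable fun k => ‖F k‖ := by
      simpa [F, norm_pow] using summable_geometric_of_lt_one (norm_nonneg _) (ha 0)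
    have hprod : Summable fun x : ℕ × (Fin n → ℕ) => F x.1 * G x.2 :=
      summable_mul_of_summable_norm (f := F) (g := G) hFn h1
    have hpn : Summable fun x : ℕ × (Fin n → ℕ) => ‖F x.1 * G x.2‖ := hprod.norm
    have hmul : HasSum (fun x : ℕ × (Fin n → ℕ) => F x.1 * G x.2)
        ((1 - a 0)⁻¹ * ∏ i : Fin n, (1 - a i.succ)⁻¹) :=
      HasSum.mul (f := F) (g := G) hF h2 hprod
    let e : ℕ × (Fin n → ℕ) ≃ (Fin (n + 1) → ℕ) := Fin.consEquiv fun _ : Fin (n + 1) => ℕ
    have hcomp : (fun e' : Fin (n + 1) → ℕ => ∏ i, a i ^ e' i) ∘ e =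
        fun x : ℕ × (Fin n → ℕ) => F x.1 * G x.2 := by
      funext x; simp [e, F, G, Fin.prod_univ_succ]
    constructor
    · rw [← e.summable_iff]
      refine hpn.congr fun x => ?_
      exact congrArg norm (congrFun hcomp x).symm
    · rw [Fin.prod_univ_succ, ← e.hasSum_iff, hcomp]
      exact hmul

lemma hasSum_prod_geometric' {T : Type*} [Fintype T] (a : T → ℂ) (ha : ∀ i, ‖a i‖ < 1) :
    HasSum (fun e : T → ℕ => ∏ i, a i ^ e i) (∏ i, (1 - a i)⁻¹) := by
  let σ := (Fintype.equivFin T).symm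
  have h := (hasSum_prod_geometric _ (a ∘ σ) fun i => ha _).2
  have e : (Fin (Fintype.card T) → ℕ) ≃ (T → ℕ) := Equiv.arrowCongr σ (Equiv.refl ℕ)
  rw [← σ.prod_comp (fun i => (1 - a i)⁻¹), ← (Equiv.arrowCongr σ (Equiv.refl ℕ)).hasSum_iff]
  refine h.congr_fun fun x => ?_
  simp only [Function.comp_apply]
  rw [← σ.prod_comp]
  simp

variable (K : Type*) [Field K] [NumberField K]

/-- The weight `N(I)^{-s}`. -/
def wt (s : ℝ) (I : Ideal (𝓞 K)) : ℝ := (Ideal.absNorm I : ℝ) ^ (-s)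

/-- The zeta sum over all ideals. -/
def zsum (s : ℝ) : ℝ := ∑' I : Ideal (𝓞 K), wt K s I

/-- Number of ideals of given norm. -/
def cnt (n : ℕ) : ℕ := Nat.card {I : Ideal (𝓞 K) // Ideal.absNorm I = n}

/-- The zeta sum by norm. -/
def nsum (s : ℝ) : ℝ := ∑' n : ℕ, (cnt K n : ℝ) * (n : ℝ) ^ (-s)

lemma wt_nonneg (s : ℝ) (I : Ideal (𝓞 K)) : 0 ≤ wt K s I :=
  Real.rpow_nonneg (Nat.cast_nonneg _) _

lemma dedekindZeta_eq_nsum {s : ℝ} (hs : s ≠ 0) : dedekindZeta K (s : ℂ) = (nsum K s : ℂ) := by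
  rw [dedekindZeta, LSeries, nsum, Complex.ofReal_tsum]
  refine tsum_congr fun n => ?_
  rcases eq_or_ne n 0 with rfl | hn
  · simp [LSeries.term, Real.zero_rpow (neg_ne_zero.mpr hs)]
  · rw [LSeries.term_of_ne_zero hn, div_eq_mul_inv, ← Complex.cpow_neg, ← Complex.ofReal_neg,
      Complex.ofReal_mul, Complex.ofReal_cpow (Nat.cast_nonneg n)]
    simp [cnt]

lemma tendsto_nsum :
    Tendsto (fun s : ℝ => (s - 1) * nsum K s) (𝓝[>] 1) (𝓝 (dedekindZeta_residue K)) := by
  have h' := (Complex.continuous_re.tendsto _).comp (tendsto_sub_one_mul_dedekindZeta_nhdsGT K)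
  simp only [Complex.ofReal_re] at h'
  refine h'.congr' ?_
  filter_upwards [self_mem_nhdsWithin] with s hs
  simp [dedekindZeta_eq_nsum K (show s ≠ 0 by linarith [Set.mem_Ioi.mp hs])]

lemma finite_fiber (n : ℕ) : Finite {I : Ideal (𝓞 K) // Ideal.absNorm I = n} :=
  (Ideal.finite_setOfPred_absNorm_eq n).to_subtype

lemma summable_cnt {s : ℝ} (hs : 1 < s) :
    Summable fun n : ℕ => (cnt K n : ℝ) * (n : ℝ) ^ (-s) := by
  have hev : ∀ᶠ t : ℝ in 𝓝[>] 1, (t - 1) * nsum K t ≠ 0 :=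
    (tendsto_nsum K).eventually_ne (dedekindZeta_residue_ne_zero K)
  have hlt : ∀ᶠ t : ℝ in 𝓝[>] 1, t < s := mem_nhdsWithin_of_mem_nhds (Iio_mem_nhds hs)
  obtain ⟨t, ht, hts, ht1⟩ := (hev.and (hlt.and self_mem_nhdsWithin)).exists
  have ht1' : 1 < t := ht1
  have hsum : Summable fun n : ℕ => (cnt K n : ℝ) * (n : ℝ) ^ (-t) := by
    by_contra hns
    exact ht (by rw [nsum, tsum_eq_zero_of_not_summable hns, mul_zero])
  refine hsum.of_nonneg_of_le (fun n => by positivity) fun n => ?_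
  rcases eq_or_ne n 0 with rfl | hn
  · simp [Real.zero_rpow (show -s ≠ 0 by linarith), Real.zero_rpow (show -t ≠ 0 by linarith)]
  · exact mul_le_mul_of_nonneg_left (Real.rpow_le_rpow_of_exponent_le
      (by exact_mod_cast Nat.one_le_iff_ne_zero.mpr hn) (by linarith)) (by positivity)

lemma tsum_fiber (s : ℝ) (n : ℕ) :
    ∑' I : {I : Ideal (𝓞 K) // Ideal.absNorm I = n}, wt K s I.1 =
      (cnt K n : ℝ) * (n : ℝ) ^ (-s) := by
  have := finite_fiber K n
  rw [tsum_congr (fun I : {I : Ideal (𝓞 K) // Ideal.absNorm I = n} =>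
    show wt K s I.1 = (n : ℝ) ^ (-s) by rw [wt, I.2]), tsum_const]
  simp [cnt]

lemma summable_wt {s : ℝ} (hs : 1 < s) : Summable (wt K s) := by
  rw [← (Equiv.sigmaFiberEquiv (Ideal.absNorm : Ideal (𝓞 K) → ℕ)).summable_iff,
    summable_sigma_of_nonneg (fun x => by exact wt_nonneg K s _)]
  refine ⟨fun n => ?_, ?_⟩
  · have := finite_fiber K n
    exact Summable.of_finite
  · exact (summable_cnt K hs).congr fun n => (tsum_fiber K s n).symm

lemma zsum_eq_nsum {s : ℝ} (hs : 1 < s) : zsum K s = nsum K s := by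
  rw [zsum, ← (Equiv.sigmaFiberEquiv (Ideal.absNorm : Ideal (𝓞 K) → ℕ)).tsum_eq]
  have hs' : Summable fun c : (n : ℕ) × {I : Ideal (𝓞 K) // Ideal.absNorm I = n} =>
      wt K s ((Equiv.sigmaFiberEquiv (Ideal.absNorm : Ideal (𝓞 K) → ℕ)) c) :=
    (Equiv.sigmaFiberEquiv _).summable_iff.mpr (summable_wt K hs)
  rw [hs'.tsum_sigma' fun n => (by have := finite_fiber K n; exact Summable.of_finite)]
  exact tsum_congr fun n => tsum_fiber K s n

lemma zsum_anti {s t : ℝ} (hs : 1 < s) (hst : s ≤ t) : zsum K t ≤ zsum K s := by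
  refine (summable_wt K (hs.trans_le hst)).tsum_le_tsum (fun I => ?_) (summable_wt K hs)
  rw [wt, wt]
  rcases eq_or_ne (Ideal.absNorm I) 0 with h | h
  · simp [h, Real.zero_rpow (show -s ≠ 0 by linarith), Real.zero_rpow (show -t ≠ 0 by linarith)]
  · exact Real.rpow_le_rpow_of_exponent_le
      (by exact_mod_cast Nat.one_le_iff_ne_zero.mpr h) (by linarith)

/-- The zeta sum has at most a simple pole at one. -/
lemma exists_zsum_le : ∃ C : ℝ, ∀ s ∈ Set.Ioc (1 : ℝ) 2, zsum K s ≤ C / (s - 1) := by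
  obtain ⟨δ, hδ, hsub⟩ := mem_nhdsGT_iff_exists_Ioc_subset.1
    ((tendsto_nsum K).eventually (eventually_le_nhds (lt_add_one (dedekindZeta_residue K))))
  have hδ1 : 1 < δ := hδ
  refine ⟨max (dedekindZeta_residue K + 1) (zsum K δ), fun s hs => ?_⟩
  rw [le_div_iff₀ (by linarith [hs.1]), mul_comm]
  rcases le_total s δ with h | h
  · refine le_max_of_le_left ?_
    rw [zsum_eq_nsum K hs.1]
    exact hsub ⟨hs.1, h⟩
  · refine le_max_of_le_right ?_
    have h0 : 0 ≤ zsum K s := tsum_nonneg fun I => wt_nonneg K s I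
    calc (s - 1) * zsum K s ≤ 1 * zsum K s :=
          mul_le_mul_of_nonneg_right (by linarith [hs.2]) h0
      _ ≤ zsum K δ := by rw [one_mul]; exact zsum_anti K hδ1 h

variable {K}

/-- The product ideal of an exponent vector. -/
def prodIdeal (T : Finset (HeightOneSpectrum (𝓞 K))) (e : T → ℕ) : Ideal (𝓞 K) :=
  ∏ v : T, v.1.asIdeal ^ e v

open UniqueFactorizationMonoid in
lemma count_prodIdeal (T : Finset (HeightOneSpectrum (𝓞 K))) (e : T → ℕ) (v : T) :
    (normalizedFactors (prodIdeal T e)).count v.1.asIdeal = e v := by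
  classical
  have hne : ∀ w : T, w.1.asIdeal ^ e w ≠ 0 := fun w => pow_ne_zero _ w.1.ne_bot
  have hsum : normalizedFactors (prodIdeal T e) =
      ∑ w : T, Multiset.replicate (e w) w.1.asIdeal := by
    unfold prodIdeal
    have key : ∀ U : Finset T, normalizedFactors (∏ w ∈ U, w.1.asIdeal ^ e w) =
        ∑ w ∈ U, Multiset.replicate (e w) w.1.asIdeal := by
      intro U
      induction U using Finset.induction with
      | empty => simp [← Ideal.one_eq_top]
      | insert a U ha ih =>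
        rw [Finset.prod_insert ha, Finset.sum_insert ha,
          normalizedFactors_mul (hne a) (Finset.prod_ne_zero_iff.2 fun w _ => hne w), ih,
          normalizedFactors_pow, normalizedFactors_irreducible a.1.irreducible, normalize_eq,
          Multiset.nsmul_singleton]
    exact key Finset.univ
  rw [hsum, Multiset.count_sum']
  rw [Finset.sum_eq_single v]
  · simp
  · intro w _ hw
    rw [Multiset.count_replicate, if_neg]
    exact fun h => hw (Subtype.ext (HeightOneSpectrum.ext h))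
  · simp

lemma prodIdeal_injective (T : Finset (HeightOneSpectrum (𝓞 K))) :
    Function.Injective (prodIdeal T) := fun e e' h => funext fun v => by
  classical
  rw [← count_prodIdeal T e v, h, count_prodIdeal]

open UniqueFactorizationMonoid in
lemma exists_prodIdeal_eq (I : Ideal (𝓞 K)) (hI : I ≠ ⊥) :
    ∃ T₀ : Finset (HeightOneSpectrum (𝓞 K)), ∀ T, T₀ ⊆ T → I ∈ Set.range (prodIdeal T) := by
  classical
  let f : Ideal (𝓞 K) → Option (HeightOneSpectrum (𝓞 K)) := fun P =>
    if h : P.IsPrime ∧ P ≠ ⊥ then some ⟨P, h.1, h.2⟩ else none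
  refine ⟨(normalizedFactors I).toFinset.biUnion fun P => (f P).toFinset, fun T hT => ?_⟩
  refine ⟨fun v => (normalizedFactors I).count v.1.asIdeal, ?_⟩
  have hsub : (normalizedFactors I).toFinset ⊆ T.image fun v => v.asIdeal := by
    intro P hP
    have hPp := prime_of_normalized_factor P (Multiset.mem_toFinset.1 hP)
    have h : P.IsPrime ∧ P ≠ ⊥ := ⟨Ideal.isPrime_of_prime hPp, hPp.ne_zero⟩
    refine Finset.mem_image.2 ⟨⟨P, h.1, h.2⟩, hT (Finset.mem_biUnion.2 ⟨P, hP, ?_⟩), rfl⟩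
    simp [f, h]
  rw [prodIdeal, Finset.prod_coe_sort T (fun v => v.asIdeal ^ (normalizedFactors I).count v.asIdeal),
    ← Finset.prod_image (f := fun P => P ^ (normalizedFactors I).count P)
      (fun a _ b _ h => HeightOneSpectrum.ext h),
    ← Finset.prod_multiset_count_of_subset _ _ hsub]
  exact associated_iff_eq.mp (prod_normalizedFactors hI)

variable {f : Ideal (𝓞 K) → ℂ} (fmul : ∀ I J, f (I * J) = f I * f J) (fone : f 1 = 1)
include fmul fone

lemma map_prodIdeal (T : Finset (HeightOneSpectrum (𝓞 K))) (e : T → ℕ) :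
    f (prodIdeal T e) = ∏ v : T, f v.1.asIdeal ^ e v := by
  classical
  let F : Ideal (𝓞 K) →* ℂ := { toFun := f, map_one' := fone, map_mul' := fmul }
  show F (prodIdeal T e) = _
  rw [prodIdeal, map_prod]
  simp [map_pow, F]

/-- Partial Euler products converge to the sum over all ideals. -/
lemma tendsto_euler (fbot : f ⊥ = 0) (hf : Summable fun I => ‖f I‖)
    (hlt : ∀ v : HeightOneSpectrum (𝓞 K), ‖f v.asIdeal‖ < 1) :
    Tendsto (fun T : Finset (HeightOneSpectrum (𝓞 K)) => ∏ v : T, (1 - f v.1.asIdeal)⁻¹) atTop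
      (𝓝 (∑' I, f I)) := by
  classical
  have heq : ∀ T : Finset (HeightOneSpectrum (𝓞 K)),
      ∏ v : T, (1 - f v.1.asIdeal)⁻¹ = ∑' I, (Set.range (prodIdeal T)).indicator f I := by
    intro T
    rw [← tsum_subtype, tsum_range f (prodIdeal_injective T)]
    rw [← (hasSum_prod_geometric' (fun v : T => f v.1.asIdeal) fun v => hlt _).tsum_eq]
    exact tsum_congr fun e => (map_prodIdeal fmul fone T e).symm
  simp only [heq]
  refine tendsto_tsum_of_dominated_convergence hf (fun I => ?_) (Eventually.of_forall fun T I =>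
    norm_indicator_le_norm_self f I)
  by_cases hI : I = ⊥
  · subst hI
    refine tendsto_const_nhds.congr fun T => ?_
    rw [Set.indicator_apply, fbot, ite_self]
  · obtain ⟨T₀, hT₀⟩ := exists_prodIdeal_eq I hI
    refine tendsto_const_nhds.congr' ?_
    filter_upwards [eventually_ge_atTop T₀] with T hT
    rw [Set.indicator_of_mem (hT₀ T hT)]

end PrimeSum

open PrimeSum

variable {K : Type*} [Field K] [NumberField K]

/-- Prime sums from bounded L-series. -/
theorem card_mul_tsum_le_log {ι : Type*} [Fintype ι] (i₀ : ι) (χ : ι → Ideal (𝓞 K) → ℂ)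
    (hmul : ∀ i I J, χ i (I * J) = χ i I * χ i J) (hone : ∀ i, χ i ⊤ = 1) (hle : ∀ i I, ‖χ i I‖ ≤ 1)
    (hpos : ∀ P : Ideal (𝓞 K), P.IsPrime → P ≠ ⊥ → ∀ k : ℕ, 0 < k → (∑ i, χ i P ^ k).im = 0 ∧ 0 ≤ (∑ i, χ i P ^ k).re)
    (hbdd : ∀ i, i ≠ i₀ → ∃ C : ℝ, ∀ s ∈ Set.Ioc (1 : ℝ) 2, ‖∑' I : Ideal (𝓞 K), χ i I * ((Ideal.absNorm I : ℝ) ^ (-s) : ℝ)‖ ≤ C)
    (Sp : Set (HeightOneSpectrum (𝓞 K))) (hSp : ∀ i, ∀ v ∈ Sp, χ i v.asIdeal = 1) :
    ∃ C : ℝ, ∀ s ∈ Set.Ioc (1 : ℝ) 2, (Fintype.card ι : ℝ) * ∑' v : Sp, (Ideal.absNorm (v : HeightOneSpectrum (𝓞 K)).asIdeal : ℝ) ^ (-s)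
      ≤ Real.log (1 / (s - 1)) + C := by
  classical
  obtain ⟨C₀, hC₀⟩ := exists_zsum_le K
  choose C hC using hbdd
  let B : ι → ℝ := fun i => if h : i = i₀ then 1 else max (C i h) 0
  set M : ℝ := max (C₀ * ∏ i, B i) 1
  refine ⟨Real.log M, fun s hs => ?_⟩
  have hs1 : 1 < s := hs.1
  let f : ι → Ideal (𝓞 K) → ℂ := fun i I => χ i I * ((wt K s I : ℝ) : ℂ)
  have fmul : ∀ i I J, f i (I * J) = f i I * f i J := by
    intro i I J
    have : wt K s (I * J) = wt K s I * wt K s J := by simp [wt, Real.mul_rpow]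
    simp only [f, hmul, this]; push_cast; ring
  have fone : ∀ i, f i 1 = 1 := by
    intro i
    simp [f, wt, hone i]
  have fbot : ∀ i, f i ⊥ = 0 := by
    intro i; simp [f, wt, Real.zero_rpow (show -s ≠ 0 by linarith)]
  have hnorm : ∀ i I, ‖f i I‖ ≤ wt K s I := by
    intro i I
    rw [norm_mul, Complex.norm_real, Real.norm_of_nonneg (wt_nonneg K s I)]
    exact mul_le_of_le_one_left (wt_nonneg K s I) (hle i I)
  have hfs : ∀ i, Summable fun I => ‖f i I‖ := fun i =>
    (summable_wt K hs1).of_nonneg_of_le (fun I => norm_nonneg _) (hnorm i)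
  have hwlt : ∀ v : HeightOneSpectrum (𝓞 K), wt K s v.asIdeal < 1 := by
    intro v
    refine Real.rpow_lt_one_of_one_lt_of_neg ?_ (by linarith)
    have h0 : Ideal.absNorm v.asIdeal ≠ 0 := by
      rw [Ne, Ideal.absNorm_eq_zero_iff]; exact v.ne_bot
    have h1 : Ideal.absNorm v.asIdeal ≠ 1 := by
      rw [Ne, Ideal.absNorm_eq_one_iff]; exact v.isPrime.ne_top
    exact_mod_cast (show 1 < Ideal.absNorm v.asIdeal by omega)
  have hlt : ∀ i (v : HeightOneSpectrum (𝓞 K)), ‖f i v.asIdeal‖ < 1 := fun i v =>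
    (hnorm i _).trans_lt (hwlt v)
  -- local factors
  have hloc : ∀ v : HeightOneSpectrum (𝓞 K),
      ∃ W : ℝ, 0 ≤ W ∧ (v ∈ Sp → (Fintype.card ι : ℝ) * wt K s v.asIdeal ≤ W) ∧
        ‖∏ i, (1 - f i v.asIdeal)⁻¹‖ = Real.exp W := by
    intro v
    have hsum : HasSum (fun k : ℕ => ∑ i, f i v.asIdeal ^ k / k)
        (∑ i, -Complex.log (1 - f i v.asIdeal)) :=
      hasSum_sum fun i _ => Complex.hasSum_taylorSeries_neg_log (hlt i v)
    have hre := Complex.hasSum_re hsum
    have hterm : ∀ k : ℕ, (∑ i, f i v.asIdeal ^ k / k).re =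
        (∑ i, χ i v.asIdeal ^ k).re * (wt K s v.asIdeal ^ k / k) := by
      intro k
      rw [show ∑ i, f i v.asIdeal ^ k / k =
        (∑ i, χ i v.asIdeal ^ k) * ((wt K s v.asIdeal ^ k / k : ℝ) : ℂ) by
          rw [Finset.sum_mul]; refine Finset.sum_congr rfl fun i _ => ?_
          simp only [f]; push_cast; ring]
      rw [Complex.re_mul_ofReal]
    simp only [hterm] at hre
    have hnn : ∀ k : ℕ, 0 ≤ (∑ i, χ i v.asIdeal ^ k).re * (wt K s v.asIdeal ^ k / k) := by
      intro k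
      rcases Nat.eq_zero_or_pos k with rfl | hk
      · simp
      · exact mul_nonneg (hpos _ v.isPrime v.ne_bot k hk).2
          (div_nonneg (pow_nonneg (wt_nonneg K s _) _) (Nat.cast_nonneg _))
    refine ⟨_, hre.nonneg hnn, fun hv => ?_, ?_⟩
    · refine le_trans ?_ (le_hasSum hre 1 fun k _ => hnn k)
      simp [hSp _ v hv]
    · have : ∏ i, (1 - f i v.asIdeal)⁻¹ = Complex.exp (∑ i, -Complex.log (1 - f i v.asIdeal)) := by
        rw [Complex.exp_sum]
        refine Finset.prod_congr rfl fun i _ => ?_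
        rw [Complex.exp_neg, Complex.exp_log]
        intro h
        have := hlt i v
        rw [← sub_eq_zero.1 h, norm_one] at this
        exact lt_irrefl _ this
      rw [this, Complex.norm_exp]
  choose W hW0 hWSp hW using hloc
  -- the global bound
  have hlim : Tendsto (fun T : Finset (HeightOneSpectrum (𝓞 K)) =>
      ∏ i, ‖∏ v : T, (1 - f i v.1.asIdeal)⁻¹‖) atTop (𝓝 (∏ i, ‖∑' I, f i I‖)) :=
    tendsto_finsetProd _ fun i _ =>
      (tendsto_euler (fmul i) (fone i) (fbot i) (hfs i) (hlt i)).norm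
  have hL : ∏ i, ‖∑' I, f i I‖ ≤ M / (s - 1) := by
    have hz : 0 ≤ zsum K s := tsum_nonneg fun I => wt_nonneg K s I
    have hb : ∀ i, ‖∑' I, f i I‖ ≤ (if i = i₀ then zsum K s else 1) * B i := by
      intro i
      by_cases h : i = i₀
      · simp only [h, B, dite_true, if_true, mul_one]
        exact (norm_tsum_le_tsum_norm (hfs i₀)).trans
          ((hfs i₀).tsum_le_tsum (hnorm i₀) (summable_wt K hs1))
      · simp only [h, B, dite_false, if_false, one_mul]
        exact le_max_of_le_left (hC i h s hs)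
    calc ∏ i, ‖∑' I, f i I‖ ≤ ∏ i, (if i = i₀ then zsum K s else 1) * B i :=
          Finset.prod_le_prod (fun i _ => norm_nonneg _) fun i _ => hb i
      _ = zsum K s * ∏ i, B i := by
          rw [Finset.prod_mul_distrib, Finset.prod_ite_eq' Finset.univ i₀ (fun _ => zsum K s)]
          simp
      _ ≤ C₀ / (s - 1) * ∏ i, B i := by
          refine mul_le_mul_of_nonneg_right (hC₀ s hs) (Finset.prod_nonneg fun i _ => ?_)
          by_cases h : i = i₀
          · simp [B, h]
          · simp [B, h]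
      _ ≤ M / (s - 1) := by
          rw [div_mul_eq_mul_div]
          exact div_le_div_of_nonneg_right (le_max_left _ _) (by linarith)
  have hMpos : 0 < M := lt_of_lt_of_le one_pos (le_max_right _ _)
  have hfin : ∀ T₀ : Finset Sp, (Fintype.card ι : ℝ) * ∑ v ∈ T₀, wt K s v.1.asIdeal ≤
      Real.log (1 / (s - 1)) + Real.log M := by
    intro T₀
    rw [← Real.log_mul (ne_of_gt (by have := hs.1; positivity)) hMpos.ne',
      Real.le_log_iff_exp_le (mul_pos (one_div_pos.2 (by linarith)) hMpos)]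
    refine le_trans (ge_of_tendsto hlim ?_) (hL.trans (le_of_eq (by ring)))
    filter_upwards [eventually_ge_atTop (T₀.map ⟨Subtype.val, Subtype.val_injective⟩)] with T hT
    rw [← norm_prod, Finset.prod_comm, norm_prod]
    simp only [hW]
    rw [← Real.exp_sum, Real.exp_le_exp, Finset.mul_sum,
      Finset.sum_coe_sort T (fun v => W v)]
    calc ∑ v ∈ T₀, (Fintype.card ι : ℝ) * wt K s v.1.asIdeal ≤ ∑ v ∈ T₀, W v.1 :=
          Finset.sum_le_sum fun v _ => hWSp v.1 v.2
      _ = ∑ v ∈ T₀.map ⟨Subtype.val, Subtype.val_injective⟩, W v := by rw [Finset.sum_map]; rfl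
      _ ≤ ∑ v ∈ T, W v := Finset.sum_le_sum_of_subset_of_nonneg hT fun v _ _ => hW0 v
  rw [← tsum_mul_left]
  refine tsum_le_of_sum_le' ?_ fun T₀ => ?_
  · have := hfin ∅
    simpa using this
  · rw [← Finset.mul_sum]
    exact hfin T₀

end Fermat.Agent.ClassField
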