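import Mathlib
import Fermat.Agent.ClassField.Analytic.LBound

/-! L-series of nontrivial ray class characters stay bounded near `s = 1`. -/

set_option autoImplicit false

noncomputable section

open scoped NumberField nonZeroDivisors
open IsDedekindDomain NumberField

namespace Fermat.Agent.ClassField

variable {K : Type*} [Field K] [NumberField K]

/-- L-series of nontrivial ray class characters stay bounded near `s = 1`. -/
theorem exists_bound_tsum_rayChar [IsTotallyComplex K] (m : Ideal (𝓞 K)) (hm : m ≠ ⊥) (χ : Ideal (𝓞 K) → ℂ)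
    (hmul : ∀ I J, χ (I * J) = χ I * χ J) (hzero : ∀ I, ¬ IsCoprime I m → χ I = 0)
    (hnorm : ∀ I, IsCoprime I m → ‖χ I‖ = 1)
    (hray : ∀ x y : 𝓞 K, x ≠ 0 → y ≠ 0 → x - y ∈ m → χ (Ideal.span {x}) = χ (Ideal.span {y}))
    (hne : ∃ I, IsCoprime I m ∧ χ I ≠ 1) :
    ∃ C : ℝ, ∀ s : ℝ, s ∈ Set.Ioc 1 2 → ‖∑' I : Ideal (𝓞 K), χ I * ((Ideal.absNorm I : ℝ) ^ (-s) : ℝ)‖ ≤ C := by
  have hone : χ 1 = 1 := by
    have h1 : ‖χ 1‖ = 1 := hnorm 1 isCoprime_one_left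
    have hne0 : χ 1 ≠ 0 := fun h ↦ zero_ne_one (by rw [← h1, h, norm_zero] : (0 : ℝ) = 1)
    have h2 := hmul 1 1
    rw [one_mul] at h2
    exact mul_left_cancel₀ hne0 (by rw [← h2, mul_one])
  let χ' : Ideal (𝓞 K) →* ℂ := { toFun := χ, map_one' := hone, map_mul' := hmul }
  have hχ : Analytic.IsRayChar m χ' :=
    { eq_zero := fun I h ↦ hzero I (Ideal.isCoprime_iff_sup_eq.not.mpr h)
      norm_eq_one := fun I _ h ↦ hnorm I (Ideal.isCoprime_iff_sup_eq.mpr h)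
      congr_mod := fun x y hx hy _ h ↦ hray x y hx hy h }
  have hne' : ∃ I : Ideal (𝓞 K), I ≠ ⊥ ∧ I ⊔ m = ⊤ ∧ χ' I ≠ 1 := by
    obtain ⟨I, hI, hI1⟩ := hne
    refine ⟨I, fun h ↦ hI1 ?_, Ideal.isCoprime_iff_sup_eq.mp hI, hI1⟩
    subst h
    have h1 : ‖χ ⊥‖ = 1 := hnorm ⊥ hI
    have h2 : χ ⊥ ≠ 0 := fun h ↦ by simp [h] at h1
    have h3 := hmul ⊥ ⊥
    rw [Ideal.bot_mul] at h3
    exact mul_left_cancel₀ h2 (by rw [← h3, mul_one])
  obtain ⟨C, hC⟩ := Analytic.exists_norm_tsum_lTerm_le hχ hm hne'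
  exact ⟨C, fun s hs ↦ hC s hs.1 hs.2⟩

end Fermat.Agent.ClassField
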