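import Fermat.Agent.ClassField.CochainH2

/-!
# A class trivial on a subgroup is killed by the index
-/

set_option autoImplicit false

namespace Fermat.Agent.ClassField.CochainH2

variable {G A : Type*} [Group G] [AddCommGroup A] [DistribMulAction G A]

theorem restriction_compat (H : Subgroup G) (h : H) (a : A) :
    AddMonoidHom.id A (H.subtype h • a) = h • AddMonoidHom.id A a := rfl

/-- Restriction to a subgroup. -/
def restriction (H : Subgroup G) : H2 G A →+ H2 H A :=
  map H.subtype (AddMonoidHom.id A) (restriction_compat H)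

/-- If the restriction to `H` vanishes, the index kills the class. -/
theorem index_smul_eq_zero (H : Subgroup G) [H.FiniteIndex] {z : H2 G A}
    (hz : restriction H z = 0) : H.index • z = 0 := by
  classical
  obtain ⟨f₀, rfl⟩ := mk_surjective z
  rw [restriction, map_mk_eq_zero] at hz
  obtain ⟨b, hb⟩ := hz
  let ext : G → A := fun g => if hg : g ∈ H then b ⟨g, hg⟩ else 0
  let f : Z2 G A := f₀ - ⟨d1 G A ext, d1_mem_Z2 ext⟩
  have hf0 : ∀ a a' : G, a ∈ H → a' ∈ H → (f : G × G → A) (a, a') = 0 := fun a a' ha ha' => by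
    have h := congrFun hb (⟨a, ha⟩, ⟨a', ha'⟩)
    change (a • b ⟨a', ha'⟩ - b (⟨a, ha⟩ * ⟨a', ha'⟩) + b ⟨a, ha⟩ : A) =
      (f₀ : G × G → A) (a, a') at h
    show (f₀ : G × G → A) (a, a') - (a • ext a' - ext (a * a') + ext a) = 0
    simp only [ext, dif_pos ha, dif_pos ha', dif_pos (H.mul_mem ha ha')]
    rw [← h, sub_eq_zero]
    rfl
  have hmk : mk G A f₀ = mk G A f := mk_eq_mk.2 ⟨ext, by
    show d1 G A ext = _ - ((f₀ : G × G → A) - d1 G A ext)
    rw [sub_sub_cancel]⟩
  rw [hmk, ← map_nsmul]
  have : Fintype (G ⧸ H) := Subgroup.fintypeQuotientOfFiniteIndex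
  let s : G ⧸ H → G := Quotient.out
  let h : G → G ⧸ H → G := fun g x => (s (g • x))⁻¹ * (g * s x)
  have hh : ∀ g x, h g x ∈ H := fun g x => by
    rw [← QuotientGroup.eq]
    show ((s (g • x) : G) : G ⧸ H) = ((g * s x : G) : G ⧸ H)
    rw [QuotientGroup.out_eq', show ((g * s x : G) : G ⧸ H) = g • ((s x : G) : G ⧸ H) from rfl,
      QuotientGroup.out_eq']
  have hs : ∀ g x, s (g • x) * h g x = g * s x := fun g x => mul_inv_cancel_left _ _
  set F : G × G → A := (f : G × G → A) with hF
  let B1 : G → A := fun g => ∑ x, F (g, s x)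
  let B2 : G → A := fun g => ∑ x, F (s (g • x), h g x)
  refine mk_eq_zero.2 ⟨fun g => B1 g - B2 g, funext fun p => ?_⟩
  obtain ⟨g, g'⟩ := p
  show g • (B1 g' - B2 g') - (B1 (g * g') - B2 (g * g')) + (B1 g - B2 g) =
    (((H.index • f : Z2 G A) : G × G → A)) (g, g')
  rw [AddSubgroup.coe_nsmul, Pi.smul_apply, ← hF]
  have key : ∀ x, g • F (g', s x) - F (g * g', s x) + F (g, s (g' • x)) + F (s ((g * g') • x), h (g * g') x)
      - F (s (g • g' • x), h g (g' • x)) - g • F (s (g' • x), h g' x) = F (g, g') := fun x => by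
    set t := s (g' • x) with ht
    set t' := s (g • g' • x) with ht'
    set a := h g' x with ha
    set a' := h g (g' • x) with ha'
    have e1 := f.2 g g' (s x)
    have e2 := f.2 g t a
    have e3 := f.2 t' a' a
    have ht1 : g' * s x = t * a := (hs g' x).symm
    have ht2 : g * t = t' * a' := (hs g (g' • x)).symm
    have ht3 : a' * a = h (g * g') x := by
      refine mul_left_cancel (a := t') ?_
      rw [← mul_assoc, ← ht2, mul_assoc, ← ht1, ← mul_assoc, ht', ← mul_smul]
      exact (hs (g * g') x).symm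
    rw [ht1] at e1
    rw [ht2] at e2
    rw [← hF] at e1 e2 e3
    rw [hf0 a' a (hh _ _) (hh _ _), smul_zero, zero_add, ht3] at e3
    rw [eq_sub_iff_add_eq.2 e3] at e2
    rw [← eq_sub_iff_add_eq] at e1
    have e2' : F (g, t * a) = F (t', h (g * g') x) - F (t', a') + F (g, t) - g • F (t, a) := by
      rw [e2]; abel
    rw [e1, e2', show s ((g * g') • x) = t' from by rw [ht', mul_smul]]
    abel
  have hsum := Finset.sum_congr rfl fun x (_ : x ∈ Finset.univ) => key x
  rw [Finset.sum_const, Finset.card_univ, ← Nat.card_eq_fintype_card] at hsum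
  rw [show H.index = Nat.card (G ⧸ H) from rfl, ← hsum]
  simp only [B1, B2, Finset.sum_add_distrib, Finset.sum_sub_distrib, smul_sub, Finset.smul_sum]
  rw [Fintype.sum_equiv (MulAction.toPerm g') (fun x => F (g, s (g' • x))) (fun x => F (g, s x))
      fun x => rfl,
    Fintype.sum_equiv (MulAction.toPerm g') (fun x => F (s (g • g' • x), h g (g' • x)))
      (fun x => F (s (g • x), h g x)) fun x => rfl]
  abel

end Fermat.Agent.ClassField.CochainH2
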