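import Fermat.Agent.ClassField.LocalNormIndex
import Fermat.Agent.ClassField.CyclicH2
import Mathlib.FieldTheory.Galois.IsGaloisGroup
import Mathlib.GroupTheory.PGroup

/-!
# The upper bound `#H²(L/K) ≤ [L : K]` for local `p`-extensions
-/

set_option autoImplicit false
set_option linter.unusedSectionVars false

namespace Fermat.Agent.ClassField.LocalH2

open CochainH2 Finset
open scoped Fermat.Agent.ClassField

/-- The inclusion of units, additively. -/
def unitsMap {F L : Type*} [Field F] [Field L] [Algebra F L] : Additive Fˣ →+ Additive Lˣ :=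
  (Units.map (algebraMap F L : F →* L)).toAdditive

theorem val_unitsMap {F L : Type*} [Field F] [Field L] [Algebra F L] (a : Additive Fˣ) :
    (((unitsMap (F := F) (L := L) a).toMul : Lˣ) : L) = algebraMap F L (a.toMul : F) := rfl

theorem unitsMap_injective {F L : Type*} [Field F] [Field L] [Algebra F L] :
    Function.Injective (unitsMap (F := F) (L := L)) :=
  Units.map_injective (f := (algebraMap F L : F →* L)) (algebraMap F L).injective

section cyclic

variable {F L H : Type} [NontriviallyNormedField F] [ProperSpace F] [IsUltrametricDist F]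
  [NormedField L] [NormedAlgebra F L] [FiniteDimensional F L] [IsGalois F L]
  [Group H] [MulSemiringAction H L]

/-- The invariant group of a local cyclic extension has order the degree. -/
theorem relIndex_normSum (e : H ≃* Gal(L/F)) (he : ∀ (h : H) (x : L), h • x = e h x)
    {σ : H} (hσ : ∀ g, g ∈ Submonoid.powers σ) :
    (CyclicH2.normSum (A := Additive Lˣ) σ).range.relIndex (CyclicH2.fixed (Additive Lˣ) σ) =
      Module.finrank F L := by
  classical
  have : Finite H := Finite.of_equiv _ e.symm.toEquiv
  have hτ : ∀ g : Gal(L/F), g ∈ Submonoid.powers (e σ) := fun g => by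
    obtain ⟨i, hi⟩ := hσ (e.symm g)
    exact ⟨i, by simpa using congrArg e hi⟩
  have hτ' : ∀ g : Gal(L/F), g ∈ Subgroup.zpowers (e σ) := fun g => by
    obtain ⟨i, hi⟩ := hτ g
    exact ⟨i, by simpa using hi⟩
  have hcyc : IsCyclic Gal(L/F) := ⟨⟨e σ, hτ'⟩⟩
  have hfix : CyclicH2.fixed (Additive Lˣ) σ = (⊤ : AddSubgroup (Additive Fˣ)).map unitsMap := by
    ext a
    constructor
    · intro ha
      have hσa : e σ (a.toMul : L) = (a.toMul : L) := by
        have := congrArg (fun b : Additive Lˣ => (b.toMul : L)) (show σ • a = a from ha)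
        simpa only [val_smul_additive, he] using this
      obtain ⟨y, hy⟩ := (IsGalois.mem_range_algebraMap_iff_fixed _).2
        fun g => LocalNormIndex.fixed_of_generator hτ' hσa g
      have hy0 : y ≠ 0 := fun h => a.toMul.ne_zero (by rw [← hy, h, map_zero])
      exact ⟨Additive.ofMul (Units.mk0 y hy0), trivial, Additive.toMul.injective (Units.ext hy)⟩
    · rintro ⟨b, -, rfl⟩
      refine Additive.toMul.injective (Units.ext ?_)
      rw [val_smul_additive, he, val_unitsMap, AlgEquiv.commutes]
  have hnorm : ∀ a : Additive Lˣ, CyclicH2.normSum σ a =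
      unitsMap (Additive.ofMul (Units.map (Algebra.norm F : L →* F) a.toMul)) := fun a => by
    refine Additive.toMul.injective (Units.ext ?_)
    rw [val_unitsMap, toMul_ofMul, Units.coe_map, Algebra.norm_eq_prod_automorphisms,
      CyclicH2.normSum_apply, toMul_sum, Units.coe_prod]
    have hord : orderOf σ = orderOf (e σ) := (orderOf_injective e.toMonoidHom e.injective σ).symm
    rw [hord, ← IsCyclic.image_range_orderOf hτ', Finset.prod_image fun i hi j hj =>
      pow_injOn_Iio_orderOf (by simpa using hi) (by simpa using hj)]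
    exact Finset.prod_congr rfl fun i _ => by rw [val_smul_additive, he, map_pow]
  have hrange : (CyclicH2.normSum (A := Additive Lˣ) σ).range =
      (Subgroup.toAddSubgroup (Units.map (Algebra.norm F : L →* F)).range).map unitsMap := by
    ext a
    constructor
    · rintro ⟨b, rfl⟩
      exact ⟨_, ⟨b.toMul, rfl⟩, (hnorm b).symm⟩
    · rintro ⟨b, ⟨u, hu⟩, rfl⟩
      exact ⟨Additive.ofMul u, (hnorm _).trans (congrArg _ (Additive.toMul.injective hu))⟩
  rw [hrange, hfix, AddSubgroup.relIndex_map_map_of_injective _ _ unitsMap_injective,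
    AddSubgroup.relIndex_top_right, Subgroup.index_toAddSubgroup, LocalNormIndex.index_norm_range]

theorem card_le_cyclic (e : H ≃* Gal(L/F)) (he : ∀ (h : H) (x : L), h • x = e h x)
    (hcyc : IsCyclic H) :
    Finite (H2 H (Additive Lˣ)) ∧ Nat.card (H2 H (Additive Lˣ)) ≤ Module.finrank F L := by
  have : Finite H := Finite.of_equiv _ e.symm.toEquiv
  obtain ⟨σ, hσ⟩ := IsCyclic.exists_generator (α := H)
  have hσ' : ∀ g, g ∈ Submonoid.powers σ := fun g => mem_powers_iff_mem_zpowers.2 (hσ g)
  have h := relIndex_normSum e he hσ'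
  obtain ⟨h1, h2⟩ := CyclicH2.card_le (A := Additive Lˣ) σ hσ' (isOfFinOrder_of_finite σ)
    (h ▸ Module.finrank_pos.ne')
  exact ⟨h1, h ▸ h2⟩

end cyclic

/-- `#H²(Gal(L/K), Lˣ) ≤ [L : K]` for a `p`-extension of local fields. -/
theorem card_le {p : ℕ} [Fact p.Prime] {K L : Type} [NontriviallyNormedField K] [ProperSpace K]
    [IsUltrametricDist K] [NormedField L] [IsUltrametricDist L] [NormedAlgebra K L]
    [FiniteDimensional K L] [IsGalois K L] (hp : IsPGroup p Gal(L/K)) :
    Finite (H2 Gal(L/K) (Additive Lˣ)) ∧
      Nat.card (H2 Gal(L/K) (Additive Lˣ)) ≤ Module.finrank K L := by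
  induction hn : Module.finrank K L using Nat.strong_induction_on generalizing L with
  | _ n ih =>
    by_cases htriv : Subsingleton Gal(L/K)
    · subst hn
      exact card_le_cyclic (MulEquiv.refl _) (fun _ _ => rfl) isCyclic_of_subsingleton
    rw [not_subsingleton_iff_nontrivial] at htriv
    have := hp.center_nontrivial
    obtain ⟨z, hz⟩ := exists_ne (1 : Subgroup.center Gal(L/K))
    set N : Subgroup Gal(L/K) := Subgroup.zpowers (z : Gal(L/K)) with hN
    have hzc : (z : Gal(L/K)) ∈ Subgroup.center Gal(L/K) := z.2
    have : N.Normal := ⟨fun x hx g => by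
      have hc : x ∈ Subgroup.center Gal(L/K) := (Subgroup.zpowers_le.2 hzc) hx
      rwa [Subgroup.mem_center_iff.1 hc g, mul_inv_cancel_right]⟩
    set F : IntermediateField K L := IntermediateField.fixedField N with hF
    have hker : (AlgEquiv.restrictNormalHom (F := K) (K₁ := L) F).ker = N := by
      rw [IntermediateField.restrictNormalHom_ker, hF, IntermediateField.fixingSubgroup_fixedField]
    let π : Gal(L/K) →* Gal(F/K) := AlgEquiv.restrictNormalHom F
    have hπ : Function.Surjective π := AlgEquiv.restrictNormalHom_surjective (F := K) L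
    have hι : ∀ (g : Gal(L/K)) (b : Additive (↥F)ˣ),
        unitsMap (L := L) (π g • b) = g • unitsMap b := fun g b => by
      refine Additive.toMul.injective (Units.ext ?_)
      exact AlgEquiv.restrictNormal_commutes g F _
    let _ : NontriviallyNormedField F :=
      { (inferInstance : NormedField F) with
        non_trivial := by
          obtain ⟨x, hx⟩ := NormedField.exists_one_lt_norm K
          exact ⟨algebraMap K F x, by
            show 1 < ‖algebraMap K L x‖
            rwa [norm_algebraMap']⟩ }
    let _ : NormedAlgebra F L :=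
      { (inferInstance : Algebra F L) with
        norm_smul_le := fun x y => (norm_mul (x : L) y).le }
    have : ProperSpace F := FiniteDimensional.proper K F
    have hu : IsUltrametricDist F := IsUltrametricDist.subtype _
    have hNF : F.fixingSubgroup = N := IntermediateField.fixingSubgroup_fixedField N
    let e : π.ker ≃* Gal(L/F) :=
      (MulEquiv.subgroupCongr (hker.trans hNF.symm)).trans (IntermediateField.fixingSubgroupEquiv F)
    have hcyc : IsCyclic π.ker := by
      rw [show π.ker = N from hker, hN]
      infer_instance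
    obtain ⟨hf1, hc1⟩ := card_le_cyclic (F := F) (L := L) (H := π.ker) e (fun _ _ => rfl) hcyc
    have hmul : Module.finrank K F * Module.finrank F L = Module.finrank K L :=
      Module.finrank_mul_finrank K F L
    have hlt : Module.finrank K F < n := by
      have h2 : Module.finrank F L = Nat.card N := by
        rw [hF, IntermediateField.finrank_fixedField_eq_card]
      have h3 : 1 < Nat.card N := by
        rw [Finite.one_lt_card_iff_nontrivial, hN, Subgroup.nontrivial_iff_ne_bot,
          Subgroup.zpowers_ne_bot]
        exact fun h => hz (Subtype.ext h)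
      rw [← hn, ← hmul]
      exact lt_mul_of_one_lt_right Module.finrank_pos (h2 ▸ h3)
    obtain ⟨hf2, hc2⟩ := ih _ hlt (L := F) (hp.of_surjective π hπ) rfl
    have hfix : ∀ a : Additive Lˣ, (∀ g : π.ker, (g : Gal(L/K)) • a = a) →
        a ∈ Set.range (unitsMap (F := F) (L := L)) := fun a ha => by
      have hmem : (a.toMul : L) ∈ F := by
        rw [hF, IntermediateField.mem_fixedField_iff]
        intro g hg
        exact congrArg (fun b : Additive Lˣ => (b.toMul : L)) (ha ⟨g, hker.symm ▸ hg⟩)
      exact ⟨Additive.ofMul (Units.mk0 ⟨_, hmem⟩ fun h => a.toMul.ne_zero (congrArg Subtype.val h)),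
        Additive.toMul.injective (Units.ext rfl)⟩
    have h1 : ∀ c : π.ker → Additive Lˣ, (∀ g h : π.ker, c (g * h) = (g : Gal(L/K)) • c h + c g) →
        ∃ a : Additive Lˣ, ∀ g : π.ker, c g = (g : Gal(L/K)) • a - a := fun c hc => by
      have : Fintype π.ker := Fintype.ofFinite _
      exact CyclicH2.exists_eq_smul_sub c hc
    obtain ⟨hf, hc⟩ := CochainH2.card_le (A := Additive Lˣ) π hπ unitsMap unitsMap_injective hι
      hfix h1 hf2 hf1
    refine ⟨hf, hc.trans ?_⟩
    rw [← hn, ← hmul]
    exact Nat.mul_le_mul hc2 hc1

end Fermat.Agent.ClassField.LocalH2
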