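import Fermat.Agent.ClassField.PadicUnramified
import Fermat.Agent.ClassField.LocalH2Bound
import Mathlib.RingTheory.RootsOfUnity.AlgebraicallyClosed
import Mathlib.GroupTheory.OrderOfElement

/-!
# Fundamental classes of local fields

For a finite Galois extension `L/ℚ_q` there is a class `u ∈ H²(Gal(L/ℚ_q), Lˣ)` whose restriction
to every subgroup `H` has order divisible by `#H`, hence generates `H²(P, Lˣ)` for all `p`-subgroups.
-/

set_option autoImplicit false
set_option maxHeartbeats 2000000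
set_option linter.unusedSectionVars false

noncomputable section

namespace Fermat.Agent.ClassField.LocalFundamental

open PadicFields CochainH2 Finset
open scoped Fermat.Agent.ClassField

variable {q : ℕ} [Fact q.Prime]

theorem subtype_smul_id {G A : Type} [Group G] [AddCommGroup A] [DistribMulAction G A]
    (H : Subgroup G) (h : H) (a : A) :
    AddMonoidHom.id A (H.subtype h • a) = h • AddMonoidHom.id A a := rfl

/-- Restriction of classes. -/
def resH2 {G A : Type} [Group G] [AddCommGroup A] [DistribMulAction G A] (H : Subgroup G) :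
    H2 G A →+ H2 H A :=
  map H.subtype (AddMonoidHom.id A) (subtype_smul_id H)

section frobExp

variable (E : IntermediateField ℚ_[q] (PadicAlgCl q)) [FiniteDimensional ℚ_[q] E]
  {n : ℕ} {ζ : PadicAlgCl q} (hn : 0 < n) (hζ : IsPrimitiveRoot ζ (q ^ n - 1)) (hmem : ζ ∈ E)

theorem norm_gal (g : Gal(E/ℚ_[q])) (x : E) : ‖g x‖ = ‖x‖ := norm_algHom (E.val.comp g.toAlgHom) x

include hn hζ hmem in
theorem exists_frobExp (g : Gal(E/ℚ_[q])) :
    ∃ i < n, (g ⟨ζ, hmem⟩ : PadicAlgCl q) = ζ ^ q ^ i := by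
  have h1 : resDeg (⊥ : IntermediateField ℚ_[q] (PadicAlgCl q)) = 1 := by
    have := ramIdx_mul_resDeg (⊥ : IntermediateField ℚ_[q] (PadicAlgCl q))
    rw [IntermediateField.finrank_bot] at this
    exact Nat.eq_one_of_mul_eq_one_left this
  obtain ⟨i, hi, he⟩ := exists_eq_pow_of_fixing E (F := ⊥) bot_le hn hζ hmem (by rw [h1]; exact one_dvd _)
    g fun x hx => by
      obtain ⟨y, hy⟩ := IntermediateField.mem_bot.1 hx
      rw [show x = algebraMap ℚ_[q] E y from Subtype.ext hy.symm, AlgEquiv.commutes]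
  rw [h1, Nat.div_one] at hi
  rw [h1, one_mul] at he
  exact ⟨i, hi, he⟩

/-- The exponent of Frobenius by which `g` acts on the unramified part. -/
def frobExp (g : Gal(E/ℚ_[q])) : ℕ := (exists_frobExp E hn hζ hmem g).choose

theorem frobExp_lt (g : Gal(E/ℚ_[q])) : frobExp E hn hζ hmem g < n :=
  (exists_frobExp E hn hζ hmem g).choose_spec.1

theorem frobExp_spec (g : Gal(E/ℚ_[q])) :
    (g ⟨ζ, hmem⟩ : PadicAlgCl q) = ζ ^ q ^ frobExp E hn hζ hmem g :=
  (exists_frobExp E hn hζ hmem g).choose_spec.2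

include hn hζ in
theorem exp_inj {i j : ℕ} (hi : i < n) (hj : j < n) (h : ζ ^ q ^ i = ζ ^ q ^ j) : i = j := by
  rcases Nat.lt_or_ge n 2 with h2 | h2
  · omega
  have hq := (Fact.out : q.Prime).two_le
  have hlt : ∀ i < n, q ^ i < q ^ n - 1 := fun i hi => by
    have h1 : q ^ i ≤ q ^ (n - 1) := Nat.pow_le_pow_right (by omega) (by omega)
    have h3 : q ^ n = q * q ^ (n - 1) := by rw [← pow_succ']; congr 1; omega
    have h4 : 2 * q ^ (n - 1) ≤ q * q ^ (n - 1) := Nat.mul_le_mul_right _ hq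
    have h5 : 1 < q ^ (n - 1) := Nat.one_lt_pow (by omega) (by omega)
    omega
  exact Nat.pow_right_injective hq (hζ.pow_inj (hlt i hi) (hlt j hj) h)

theorem frobExp_eq_of_pow {g : Gal(E/ℚ_[q])} {i : ℕ} (hi : i < n)
    (h : (g ⟨ζ, hmem⟩ : PadicAlgCl q) = ζ ^ q ^ i) : frobExp E hn hζ hmem g = i :=
  exp_inj hn hζ (frobExp_lt E hn hζ hmem g) hi ((frobExp_spec E hn hζ hmem g).symm.trans h)

theorem frobExp_one : frobExp E hn hζ hmem 1 = 0 :=
  frobExp_eq_of_pow E hn hζ hmem hn (by simp)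

theorem frobExp_mul (g h : Gal(E/ℚ_[q])) : frobExp E hn hζ hmem (g * h) =
    (frobExp E hn hζ hmem g + frobExp E hn hζ hmem h) % n := by
  refine frobExp_eq_of_pow E hn hζ hmem (Nat.mod_lt _ hn) ?_
  have hh : h ⟨ζ, hmem⟩ = (⟨ζ, hmem⟩ : E) ^ q ^ frobExp E hn hζ hmem h :=
    Subtype.ext (by simpa using frobExp_spec E hn hζ hmem h)
  rw [AlgEquiv.mul_apply, hh, map_pow, SubmonoidClass.coe_pow, frobExp_spec E hn hζ hmem g,
    ← pow_mul, ← pow_add]
  refine pow_eq_pow_of_modEq ?_ hζ.pow_eq_one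
  conv_lhs => rw [← Nat.div_add_mod (frobExp E hn hζ hmem g + frobExp E hn hζ hmem h) n, pow_add,
    pow_mul]
  have hqn : q ^ n ≡ 1 [MOD q ^ n - 1] :=
    ((Nat.modEq_iff_dvd' (Nat.one_le_pow _ _ (Fact.out : q.Prime).pos)).2 dvd_rfl).symm
  simpa using (hqn.pow _).mul_right
    (q ^ ((frobExp E hn hζ hmem g + frobExp E hn hζ hmem h) % n))

/-- The inertia part. -/
def expKer : Subgroup Gal(E/ℚ_[q]) where
  carrier := {g | frobExp E hn hζ hmem g = 0}
  one_mem' := frobExp_one E hn hζ hmem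
  mul_mem' := fun {a b} (ha : _ = 0) (hb : _ = 0) =>
    show _ = 0 by rw [frobExp_mul, ha, hb, add_zero, Nat.zero_mod]
  inv_mem' := fun {a} (ha : _ = 0) => show _ = 0 by
    have h := frobExp_mul E hn hζ hmem a⁻¹ a
    rw [inv_mul_cancel, frobExp_one, ha, add_zero, Nat.mod_eq_of_lt (frobExp_lt E hn hζ hmem _)] at h
    exact h.symm

theorem mem_expKer {g : Gal(E/ℚ_[q])} :
    g ∈ expKer E hn hζ hmem ↔ frobExp E hn hζ hmem g = 0 := Iff.rfl

theorem inv_mul_mem_expKer {g h : Gal(E/ℚ_[q])}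
    (hgh : frobExp E hn hζ hmem g = frobExp E hn hζ hmem h) : g⁻¹ * h ∈ expKer E hn hζ hmem := by
  have h1 := frobExp_mul E hn hζ hmem g (g⁻¹ * h)
  rw [mul_inv_cancel_left, ← hgh] at h1
  have h2 : frobExp E hn hζ hmem g ≡
      frobExp E hn hζ hmem g + frobExp E hn hζ hmem (g⁻¹ * h) [MOD n] := by
    have h3 := congrArg (· % n) h1
    simp only [Nat.mod_mod] at h3
    exact h3
  have h3 : 0 ≡ frobExp E hn hζ hmem (g⁻¹ * h) [MOD n] :=
    Nat.ModEq.add_left_cancel' (frobExp E hn hζ hmem g) (by rwa [add_zero])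
  rw [Nat.ModEq, Nat.zero_mod, Nat.mod_eq_of_lt (frobExp_lt E hn hζ hmem _)] at h3
  exact h3.symm

/-- The basic cocycle. -/
def carryCocycle : Gal(E/ℚ_[q]) × Gal(E/ℚ_[q]) → Additive (↥E)ˣ := fun p =>
  ((frobExp E hn hζ hmem p.1 + frobExp E hn hζ hmem p.2) / n) •
    Additive.ofMul (Units.mk0 (q : E) (norm_pos_iff.1 (norm_q_pos E)))

theorem carryCocycle_mem : carryCocycle E hn hζ hmem ∈ Z2 Gal(E/ℚ_[q]) (Additive (↥E)ˣ) :=
  fun g h k => by
  have hfix : g • Additive.ofMul (Units.mk0 (q : E) (norm_pos_iff.1 (norm_q_pos E))) =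
      Additive.ofMul (Units.mk0 (q : E) (norm_pos_iff.1 (norm_q_pos E))) :=
    Additive.toMul.injective (Units.ext (map_natCast g q))
  simp only [carryCocycle, frobExp_mul, smul_comm g, hfix, ← add_nsmul]
  congr 1
  set a := frobExp E hn hζ hmem g
  set b := frobExp E hn hζ hmem h
  set c := frobExp E hn hζ hmem k
  have e1 : ((a + b) % n + c) / n + (a + b) / n = (a + b + c) / n := by
    conv_rhs => rw [show a + b + c = (a + b) % n + c + n * ((a + b) / n) by
      have := Nat.mod_add_div (a + b) n; omega]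
    rw [Nat.add_mul_div_left _ _ hn]
  have e2 : (b + c) / n + (a + (b + c) % n) / n = (a + b + c) / n := by
    conv_rhs => rw [show a + b + c = a + (b + c) % n + n * ((b + c) / n) by
      have := Nat.mod_add_div (b + c) n; omega]
    rw [Nat.add_mul_div_left _ _ hn, add_comm]
  rw [e1, e2]

/-- The fixed field, as a field of algebraic numbers over `ℚ_q`. -/
def fix (H : Subgroup Gal(E/ℚ_[q])) : IntermediateField ℚ_[q] (PadicAlgCl q) :=
  IntermediateField.lift (IntermediateField.fixedField H)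

theorem fix_le (H : Subgroup Gal(E/ℚ_[q])) : fix E H ≤ E := IntermediateField.lift_le _

theorem mem_fix_iff {H : Subgroup Gal(E/ℚ_[q])} (x : E) :
    (x : PadicAlgCl q) ∈ fix E H ↔ ∀ g ∈ H, g x = x :=
  (IntermediateField.mem_lift x).trans (IntermediateField.mem_fixedField_iff H x)

theorem fix_antitone {H H' : Subgroup Gal(E/ℚ_[q])} (h : H ≤ H') : fix E H' ≤ fix E H := by
  intro x hx
  exact (mem_fix_iff E ⟨x, fix_le E H' hx⟩).2 fun g hg =>
    (mem_fix_iff E ⟨x, fix_le E H' hx⟩).1 hx g (h hg)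

instance finiteDimensional_fix (H : Subgroup Gal(E/ℚ_[q])) : FiniteDimensional ℚ_[q] (fix E H) :=
  Module.Finite.equiv (IntermediateField.liftAlgEquiv (IntermediateField.fixedField H)).toLinearEquiv

theorem finrank_fix [IsGalois ℚ_[q] E] (H : Subgroup Gal(E/ℚ_[q])) :
    Module.finrank ℚ_[q] (fix E H) * Nat.card H = Module.finrank ℚ_[q] E := by
  rw [fix, ← (IntermediateField.liftAlgEquiv (IntermediateField.fixedField H)).toLinearEquiv.finrank_eq,
    ← IntermediateField.finrank_fixedField_eq_card, Module.finrank_mul_finrank]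

/-- The unramified step over the fixed field of any subgroup. -/
theorem frobExp_image [IsGalois ℚ_[q] E] (H : Subgroup Gal(E/ℚ_[q]))
    (hf : resDeg (fix E H) ∣ n) :
    ramIdx (fix E (H ⊓ expKer E hn hζ hmem)) = ramIdx (fix E H) ∧
      resDeg (fix E (H ⊓ expKer E hn hζ hmem)) = n ∧
      (expKer E hn hζ hmem).relIndex H = n / resDeg (fix E H) ∧
      ∃ g ∈ H, frobExp E hn hζ hmem g = resDeg (fix E H) % n := by
  set f := resDeg (fix E H) with hfdef
  set H₀ := H ⊓ expKer E hn hζ hmem with hH₀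
  have hm : 0 < n / f := Nat.div_pos (Nat.le_of_dvd hn hf) (resDeg_pos _)
  have hdvd : ∀ g ∈ H, ∃ i < n / f, frobExp E hn hζ hmem g = f * i := fun g hg => by
    obtain ⟨i, hi, he⟩ := exists_eq_pow_of_fixing E (fix_le E H) hn hζ hmem hf g
      fun x hx => (mem_fix_iff E x).1 hx g hg
    refine ⟨i, hi, frobExp_eq_of_pow E hn hζ hmem ?_ he⟩
    calc f * i < f * (n / f) := Nat.mul_lt_mul_of_pos_left hi (resDeg_pos _)
      _ = n := Nat.mul_div_cancel' hf
  choose idx hidx hidx' using hdvd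
  let Φ : H ⧸ ((expKer E hn hζ hmem).subgroupOf H) → Fin (n / f) := fun c =>
    ⟨idx _ c.out.2, hidx _ c.out.2⟩
  have hinj : Function.Injective Φ := fun c c' h => by
    have e : frobExp E hn hζ hmem (c.out : H) = frobExp E hn hζ hmem (c'.out : H) := by
      rw [hidx' _ c.out.2, hidx' _ c'.out.2]
      exact congrArg (fun i : Fin (n / f) => f * (i : ℕ)) h
    rw [← Quotient.out_eq c, ← Quotient.out_eq c']
    exact Quotient.sound (QuotientGroup.leftRel_apply.2 (inv_mul_mem_expKer E hn hζ hmem e))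
  have hle : (expKer E hn hζ hmem).relIndex H ≤ n / f :=
    (Nat.card_le_card_of_injective Φ hinj).trans_eq (Nat.card_fin _)
  have hmem' : ζ ∈ fix E H₀ := (mem_fix_iff E ⟨ζ, hmem⟩).2 fun g hg => Subtype.ext (by
    rw [frobExp_spec E hn hζ hmem g, (mem_expKer E hn hζ hmem).1 hg.2, pow_zero, pow_one])
  have hcard : Nat.card H₀ * (expKer E hn hζ hmem).relIndex H = Nat.card H := by
    rw [← Subgroup.inf_relIndex_left, ← hH₀]
    have h := Subgroup.relIndex_mul_relIndex ⊥ H₀ H bot_le inf_le_left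
    rwa [Subgroup.relIndex_bot_left, Subgroup.relIndex_bot_left] at h
  have hpos : 0 < Nat.card H₀ := Nat.card_pos
  have hrel : Module.finrank ℚ_[q] (fix E H₀) =
      Module.finrank ℚ_[q] (fix E H) * (expKer E hn hζ hmem).relIndex H := by
    apply Nat.eq_of_mul_eq_mul_right hpos
    rw [finrank_fix, mul_assoc, mul_comm ((expKer E hn hζ hmem).relIndex H), hcard, finrank_fix]
  obtain ⟨h1, h2, h3⟩ := ramIdx_eq_of_finrank_le (fix E H₀) (fix_antitone E inf_le_left) hn hζ
    hmem' hf (hrel.trans_le (Nat.mul_le_mul_left _ hle))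
  have heq : (expKer E hn hζ hmem).relIndex H = n / f :=
    Nat.eq_of_mul_eq_mul_left Module.finrank_pos (hrel.symm.trans h3)
  refine ⟨h1, h2, heq, ?_⟩
  have hbij : Function.Bijective Φ :=
    (Nat.bijective_iff_injective_and_card Φ).2 ⟨hinj, by rw [Nat.card_fin]; exact heq⟩
  obtain ⟨c, hc⟩ := hbij.2 ⟨1 % (n / f), Nat.mod_lt _ hm⟩
  refine ⟨c.out, c.out.2, ?_⟩
  rw [hidx' _ c.out.2, show idx _ c.out.2 = 1 % (n / f) from congrArg Fin.val hc]
  rcases Nat.lt_or_ge 1 (n / f) with h | h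
  · rw [Nat.mod_eq_of_lt h, mul_one, Nat.mod_eq_of_lt]
    calc f = f * 1 := (mul_one f).symm
      _ < f * (n / f) := Nat.mul_lt_mul_of_pos_left h (resDeg_pos _)
      _ = n := Nat.mul_div_cancel' hf
  · have h' : n / f = 1 := by omega
    have hfn : f = n := by rw [← Nat.mul_div_cancel' hf, h', mul_one]
    rw [h', Nat.mod_one, mul_zero, hfn, Nat.mod_self]

theorem norm_uniformizer_eq {F F' : IntermediateField ℚ_[q] (PadicAlgCl q)} [FiniteDimensional ℚ_[q] F]
    [FiniteDimensional ℚ_[q] F'] (hle : F ≤ F') (he : ramIdx F' = ramIdx F) :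
    ‖uniformizer F'‖ = ‖uniformizer F‖ := by
  obtain ⟨i, hi⟩ := exists_norm_eq_zpow F' (x := IntermediateField.inclusion hle (uniformizer F))
    ((map_ne_zero _).2 (uniformizer_ne_zero F))
  rw [norm_inclusion] at hi
  have h : ‖uniformizer F'‖ ^ (i * ramIdx F) = ‖uniformizer F'‖ ^ (ramIdx F' : ℤ) := by
    rw [zpow_mul, ← hi, zpow_natCast, zpow_natCast, ← norm_q_eq, ← norm_q_eq, norm_q, norm_q]
  have h' := zpow_norm_uniformizer_inj F' h
  rw [he] at h'
  have hi1 : i = 1 := by
    have he0 : (ramIdx F : ℤ) ≠ 0 := Int.natCast_ne_zero.2 (ramIdx_pos F).ne'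
    exact mul_right_cancel₀ he0 (h'.trans (one_mul _).symm)
  rw [hi, hi1, zpow_one]

/-- The basic class dies on a subgroup with trivial inertia part and fixed field of degree `n`. -/
theorem restriction_eq_zero [IsGalois ℚ_[q] E] (N : Subgroup Gal(E/ℚ_[q]))
    (hN0 : N ⊓ expKer E hn hζ hmem = ⊥) (hfN : resDeg (fix E N) ∣ n)
    (h2 : Module.finrank ℚ_[q] (fix E N) = n) :
    resH2 N (mk _ _ ⟨_, carryCocycle_mem E hn hζ hmem⟩) = 0 := by
  classical
  set c₀ : Z2 Gal(E/ℚ_[q]) (Additive (↥E)ˣ) := ⟨_, carryCocycle_mem E hn hζ hmem⟩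
  show map N.subtype (AddMonoidHom.id _) _ (mk _ _ c₀) = 0
  obtain ⟨heN, -, hrel, τ, hτN, hτ⟩ := frobExp_image E hn hζ hmem N hfN
  rw [hN0] at heN
  rw [← Subgroup.inf_relIndex_left, hN0, Subgroup.relIndex_bot_left] at hrel
  set f := resDeg (fix E N) with hf
  set d := n / f with hd
  have hfd : f * d = n := Nat.mul_div_cancel' hfN
  have hNinj : ∀ g ∈ N, ∀ h ∈ N,
      frobExp E hn hζ hmem g = frobExp E hn hζ hmem h → g = h := fun g hg h hh e => by
    have : g⁻¹ * h ∈ N ⊓ expKer E hn hζ hmem :=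
      ⟨N.mul_mem (N.inv_mem hg) hh, inv_mul_mem_expKer E hn hζ hmem e⟩
    rw [hN0, Subgroup.mem_bot, inv_mul_eq_one] at this
    exact this
  set t : N := ⟨τ, hτN⟩
  have hpow : ∀ i : ℕ, frobExp E hn hζ hmem ((t ^ i : N) : Gal(E/ℚ_[q])) = f * i % n := fun i => by
    induction i with
    | zero => simp [frobExp_one]
    | succ i ih =>
      rw [pow_succ, Subgroup.coe_mul, frobExp_mul, ih, hτ, ← Nat.add_mod, mul_add, mul_one]
  have hgen : ∀ g : N, g ∈ Submonoid.powers t := fun g => by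
    obtain ⟨i, hi, he⟩ := exists_eq_pow_of_fixing E (fix_le E N) hn hζ hmem hfN g
      fun x hx => (mem_fix_iff E x).1 hx g g.2
    refine ⟨i, Subtype.ext (hNinj _ (t ^ i).2 _ g.2 ?_)⟩
    have hlt : f * i < n := hfd ▸ Nat.mul_lt_mul_of_pos_left hi (resDeg_pos _)
    rw [hpow, frobExp_eq_of_pow E hn hζ hmem hlt he, Nat.mod_eq_of_lt hlt]
  have hord : orderOf t = d := by
    rw [← Nat.card_zpowers, ← hrel]
    have htop : Subgroup.zpowers t = ⊤ := eq_top_iff.2 fun g _ => by
      obtain ⟨i, hi⟩ := hgen g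
      exact ⟨i, by simpa using hi⟩
    rw [htop, Subgroup.card_top]
  have hd0 : 0 < d := hord ▸ orderOf_pos t
  rw [map_mk, CyclicH2.mk_eq_zero_iff t hgen (isOfFinOrder_of_finite t), CyclicH2.inv_apply, hord]
  set Q := Additive.ofMul (Units.mk0 (q : E) (norm_pos_iff.1 (norm_q_pos E)))
  have hsum : (∑ i ∈ range d, cochainMap N.subtype (AddMonoidHom.id _)
      (c₀ : Gal(E/ℚ_[q]) × Gal(E/ℚ_[q]) → _) (t ^ i, t)) = (if d = 1 then 0 else 1) • Q := by
    simp only [cochainMap_apply, Subgroup.coe_subtype, AddMonoidHom.id_apply]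
    show (∑ i ∈ range d, ((frobExp E hn hζ hmem ((t ^ i : N) : Gal(E/ℚ_[q])) +
      frobExp E hn hζ hmem τ) / n) • Q) = _
    simp only [hpow, hτ, ← Finset.sum_smul]
    congr 1
    split_ifs with h1
    · rw [h1, mul_one] at hfd
      simp [h1, hfd]
    · have hfn : f < n :=
        calc f = f * 1 := (mul_one f).symm
          _ < f * d := Nat.mul_lt_mul_of_pos_left (by omega) (resDeg_pos _)
          _ = n := hfd
      rw [Nat.mod_eq_of_lt hfn]
      have hterm : ∀ i ∈ range d, (f * i % n + f) / n = if i = d - 1 then 1 else 0 := fun i hi => by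
        rw [Finset.mem_range] at hi
        have h2 : f * i + f ≤ n :=
          calc f * i + f = f * (i + 1) := by ring
            _ ≤ f * d := Nat.mul_le_mul_left f hi
            _ = n := hfd
        rw [Nat.mod_eq_of_lt (show f * i < n by
          have := resDeg_pos (fix E N); omega)]
        split_ifs with h3
        · rw [show f * i + f = n by rw [h3, ← mul_add_one, Nat.sub_add_cancel (show 1 ≤ d from hd0), hfd],
            Nat.div_self hn]
        · apply Nat.div_eq_of_lt
          calc f * i + f = f * (i + 1) := by ring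
            _ < f * d := Nat.mul_lt_mul_of_pos_left (by omega) (resDeg_pos _)
            _ = n := hfd
      rw [Finset.sum_congr rfl hterm, Finset.sum_ite_eq' (range d) (d - 1) fun _ => 1]
      simp [Finset.mem_range, hd0]
  refine hsum ▸ AddSubgroup.nsmul_mem _ ?_ _
  -- `q` is a norm from `E` to `L`
  let F := fix E N
  let : Algebra F E := (IntermediateField.inclusion (fix_le E N)).toAlgebra
  have : IsScalarTower ℚ_[q] F E :=
    IsScalarTower.of_algebraMap_eq fun x => ((IntermediateField.inclusion (fix_le E N)).commutes x).symm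
  let : NormedAlgebra F E :=
    { (inferInstance : Algebra F E) with
      norm_smul_le := fun x y => by
        rw [Algebra.smul_def]
        exact (norm_mul _ _).le }
  have : FiniteDimensional F E := FiniteDimensional.right ℚ_[q] F E
  have : IsGalois F E := IsGalois.tower_top_of_isGalois ℚ_[q] F E
  let toF : N →* Gal(E/F) :=
    { toFun := fun g =>
        { (g : Gal(E/ℚ_[q])) with
          commutes' := fun x => (mem_fix_iff E _).1 x.2 g g.2 }
      map_one' := rfl
      map_mul' := fun _ _ => rfl }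
  have hbij : Function.Bijective toF := by
    refine ⟨fun g h e => Subtype.ext (AlgEquiv.ext fun x => DFunLike.congr_fun e x), ?_⟩
    have hinj : Function.Injective toF :=
      fun g h e => Subtype.ext (AlgEquiv.ext fun x => DFunLike.congr_fun e x)
    refine ((Nat.bijective_iff_injective_and_card toF).2 ⟨hinj, ?_⟩).2
    apply Nat.eq_of_mul_eq_mul_left (show 0 < Module.finrank ℚ_[q] F from Module.finrank_pos)
    rw [finrank_fix, IsGalois.card_aut_eq_finrank, Module.finrank_mul_finrank]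
  have hri := LocalH2.relIndex_normSum (H := N) (L := E) (MulEquiv.ofBijective toF hbij)
    (fun _ _ => rfl) hgen
  have hdeg : Module.finrank F E = d := by
    rw [← IsGalois.card_aut_eq_finrank F E, ← Nat.card_eq_of_bijective toF hbij, hrel]
  set X := CyclicH2.fixed (Additive (↥E)ˣ) t
  have hfixX : ∀ a : Additive (↥E)ˣ, a ∈ X → (((a.toMul : (↥E)ˣ) : E) : PadicAlgCl q) ∈ F :=
      fun a ha => by
    refine (mem_fix_iff E _).2 fun g hg => ?_
    obtain ⟨i, hi⟩ := hgen ⟨g, hg⟩
    have h : (⟨g, hg⟩ : N) • a = a := by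
      rw [← hi]
      clear hi
      show t ^ i • a = a
      induction i with
      | zero => simp
      | succ i ih => rw [pow_succ, mul_smul, show t • a = a from ha, ih]
    exact congrArg (fun b : Additive (↥E)ˣ => ((b.toMul : (↥E)ˣ) : E)) h
  have hv : ∀ a : X, ∃ i : ℤ, ‖(((a : Additive (↥E)ˣ).toMul : (↥E)ˣ) : E)‖ = ‖uniformizer F‖ ^ i :=
    fun a => exists_norm_eq_zpow F (x := ⟨_, hfixX _ a.2⟩)
      fun h => (a : Additive (↥E)ˣ).toMul.ne_zero (Subtype.ext (congrArg (fun y : F => (y : PadicAlgCl q)) h))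
  choose v hv using hv
  have hvadd : ∀ a b : X, v (a + b) = v a + v b := fun a b =>
    zpow_norm_uniformizer_inj F (by
      rw [← hv, zpow_add₀ (norm_uniformizer_pos F).ne', ← hv, ← hv, ← norm_mul]; rfl)
  let vh : X →+ ℤ := AddMonoidHom.mk' v hvadd
  have hvs : Function.Surjective vh := by
    intro i
    let w : Additive (↥E)ˣ := i • Additive.ofMul (Units.mk0 (algebraMap F E (uniformizer F))
      ((map_ne_zero _).2 (uniformizer_ne_zero F)))
    have hw : w ∈ X := by
      refine X.zsmul_mem (show t • _ = _ from Additive.toMul.injective (Units.ext ?_)) i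
      exact (mem_fix_iff E _).1 (uniformizer F).2 τ hτN
    refine ⟨⟨w, hw⟩, zpow_norm_uniformizer_inj F ?_⟩
    show ‖uniformizer F‖ ^ v ⟨w, hw⟩ = _
    rw [← hv]
    simp only [w, toMul_zsmul, toMul_ofMul, Units.val_zpow_eq_zpow_val, Units.val_mk0, norm_zpow]
    rfl
  set S := ((AddSubgroup.zmultiples (d : ℤ)).comap vh).map X.subtype
  have hS : S.relIndex X = d := by
    rw [← X.range_subtype, AddMonoidHom.range_eq_map,
      AddSubgroup.relIndex_map_map_of_injective _ _ X.subtype_injective,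
      AddSubgroup.relIndex_top_right, AddSubgroup.index_comap_of_surjective _ hvs,
      Int.index_zmultiples, Int.natAbs_natCast]
  set R := (CyclicH2.normSum (A := Additive (↥E)ˣ) t).range
  have hRS : R ≤ S := by
    rintro _ ⟨b, rfl⟩
    refine ⟨⟨_, CyclicH2.smul_normSum t b⟩, ?_, rfl⟩
    have hb0 : (b.toMul : E) ≠ 0 := b.toMul.ne_zero
    obtain ⟨j, hj⟩ := exists_norm_eq_zpow E hb0
    have hunif : ‖uniformizer E‖ = ‖uniformizer F‖ := by
      refine norm_uniformizer_eq (fix_le E N) ?_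
      have hbot : fix E (⊥ : Subgroup Gal(E/ℚ_[q])) = E :=
        le_antisymm (fix_le E ⊥) fun x hx => (mem_fix_iff E ⟨x, hx⟩).2 fun g hg => by
          rw [Subgroup.mem_bot.1 hg]; rfl
      have key : ∀ (A B : IntermediateField ℚ_[q] (PadicAlgCl q)) (_ : FiniteDimensional ℚ_[q] A)
          (_ : FiniteDimensional ℚ_[q] B), A = B → ramIdx A = ramIdx B := by
        rintro A B _ _ rfl; rfl
      exact (key _ _ inferInstance inferInstance hbot).symm.trans heN
    rw [SetLike.mem_coe, AddSubgroup.mem_comap, AddSubgroup.mem_zmultiples_iff]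
    refine ⟨j, zpow_norm_uniformizer_inj F ?_⟩
    show _ = ‖uniformizer F‖ ^ v _
    rw [← hv]
    show _ = ‖(((CyclicH2.normSum t b).toMul : (↥E)ˣ) : E)‖
    rw [CyclicH2.normSum_apply, toMul_sum, Units.coe_prod, norm_prod, hord,
      Finset.prod_congr rfl fun i _ => show ‖(((t ^ i • b).toMul : (↥E)ˣ) : E)‖ = ‖(b.toMul : E)‖
        from norm_gal E _ _, Finset.prod_const, Finset.card_range, hj, hunif, smul_eq_mul,
      zpow_mul, zpow_natCast]
  have hSR : S ≤ R := by
    have h1 := AddSubgroup.relIndex_mul_relIndex R S X hRS (by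
      rintro _ ⟨a, -, rfl⟩; exact a.2)
    rw [hS, show R.relIndex X = d from hri.trans hdeg] at h1
    exact AddSubgroup.relIndex_eq_one.1 (Nat.eq_of_mul_eq_mul_right hd0 (h1.trans (one_mul d).symm))
  apply hSR
  have hQX : Q ∈ X := Additive.toMul.injective (Units.ext (map_natCast (τ : Gal(E/ℚ_[q])) q))
  refine ⟨⟨Q, hQX⟩, ?_, rfl⟩
  rw [SetLike.mem_coe, AddSubgroup.mem_comap, AddSubgroup.mem_zmultiples_iff]
  refine ⟨1, zpow_norm_uniformizer_inj F ?_⟩
  show _ = ‖uniformizer F‖ ^ v _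
  rw [← hv, one_zsmul, zpow_natCast]
  show _ = ‖(q : E)‖
  rw [norm_q, ← norm_q (F := F), norm_q_eq]
  congr 1
  have h := ramIdx_mul_resDeg F
  rw [show Module.finrank ℚ_[q] F = n from h2, ← hfd, mul_comm f d] at h
  exact (Nat.eq_of_mul_eq_mul_right (resDeg_pos F) h).symm

/-- A multiple of the basic class dying on `H'` is divisible by `n / [fixed field : ℚ_q]`. -/
theorem dvd_of_restriction_zero [IsGalois ℚ_[q] E] (H' : Subgroup Gal(E/ℚ_[q]))
    (hfH : resDeg (fix E H') ∣ n) {h₀ : ℕ}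
    (hcard : Module.finrank ℚ_[q] (fix E H') * h₀ = n) (k : ℤ)
    (hk' : k • resH2 H' (mk _ _ ⟨_, carryCocycle_mem E hn hζ hmem⟩) = 0) : (h₀ : ℤ) ∣ k := by
  classical
  set c₀ : Z2 Gal(E/ℚ_[q]) (Additive (↥E)ˣ) := ⟨_, carryCocycle_mem E hn hζ hmem⟩
  obtain ⟨heH, -, -, g₁, hg₁, hg₁exp⟩ := frobExp_image E hn hζ hmem H' hfH
  have hk2 : resH2 H' (mk _ _ (k • c₀)) = 0 := by
    exact ((congrArg (resH2 H') (map_zsmul (CochainH2.mk Gal(E/ℚ_[q]) (Additive (↥E)ˣ)) k c₀)).trans (map_zsmul (resH2 H') k _)).trans hk'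
  clear hk'
  rename' hk2 => hk'
  rw [resH2, map_mk_eq_zero] at hk'
  obtain ⟨x, hx⟩ := hk'
  set Q := Additive.ofMul (Units.mk0 (q : E) (norm_pos_iff.1 (norm_q_pos E)))
  set e := fun g : H' => frobExp E hn hζ hmem (g : Gal(E/ℚ_[q]))
  have hxe : ∀ g h : H', (g : Gal(E/ℚ_[q])) • x h - x (g * h) + x g = k • (((e g + e h) / n) • Q) :=
    fun g h => congrFun hx (g, h)
  set H₀ := (expKer E hn hζ hmem).subgroupOf H'
  have he0 : ∀ h : H₀, e (h : H') = 0 := fun h => h.2
  have : Fintype H₀ := Fintype.ofFinite _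
  obtain ⟨a, ha⟩ := CyclicH2.exists_eq_smul_sub (H := H₀) (L := E) (fun h => x (h : H')) fun g h => by
    have h' := hxe g h
    rw [he0, he0, add_zero, Nat.zero_div, zero_nsmul, zsmul_zero] at h'
    rw [Subgroup.coe_mul, eq_comm, ← sub_eq_zero]
    show (g : Gal(E/ℚ_[q])) • x (h : H') + x (g : H') - x ((g : H') * h) = 0
    rw [← h']; abel
  set x' : H' → Additive (↥E)ˣ := fun g => x g - ((g : Gal(E/ℚ_[q])) • a - a) with hx'
  have hxe' : ∀ g h : H',
      (g : Gal(E/ℚ_[q])) • x' h - x' (g * h) + x' g = k • (((e g + e h) / n) • Q) := fun g h => by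
    rw [← hxe g h]
    simp only [hx', Subgroup.coe_mul, smul_sub, mul_smul]
    abel
  have hx0 : ∀ h : H₀, x' (h : H') = 0 := fun h => by
    simp only [hx', ha h]
    exact sub_self _
  have hright : ∀ (g : H') (h : H₀), x' (g * h) = x' g := fun g h => by
    have h' := hxe' g h
    rw [hx0, he0, smul_zero, add_zero, Nat.div_eq_of_lt (frobExp_lt E hn hζ hmem _), zero_nsmul,
      zsmul_zero, zero_sub, neg_add_eq_zero] at h'
    exact h'
  have hinv : ∀ (g : H') (h : H₀), ((h : H') : Gal(E/ℚ_[q])) • x' g = x' g := fun g h => by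
    have hm : g⁻¹ * h * g ∈ H₀ := by
      show frobExp E hn hζ hmem ((g⁻¹ * h * g : H') : Gal(E/ℚ_[q])) = 0
      rw [Subgroup.coe_mul, Subgroup.coe_mul, frobExp_mul, frobExp_mul,
        show frobExp E hn hζ hmem ((h : H') : Gal(E/ℚ_[q])) = 0 from h.2, add_zero,
        Nat.mod_eq_of_lt (frobExp_lt E hn hζ hmem _), ← frobExp_mul, ← Subgroup.coe_mul,
        inv_mul_cancel, Subgroup.coe_one, frobExp_one]
    have h' := hxe' h g
    rw [hx0, he0, zero_add, Nat.div_eq_of_lt (frobExp_lt E hn hζ hmem _), zero_nsmul, zsmul_zero,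
      add_zero, show (h : H') * g = g * (g⁻¹ * h * g) by group, hright g ⟨_, hm⟩, sub_eq_zero] at h'
    exact h'
  set F := fix E H'
  have hmem' : ∀ g : H', ((((x' g).toMul : (↥E)ˣ) : E) : PadicAlgCl q) ∈
      fix E (H' ⊓ expKer E hn hζ hmem) := fun g => (mem_fix_iff E _).2 fun h hh =>
    congrArg (fun b : Additive (↥E)ˣ => ((b.toMul : (↥E)ˣ) : E)) (hinv g ⟨⟨h, hh.1⟩, hh.2⟩)
  have hy : ∀ g : H', ∃ i : ℤ, ‖(((x' g).toMul : (↥E)ˣ) : E)‖ = ‖uniformizer F‖ ^ i := fun g => by
    obtain ⟨i, hi⟩ := exists_norm_eq_zpow (fix E (H' ⊓ expKer E hn hζ hmem)) (x := ⟨_, hmem' g⟩)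
      fun h => (x' g).toMul.ne_zero (Subtype.ext (congrArg
        (fun y : fix E (H' ⊓ expKer E hn hζ hmem) => (y : PadicAlgCl q)) h))
    exact ⟨i, hi.trans (by rw [norm_uniformizer_eq (fix_antitone E inf_le_left) heH])⟩
  choose y hy using hy
  have hyrel : ∀ g h : H', y h - y (g * h) + y g = k * ((e g + e h) / n : ℕ) * ramIdx F := by
    intro g h
    apply zpow_norm_uniformizer_inj F
    have h' := congrArg (fun b : Additive (↥E)ˣ => ‖((b.toMul : (↥E)ˣ) : E)‖) (hxe' g h)
    simp only [toMul_add, toMul_sub, toMul_zsmul, toMul_nsmul, Units.val_mul,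
      Units.val_div_eq_div_val, Units.val_zpow_eq_zpow_val, Units.val_pow_eq_pow_val, norm_mul,
      norm_div, norm_zpow, norm_pow] at h'
    rw [show ‖(((g : Gal(E/ℚ_[q])) • x' h).toMul : E)‖ = ‖((x' h).toMul : E)‖ from norm_gal E _ _,
      hy, hy, hy] at h'
    rw [zpow_add₀ (norm_uniformizer_pos F).ne', zpow_sub₀ (norm_uniformizer_pos F).ne', h',
      show ‖((Q.toMul : (↥E)ˣ) : E)‖ = ‖uniformizer F‖ ^ ramIdx F by
        show ‖(q : E)‖ = _
        rw [norm_q, ← norm_q (F := F), norm_q_eq], ← pow_mul, ← zpow_natCast, ← zpow_mul]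
    congr 1
    push_cast
    ring
  have he_mul : ∀ g h : H', e (g * h) = (e g + e h) % n := fun g h => by
    show frobExp E hn hζ hmem ((g * h : H') : Gal(E/ℚ_[q])) = _
    rw [Subgroup.coe_mul, frobExp_mul]
  let z : H' → ℤ := fun g => (n : ℤ) * y g - k * ramIdx F * e g
  have hz : ∀ g h, z (g * h) = z g + z h := fun g h => by
    have h1 := hyrel g h
    have h2 : (e g + e h : ℤ) = ((e g + e h) % n : ℕ) + (n : ℤ) * ((e g + e h) / n : ℕ) := by
      exact_mod_cast (Nat.mod_add_div (e g + e h) n).symm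
    simp only [z, he_mul]
    linear_combination (k * (ramIdx F : ℤ)) * h2 - (n : ℤ) * h1
  have hz0 : z ⟨g₁, hg₁⟩ = 0 := by
    have hpow : ∀ i : ℕ, z ((⟨g₁, hg₁⟩ : H') ^ i) = i * z ⟨g₁, hg₁⟩ := fun i => by
      induction i with
      | zero =>
        have := hz 1 1
        simp only [mul_one] at this
        simp only [pow_zero, Nat.cast_zero, zero_mul]
        linarith
      | succ i ih => rw [pow_succ, hz, ih]; push_cast; ring
    have h := hpow (orderOf (⟨g₁, hg₁⟩ : H'))
    rw [pow_orderOf_eq_one, ← pow_zero (⟨g₁, hg₁⟩ : H'), hpow 0, Nat.cast_zero, zero_mul] at h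
    exact (mul_eq_zero.1 h.symm).resolve_left (Int.natCast_ne_zero.2 (orderOf_pos _).ne')
  simp only [z, e, hg₁exp] at hz0
  rcases Nat.lt_or_ge (resDeg F) n with hlt | hge
  · rw [Nat.mod_eq_of_lt hlt, mul_assoc k, ← Nat.cast_mul, ramIdx_mul_resDeg, sub_eq_zero] at hz0
    have hF0 : (Module.finrank ℚ_[q] F : ℤ) ≠ 0 := Int.natCast_ne_zero.2 Module.finrank_pos.ne'
    refine ⟨y ⟨g₁, hg₁⟩, mul_left_cancel₀ hF0 ?_⟩
    rw [← mul_assoc, mul_comm _ k, ← hz0, ← hcard, Nat.cast_mul]
  · have hfn : Module.finrank ℚ_[q] F ≤ n :=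
      Nat.le_of_dvd hn (Dvd.intro _ hcard)
    have h1 : resDeg F ≤ Module.finrank ℚ_[q] F :=
      Nat.le_of_dvd Module.finrank_pos (Dvd.intro_left _ (ramIdx_mul_resDeg F))
    have hH : h₀ = 1 := by
      have : Module.finrank ℚ_[q] F = n := le_antisymm hfn (hge.trans h1)
      rw [show Module.finrank ℚ_[q] (fix E H') = n from this] at hcard
      exact Nat.eq_of_mul_eq_mul_left hn (hcard.trans (mul_one n).symm)
    rw [hH, Nat.cast_one]; exact one_dvd k

end frobExp

section main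

variable (L : IntermediateField ℚ_[q] (PadicAlgCl q)) [FiniteDimensional ℚ_[q] L] [IsGalois ℚ_[q] L]

/-- A class whose restriction to each subgroup has full order. -/
theorem exists_class_order :
    ∃ u : H2 Gal(L/ℚ_[q]) (Additive (↥L)ˣ), ∀ (H : Subgroup Gal(L/ℚ_[q])) (k : ℤ),
      k • resH2 H u = 0 → (Nat.card H : ℤ) ∣ k := by
  classical
  set n := Module.finrank ℚ_[q] L with hndef
  have hn : 0 < n := Module.finrank_pos
  have hN : q ^ n - 1 ≠ 0 := by
    have := Nat.one_lt_pow hn.ne' (Fact.out : q.Prime).one_lt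
    omega
  have : NeZero ((q ^ n - 1 : ℕ) : PadicAlgCl q) := ⟨Nat.cast_ne_zero.2 hN⟩
  obtain ⟨ζ, hζ⟩ := HasEnoughRootsOfUnity.exists_primitiveRoot (PadicAlgCl q) (q ^ n - 1)
  set M : IntermediateField ℚ_[q] (PadicAlgCl q) := IntermediateField.adjoin ℚ_[q] {ζ}
  have : FiniteDimensional ℚ_[q] M :=
    IntermediateField.adjoin.finiteDimensional (Algebra.IsIntegral.isIntegral _)
  have : Normal ℚ_[q] M := IntermediateField.normal_iff_forall_map_le'.2 fun σ => by
    rw [IntermediateField.adjoin_map, IntermediateField.adjoin_le_iff, Set.image_singleton,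
      Set.singleton_subset_iff]
    have : NeZero (q ^ n - 1) := ⟨hN⟩
    obtain ⟨i, -, hi⟩ := hζ.eq_pow_of_pow_eq_one
      (show (σ ζ) ^ (q ^ n - 1) = 1 by rw [← map_pow, hζ.pow_eq_one, map_one])
    change σ ζ ∈ M
    rw [← hi]
    exact pow_mem (IntermediateField.mem_adjoin_simple_self _ ζ) i
  set E := L ⊔ M with hE
  have : FiniteDimensional ℚ_[q] E := IntermediateField.finiteDimensional_sup L M
  have : Normal ℚ_[q] E := by rw [hE]; infer_instance
  have : IsGalois ℚ_[q] E := ⟨⟩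
  have hLE : L ≤ E := le_sup_left
  have hmem : ζ ∈ E := (le_sup_right : M ≤ E) (IntermediateField.mem_adjoin_simple_self _ ζ)
  let : Algebra L E := (IntermediateField.inclusion hLE).toAlgebra
  have : IsScalarTower ℚ_[q] L E :=
    IsScalarTower.of_algebraMap_eq fun x => ((IntermediateField.inclusion hLE).commutes x).symm
  let π : Gal(E/ℚ_[q]) →* Gal(L/ℚ_[q]) := AlgEquiv.restrictNormalHom L
  have hπ : Function.Surjective π := AlgEquiv.restrictNormalHom_surjective (F := ℚ_[q]) (K₁ := L) E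
  have hπc : ∀ (g : Gal(E/ℚ_[q])) (x : L),
      algebraMap L E (π g x) = g (algebraMap L E x) := fun g x =>
    AlgEquiv.restrictNormal_commutes g L x
  have hι : ∀ (g : Gal(E/ℚ_[q])) (b : Additive (↥L)ˣ),
      LocalH2.unitsMap (L := E) (π g • b) = g • LocalH2.unitsMap b := fun g b =>
    Additive.toMul.injective (Units.ext (hπc g _))
  have hkerL : ∀ {g : Gal(E/ℚ_[q])}, g ∈ π.ker → ∀ x : E, (x : PadicAlgCl q) ∈ L → g x = x := by
    intro g hg x hx
    have h := hπc g ⟨x, hx⟩
    rw [MonoidHom.mem_ker.1 hg] at h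
    exact h.symm
  have hfixL : fix E π.ker = L := by
    refine le_antisymm ?_ ?_
    · intro x hx
      have hxE : x ∈ E := fix_le E _ hx
      -- compare degrees inside `E`
      have hLfix : L ≤ fix E π.ker := fun y hy => (mem_fix_iff E ⟨y, hLE hy⟩).2 fun g hg =>
        hkerL hg _ hy
      have hc : Nat.card π.ker * n = Module.finrank ℚ_[q] E := by
        have h1 : π.ker.index = n := by
          rw [Subgroup.index_ker, MonoidHom.range_eq_top.2 hπ, Subgroup.card_top,
            IsGalois.card_aut_eq_finrank]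
        rw [← IsGalois.card_aut_eq_finrank ℚ_[q] E, ← Subgroup.card_mul_index π.ker, h1]
      have hd : Module.finrank ℚ_[q] (fix E π.ker) = n := by
        apply Nat.eq_of_mul_eq_mul_right (show 0 < Nat.card π.ker from Nat.card_pos)
        rw [finrank_fix, ← hc, mul_comm]
      rw [IntermediateField.eq_of_le_of_finrank_eq hLfix hd.symm]
      exact hx
    · exact fun y hy => (mem_fix_iff E ⟨y, hLE hy⟩).2 fun g hg => hkerL hg _ hy
  set N := π.ker
  have hN0 : N ⊓ expKer E hn hζ hmem = ⊥ := by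
    refine eq_bot_iff.2 fun g hg => ?_
    rw [Subgroup.mem_bot]
    refine AlgEquiv.ext fun x => ?_
    have h1 : E ≤ fix E (Subgroup.zpowers g) := by
      refine sup_le (fun y hy => ?_) ?_
      · exact (mem_fix_iff E ⟨y, hLE hy⟩).2 fun h hh => hkerL ((Subgroup.zpowers_le.2 hg.1) hh) _ hy
      · rw [IntermediateField.adjoin_le_iff, Set.singleton_subset_iff]
        refine (mem_fix_iff E ⟨ζ, hmem⟩).2 fun h hh => Subtype.ext ?_
        rw [frobExp_spec E hn hζ hmem h,
          (mem_expKer E hn hζ hmem).1 ((Subgroup.zpowers_le.2 hg.2) hh), pow_zero, pow_one]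
    exact (mem_fix_iff E x).1 (h1 x.2) g (Subgroup.mem_zpowers g)
  have hfdvd : ∀ H : Subgroup Gal(L/ℚ_[q]), resDeg (fix E (H.comap π)) ∣ n ∧
      Module.finrank ℚ_[q] (fix E (H.comap π)) * Nat.card H = n := fun H => by
    have h1 : Module.finrank ℚ_[q] (fix E (H.comap π)) = H.index := by
      apply Nat.eq_of_mul_eq_mul_right (show 0 < Nat.card (H.comap π) from Nat.card_pos)
      rw [finrank_fix, ← IsGalois.card_aut_eq_finrank ℚ_[q] E,
        ← Subgroup.index_comap_of_surjective H hπ, mul_comm, Subgroup.card_mul_index]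
    have h2 : H.index * Nat.card H = n := by
      rw [mul_comm, Subgroup.card_mul_index, IsGalois.card_aut_eq_finrank]
    rw [h1]
    refine ⟨?_, h2⟩
    exact (Dvd.intro_left _ (ramIdx_mul_resDeg _)).trans (h1 ▸ Dvd.intro _ h2)
  have hNcomap : N = (⊥ : Subgroup Gal(L/ℚ_[q])).comap π := rfl
  set c₀ : Z2 Gal(E/ℚ_[q]) (Additive (↥E)ˣ) := ⟨_, carryCocycle_mem E hn hζ hmem⟩
  -- restriction to `N` is trivial
  have hres : resH2 N (mk _ _ c₀) = 0 := by
    have h2 := (hfdvd ⊥).2
    rw [Subgroup.card_bot, mul_one] at h2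
    exact restriction_eq_zero E hn hζ hmem N hN0 (hfdvd ⊥).1 h2
  have hι' : Function.Injective (LocalH2.unitsMap (F := L) (L := E)) := LocalH2.unitsMap_injective
  obtain ⟨u, hu⟩ := mem_range_inflation π hπ (LocalH2.unitsMap (F := L) (L := E)) hι' hι
    (fun a ha => by
      have hm : (((a.toMul : (↥E)ˣ) : E) : PadicAlgCl q) ∈ L := hfixL ▸ (mem_fix_iff E _).2
        fun g hg => congrArg (fun b : Additive (↥E)ˣ => ((b.toMul : (↥E)ˣ) : E)) (ha ⟨g, hg⟩)
      exact ⟨Additive.ofMul (Units.mk0 ⟨_, hm⟩ fun h => a.toMul.ne_zero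
        (Subtype.ext (congrArg (fun y : L => (y : PadicAlgCl q)) h))),
        Additive.toMul.injective (Units.ext rfl)⟩)
    (fun c hc => by
      have : Fintype π.ker := Fintype.ofFinite _
      exact CyclicH2.exists_eq_smul_sub c hc) _ hres
  refine ⟨u, fun H k hk => ?_⟩
  obtain ⟨hfH, hcard⟩ := hfdvd H
  set H' := H.comap π with hH'
  -- pull back to `E`
  let π' : H' →* H := (π.comp H'.subtype).codRestrict H fun g => g.2
  have hk' : k • resH2 H' (mk _ _ c₀) = 0 := by
    have hιH : ∀ (g : H') (b : Additive (↥L)ˣ),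
        LocalH2.unitsMap (L := E) (π' g • b) = g • LocalH2.unitsMap b :=
      fun g b => hι (g : Gal(E/ℚ_[q])) b
    have h := congrArg (map π' (LocalH2.unitsMap (F := L) (L := E)) hιH) hk
    rw [map_zsmul, map_zero] at h
    rw [← h]
    show k • resH2 H' _ = _
    congr 1
    rw [← hu, resH2, CochainH2.map_map]
    exact Eq.trans rfl (CochainH2.map_map H.subtype (AddMonoidHom.id _) (subtype_smul_id H) π'
      (LocalH2.unitsMap (F := L) (L := E)) hιH u).symm
  exact dvd_of_restriction_zero E hn hζ hmem H' hfH hcard k hk'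

/-- The local fundamental class: full order on all subgroups, a generator on `p`-subgroups. -/
theorem exists_fundamental :
    ∃ u : H2 Gal(L/ℚ_[q]) (Additive (↥L)ˣ),
      (∀ (H : Subgroup Gal(L/ℚ_[q])) (k : ℤ), k • resH2 H u = 0 → (Nat.card H : ℤ) ∣ k) ∧
      ∀ (p : ℕ) [Fact p.Prime] (P : Subgroup Gal(L/ℚ_[q])), IsPGroup p P →
        ∀ z : H2 P (Additive (↥L)ˣ), ∃ k : ℤ, z = k • resH2 P u := by
  obtain ⟨u, hu⟩ := exists_class_order L
  refine ⟨u, hu, fun p _ P hP z => ?_⟩
  let F := IntermediateField.fixedField P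
  let _ : NontriviallyNormedField F :=
    { (inferInstance : NormedField F) with
      non_trivial := by
        obtain ⟨x, hx⟩ := NormedField.exists_one_lt_norm ℚ_[q]
        exact ⟨algebraMap ℚ_[q] F x, by
          show 1 < ‖algebraMap ℚ_[q] L x‖
          rwa [norm_algebraMap']⟩ }
  let _ : NormedAlgebra F L :=
    { (inferInstance : Algebra F L) with
      norm_smul_le := fun x y => (norm_mul (x : L) y).le }
  have : ProperSpace F := FiniteDimensional.proper ℚ_[q] F
  have : IsUltrametricDist F := IsUltrametricDist.subtype _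
  let eP : Gal(L/F) ≃* P := (IntermediateField.fixingSubgroupEquiv F).symm.trans
    (MulEquiv.subgroupCongr (IntermediateField.fixingSubgroup_fixedField P))
  have heP : ∀ (g : Gal(L/F)) (a : Additive (↥L)ˣ), (eP g) • a = g • a := fun _ _ => rfl
  have hp' : IsPGroup p Gal(L/F) := hP.of_equiv eP.symm
  obtain ⟨hfin, hcard⟩ := LocalH2.card_le (K := F) (L := L) hp'
  let r : H2 P (Additive (↥L)ˣ) →+ H2 Gal(L/F) (Additive (↥L)ˣ) :=
    map eP.toMonoidHom (AddMonoidHom.id _) fun g a => heP g a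
  have hrinj : Function.Injective r := by
    let r' : H2 Gal(L/F) (Additive (↥L)ˣ) →+ H2 P (Additive (↥L)ˣ) :=
      map eP.symm.toMonoidHom (AddMonoidHom.id _) fun g a => by
        have h := heP (eP.symm g) a
        rw [MulEquiv.apply_symm_apply] at h
        exact h.symm
    refine Function.LeftInverse.injective (g := r') fun w => ?_
    obtain ⟨w, rfl⟩ := mk_surjective w
    show r' (r (mk _ _ w)) = mk _ _ w
    rw [show r (mk _ _ w) = mk _ _ _ from map_mk _ _ _ w, show r' (mk _ _ _) = mk _ _ _ from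
      map_mk _ _ _ _]
    refine congrArg _ (Subtype.ext (funext fun x => ?_))
    show (w : P × P → Additive (↥L)ˣ) (eP (eP.symm x.1), eP (eP.symm x.2)) = _
    rw [eP.apply_symm_apply, eP.apply_symm_apply]
  have : Finite (H2 P (Additive (↥L)ˣ)) := Finite.of_injective r hrinj
  set x := resH2 P u
  have hord : Nat.card P ∣ addOrderOf x := Int.natCast_dvd_natCast.1
    (hu P _ (by rw [natCast_zsmul]; exact addOrderOf_nsmul_eq_zero x))
  have htop : AddSubgroup.zmultiples x = ⊤ := by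
    apply AddSubgroup.eq_top_of_le_card
    rw [Nat.card_zmultiples]
    refine le_trans ?_ (Nat.le_of_dvd (addOrderOf_pos x) hord)
    refine (Nat.card_le_card_of_injective r hrinj).trans (hcard.trans_eq ?_)
    rw [← IsGalois.card_aut_eq_finrank F L, Nat.card_congr eP.toEquiv]
  obtain ⟨k, hk⟩ := AddSubgroup.mem_zmultiples_iff.1 (htop ▸ AddSubgroup.mem_top z)
  exact ⟨k, hk.symm⟩

end main

end Fermat.Agent.ClassField.LocalFundamental
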