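import Fermat.Agent.ClassField.Recip.Pair
import Fermat.Agent.ClassField.FirstInequality
import Mathlib.Analysis.SpecialFunctions.Complex.CircleAddChar

/-! Reciprocity for unramified cyclic extensions of prime degree: Frobenius factors through the class group. -/

set_option autoImplicit false

noncomputable section

open scoped NumberField nonZeroDivisors
open IsDedekindDomain NumberField

namespace Fermat.Agent.ClassField

open Recip

variable {K L : Type*} [Field K] [NumberField K] [Field L] [NumberField L] [Algebra K L] [IsGalois K L]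

/-- A prime with trivial Frobenius and trivial inertia splits completely. -/
private lemma ncard_primesOver_eq {p : ℕ} (hcard : Nat.card (L ≃ₐ[K] L) = p)
    (Q : Ideal (𝓞 L)) [Q.IsMaximal] [(Q.under (𝓞 K)).IsMaximal]
    (hI : Q.inertia (L ≃ₐ[K] L) = ⊥) (h : IsArithFrobAt (𝓞 K) (1 : L ≃ₐ[K] L) Q) :
    ((Q.under (𝓞 K)).primesOver (𝓞 L)).ncard = p := by
  set P := Q.under (𝓞 K)
  have : Q.LiesOver P := ⟨rfl⟩
  have hPbot : P ≠ ⊥ :=
    Ring.ne_bot_of_isMaximal_of_not_isField inferInstance (RingOfIntegers.not_isField K)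
  have h1 := (absNorm_eq_absNorm_under (K := K) Q fun x => by
    have := frob_smul_sub_pow_mem h 1 x
    rw [pow_one, pow_one, one_smul] at this
    simpa using Q.neg_mem_iff.mpr this).2
  have hf : Q.inertiaDeg (𝓞 K) = 1 := by
    have h2 := Ideal.relNorm_eq_pow_of_isMaximal Q P
    rw [h1] at h2
    have := ((IsLeftCancelMulZero.mul_left_cancel_of_ne_zero hPbot).pow_injective
      (by rw [Ideal.one_eq_top]; exact Ideal.IsMaximal.ne_top inferInstance))
        (show P ^ 1 = P ^ Q.inertiaDeg (𝓞 K) by rw [pow_one]; exact h2)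
    exact this.symm
  have h3 := Ideal.ncard_primesOver_mul_ramificationIdxIn_mul_inertiaDegIn P (𝓞 L) (L ≃ₐ[K] L)
  rw [← Ideal.card_inertia_eq_ramificationIdxIn (G := L ≃ₐ[K] L) P Q, hI,
    Ideal.inertiaDegIn_eq_inertiaDeg P Q (L ≃ₐ[K] L), hf, Subgroup.card_bot, one_mul, mul_one,
    hcard] at h3
  exact h3

/-- Reciprocity for unramified cyclic extensions of prime degree: Frobenius factors through the class group. -/
theorem exists_classGroup_frobenius_hom {p : ℕ} [Fact p.Prime] (hp2 : p ≠ 2) {ζ : K} (hζ : IsPrimitiveRoot ζ p)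
    (hd : Module.finrank K L = p)
    (hunr : ∀ Q : Ideal (𝓞 L), Q ≠ ⊥ → Q.IsPrime → Q.inertia (L ≃ₐ[K] L) = ⊥) :
    ∃ φ : Additive (ClassGroup (𝓞 K)) →+ Additive (L ≃ₐ[K] L), φ ≠ 0 ∧
      ∀ (P : (Ideal (𝓞 K))⁰) (Q : Ideal (𝓞 L)) (σ : L ≃ₐ[K] L), Q.IsPrime → Q.LiesOver (P : Ideal (𝓞 K)) →
        IsArithFrobAt (𝓞 K) σ Q → φ (Additive.ofMul (ClassGroup.mk0 P)) = Additive.ofMul σ := by
  classical
  have hp : p.Prime := Fact.out
  have : IsTotallyComplex K := by
    refine ⟨fun w => ?_⟩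
    by_contra hw
    rw [InfinitePlace.not_isComplex_iff_isReal] at hw
    have h1 : (InfinitePlace.embedding_of_isReal hw ζ) ^ p = 1 := by
      rw [← map_pow, hζ.pow_eq_one, map_one]
    have h2 : InfinitePlace.embedding_of_isReal hw ζ = 1 :=
      (hp.odd_of_ne_two hp2).pow_injective (by simp only; rw [h1, one_pow])
    exact hζ.ne_one hp.one_lt ((map_eq_one_iff _ (RingHom.injective _)).mp h2)
  have hcard : Nat.card (L ≃ₐ[K] L) = p := by rw [IsGalois.card_aut_eq_finrank, hd]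
  have hne : ∀ Q : Ideal (𝓞 L), Q.IsMaximal → Q ≠ ⊥ := fun Q hQ =>
    Ring.ne_bot_of_isMaximal_of_not_isField hQ (RingOfIntegers.not_isField L)
  have hunr' : ∀ Q : Ideal (𝓞 L), Q.IsMaximal → Q.inertia (L ≃ₐ[K] L) = ⊥ := fun Q hQ =>
    hunr Q (hne Q hQ) hQ.isPrime
  obtain ⟨ψ, hψ0, hψ⟩ := exists_character_split_le_ker hd hunr
  have hcyc := isCyclic_of_prime_card (α := L ≃ₐ[K] L) hcard
  have hcomm : ∀ a b : L ≃ₐ[K] L, a * b = b * a := fun a b => mul_comm' a b
  -- `Gal(L/K) ≅ ℤ/p`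
  let eG : Multiplicative (ZMod p) ≃* (L ≃ₐ[K] L) :=
    mulEquivOfPrimeCardEq (p := p) (by simp) hcard
  let c : AddChar (ZMod p) Circle := ZMod.toCircle
  let θ₀ : Multiplicative (ZMod p) →* ℂˣ := Circle.toUnits.comp c.toMonoidHom
  have hθ₀ : Function.Injective θ₀ := fun a b h => by
    have h' : c.toMonoidHom a = c.toMonoidHom b := Circle.ext (congrArg Units.val h)
    exact Multiplicative.toAdd.injective (ZMod.injective_toCircle h')
  let θ : (L ≃ₐ[K] L) →* ℂˣ := θ₀.comp eG.symm.toMonoidHom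
  let ψC : ClassGroup (𝓞 K) →* ℂˣ := θ₀.comp (AddMonoidHom.toMultiplicativeRight ψ)
  have hψC : ∀ x, ψC x = θ₀ (Multiplicative.ofAdd (ψ (Additive.ofMul x))) := fun x => rfl
  have hψCp : ψC ^ p = 1 := by
    refine MonoidHom.ext fun x => ?_
    rw [MonoidHom.pow_apply, hψC, ← map_pow, ← ofAdd_nsmul, MonoidHom.one_apply]
    simp
  have hψCs : ∀ (Q : Ideal (𝓞 L)) [Q.IsMaximal] [(Q.under (𝓞 K)).IsMaximal],
      IsArithFrobAt (𝓞 K) (1 : L ≃ₐ[K] L) Q →
        ψC (ClassGroup.mk0 (ideal0 (Q.under (𝓞 K)))) = 1 := fun Q _ _ h => by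
    rw [hψC, hψ (ideal0 (Q.under (𝓞 K))) (inferInstance : (Q.under (𝓞 K)).IsMaximal).isPrime
      (ncard_primesOver_eq hcard Q (hunr' Q inferInstance) h), ofAdd_zero, map_one]
  have pair := exists_common_exponent hp hp2 hcard hunr' θ (hθ₀.comp eG.symm.injective) ψC hψCp hψCs
  -- a prime on which `ψ` is nonzero
  obtain ⟨Q₀, hQ₀, hQ₀', hψQ₀⟩ : ∃ (Q : Ideal (𝓞 L)) (_ : Q.IsMaximal)
      (_ : (Q.under (𝓞 K)).IsMaximal),
      ψ (Additive.ofMul (ClassGroup.mk0 (ideal0 (Q.under (𝓞 K))))) ≠ 0 := by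
    by_contra hall
    push Not at hall
    apply hψ0
    refine AddMonoidHom.ext fun x => ?_
    obtain ⟨I, hI⟩ := ClassGroup.mk0_surjective x.toMul
    rw [show x = Additive.ofMul (ClassGroup.mk0 I) by rw [hI]; rfl]
    suffices h : ∀ J : Ideal (𝓞 K), ∀ hJ : J ∈ (Ideal (𝓞 K))⁰,
        ψ (Additive.ofMul (ClassGroup.mk0 ⟨J, hJ⟩)) = 0 from h I I.2
    intro J
    induction J using UniqueFactorizationMonoid.induction_on_prime with
    | h₁ => intro hJ; exact absurd rfl (nonZeroDivisors.ne_zero hJ)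
    | h₂ u hu =>
      intro hJ
      rw [(ClassGroup.mk0_eq_one_iff hJ).mpr ?_, ofMul_one, map_zero]
      rw [(Ideal.isUnit_iff.mp hu)]
      exact ⟨1, by simp⟩
    | h₃ a q ha hq ih =>
      intro hJ
      have hq' : q.IsMaximal := (Ideal.isPrime_of_prime hq).isMaximal hq.ne_zero
      obtain ⟨Q, hQm, hQo⟩ :=
        Ideal.exists_maximal_ideal_liesOver_of_isIntegral (S := 𝓞 L) q
      have hq'' : (Q.under (𝓞 K)).IsMaximal := hQo.over ▸ hq'
      have h1 := hall Q hQm hq''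
      have h2 : ψ (Additive.ofMul (ClassGroup.mk0 (ideal0 q))) = 0 := by
        rwa [show ideal0 q = ideal0 (Q.under (𝓞 K)) from Subtype.ext hQo.over]
      have ha' : a ∈ (Ideal (𝓞 K))⁰ := mem_nonZeroDivisors_of_ne_zero ha
      rw [show (⟨q * a, hJ⟩ : (Ideal (𝓞 K))⁰) = ideal0 q * ⟨a, ha'⟩ from rfl, map_mul,
        ofMul_mul, map_add, h2, ih ha', zero_add]
  obtain ⟨σ₀, hσ₀⟩ := exists_isArithFrobAt (K := K) Q₀
  have hσ₀ne : σ₀ ≠ 1 := fun h => hψQ₀ <| by
    subst h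
    exact hψ _ (inferInstance : (Q₀.under (𝓞 K)).IsMaximal).isPrime
      (ncard_primesOver_eq hcard Q₀ (hunr' Q₀ inferInstance) hσ₀)
  let ind : (L ≃ₐ[K] L) → ZMod p := fun σ => Multiplicative.toAdd (eG.symm σ)
  set k : ZMod p := ψ (Additive.ofMul (ClassGroup.mk0 (ideal0 (Q₀.under (𝓞 K))))) * (ind σ₀)⁻¹
    with hk
  have hind₀ : ind σ₀ ≠ 0 := fun h => hσ₀ne <| by
    have : eG.symm σ₀ = 1 := h
    simpa using congrArg eG this
  have hkne : k ≠ 0 := mul_ne_zero hψQ₀ (inv_ne_zero hind₀)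
  have hrel : ∀ (σ : L ≃ₐ[K] L) (x : ClassGroup (𝓞 K)) (j : ℕ),
      ψC x = θ σ ^ j → ψ (Additive.ofMul x) = j * ind σ := by
    intro σ x j h
    rw [hψC, show θ σ = θ₀ (eG.symm σ) from rfl, ← map_pow] at h
    have := congrArg Multiplicative.toAdd (hθ₀ h)
    rw [toAdd_ofAdd, toAdd_pow, nsmul_eq_mul] at this
    exact this
  have main : ∀ (Q : Ideal (𝓞 L)) [Q.IsMaximal] [(Q.under (𝓞 K)).IsMaximal] (σ : L ≃ₐ[K] L),
      IsArithFrobAt (𝓞 K) σ Q →
      ψ (Additive.ofMul (ClassGroup.mk0 (ideal0 (Q.under (𝓞 K))))) = k * ind σ := by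
    intro Q _ _ σ hσ
    by_cases h1 : σ = 1
    · subst h1
      rw [hψ _ (inferInstance : (Q.under (𝓞 K)).IsMaximal).isPrime
        (ncard_primesOver_eq hcard Q (hunr' Q inferInstance) hσ)]
      simp [ind]
    · obtain ⟨j, hj₀, hj⟩ := pair Q₀ Q σ₀ σ hσ₀ hσ hσ₀ne h1
      rw [hrel σ _ j hj, hk, hrel σ₀ _ j hj₀, mul_inv_cancel_right₀ hind₀]
  let back : ZMod p →+ Additive (L ≃ₐ[K] L) :=
    { toFun := fun t => Additive.ofMul (eG (Multiplicative.ofAdd t))
      map_zero' := by simp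
      map_add' := fun a b => by simp }
  refine ⟨back.comp ((AddMonoidHom.mulLeft k⁻¹).comp ψ), fun h => hψQ₀ ?_, ?_⟩
  · have h' := DFunLike.congr_fun h (Additive.ofMul (ClassGroup.mk0 (ideal0 (Q₀.under (𝓞 K)))))
    have h'' : eG (Multiplicative.ofAdd
        (k⁻¹ * ψ (Additive.ofMul (ClassGroup.mk0 (ideal0 (Q₀.under (𝓞 K))))))) = 1 := h'
    rw [← map_one eG, eG.injective.eq_iff, ofAdd_eq_one, mul_eq_zero] at h''
    exact h''.resolve_left (inv_ne_zero hkne)
  · intro P Q σ hQp hQo hσ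
    have hQne : Q ≠ ⊥ := fun h => by
      have := hQo.over
      rw [h] at this
      exact nonZeroDivisors.coe_ne_zero P (this.trans (Ideal.under_bot (𝓞 K) (𝓞 L)))
    have : Q.IsMaximal := hQp.isMaximal hQne
    have : (Q.under (𝓞 K)).IsMaximal := Ideal.isMaximal_comap_of_isIntegral_of_isMaximal Q
    rw [show P = ideal0 (Q.under (𝓞 K)) from Subtype.ext hQo.over]
    change Additive.ofMul (eG (Multiplicative.ofAdd
      (k⁻¹ * ψ (Additive.ofMul (ClassGroup.mk0 (ideal0 (Q.under (𝓞 K)))))))) = _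
    rw [main Q σ hσ, inv_mul_cancel_left₀ hkne]
    simp [ind]

end Fermat.Agent.ClassField
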